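import Fermat.Agent.AV.Jac.ChartsCurve

/-!
The domain of regularity of a transcendental function on a smooth proper curve is affine and
finite over the affine line.
-/

set_option autoImplicit false
set_option linter.style.haveILetI false

universe u

open CategoryTheory CategoryTheory.Limits AlgebraicGeometry TopologicalSpace Polynomial

namespace FermatLib.AV.ChartsCurve

variable {k : Type u} [Field k] {C : Scheme.{u}} (c : C ⟶ Spec (CommRingCat.of k))

lemma ι_comp_eq (U : C.Opens) : U.ι ≫ c = U.toSpecΓ ≫ Spec.map (baseMap c U) := by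
  refine ext_of_isAffine ?_
  have e : (Spec.map (baseMap c U)).appTop ≫ (Scheme.ΓSpecIso Γ(C, U)).hom =
      (Scheme.ΓSpecIso (CommRingCat.of k)).hom ≫ baseMap c U :=
    Scheme.ΓSpecIso_naturality _
  rw [Scheme.Hom.comp_appTop, Scheme.Hom.comp_appTop, Scheme.Opens.toSpecΓ_appTop,
    reassoc_of% e, baseMap, Category.assoc, Iso.hom_inv_id_assoc]
  simp only [Scheme.Hom.appTop, Scheme.Hom.app_eq_appLE, Scheme.Opens.ι_appLE, Scheme.Opens.topIso]
  exact (Scheme.Hom.appLE_map c _ _).trans (Scheme.Hom.appLE_map c _ _).symm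

/-- Evaluation of polynomials at a section. -/
noncomputable def evalAt (U : C.Opens) (s : Γ(C, U)) : CommRingCat.of k[X] ⟶ Γ(C, U) :=
  CommRingCat.ofHom (Polynomial.eval₂RingHom (baseMap c U).hom s)

lemma C_evalAt (U : C.Opens) (s : Γ(C, U)) :
    CommRingCat.ofHom (Polynomial.C : k →+* k[X]) ≫ evalAt c U s = baseMap c U := by
  ext r
  simp [evalAt]

lemma evalAt_X (U : C.Opens) (s : Γ(C, U)) : (evalAt c U s).hom X = s := by simp [evalAt]

/-- The map to the affine line given by a section. -/
noncomputable def toLine (U : C.Opens) (s : Γ(C, U)) :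
    U.toScheme ⟶ Spec (CommRingCat.of k[X]) :=
  U.toSpecΓ ≫ Spec.map (evalAt c U s)

lemma toLine_comp (U : C.Opens) (s : Γ(C, U)) :
    toLine c U s ≫ Spec.map (CommRingCat.ofHom Polynomial.C) = U.ι ≫ c := by
  rw [toLine, Category.assoc, ← Spec.map_comp, C_evalAt, ι_comp_eq]

lemma toLine_appTop (U : C.Opens) (s : Γ(C, U)) :
    (toLine c U s).appTop ((Scheme.ΓSpecIso (CommRingCat.of k[X])).inv X) = U.topIso.inv s := by
  have e : (Scheme.ΓSpecIso (CommRingCat.of k[X])).inv ≫ (toLine c U s).appTop =
      evalAt c U s ≫ U.topIso.inv := by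
    rw [toLine, Scheme.Hom.comp_appTop, Scheme.Opens.toSpecΓ_appTop]
    have e' : (Spec.map (evalAt c U s)).appTop ≫ (Scheme.ΓSpecIso Γ(C, U)).hom =
        (Scheme.ΓSpecIso (CommRingCat.of k[X])).hom ≫ evalAt c U s :=
      Scheme.ΓSpecIso_naturality _
    rw [reassoc_of% e', Iso.inv_hom_id_assoc]
  have := congr($(e) X)
  refine this.trans ?_
  change U.topIso.inv ((evalAt c U s).hom X) = _
  rw [evalAt_X]

lemma toLine_preimage_basicOpen (U : C.Opens) (s : Γ(C, U)) (f : k[X]) :
    toLine c U s ⁻¹ᵁ PrimeSpectrum.basicOpen f =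
      U.ι ⁻¹ᵁ C.basicOpen ((evalAt c U s).hom f) := by
  rw [← Scheme.Opens.toSpecΓ_preimage_basicOpen]
  rfl

variable [IsIntegral C] [SmoothOfRelativeDimension 1 c] [IsProper c]

variable {t : C.functionField}

/-- The graph of a function, over its domain of regularity. -/
noncomputable def graphHom (s : Γ(C, regOpens t)) :
    (regOpens t).toScheme ⟶ pullback c (Spec.map (CommRingCat.ofHom (Polynomial.C : k →+* k[X]))) :=
  pullback.lift (regOpens t).ι (toLine c _ s) (toLine_comp c _ s).symm

omit [IsProper c] in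
lemma isClosed_range_graphHom (ht : t ≠ 0) (s : Γ(C, regOpens t))
    (hs : toFn _ (genericPoint_mem_regOpens t) s = t) :
    IsClosed (Set.range (graphHom c s)) := by
  set q := Spec.map (CommRingCat.ofHom (Polynomial.C : k →+* k[X]))
  set γ := graphHom c s with hγ
  have hγ1 : γ ≫ pullback.fst c q = (regOpens t).ι := pullback.lift_fst _ _ _
  have hγ2 : γ ≫ pullback.snd c q = toLine c (regOpens t) s := pullback.lift_snd _ _ _
  rw [← isOpen_compl_iff, isOpen_iff_forall_mem_open]
  intro z hz
  by_cases hpU : pullback.fst c q z ∈ (regOpens t)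
  · let W := pullback.fst c q ⁻¹ᵁ (regOpens t)
    have hr : Set.range γ ⊆ Set.range W.ι := by
      rintro _ ⟨u, rfl⟩
      rw [Scheme.Opens.range_ι]
      change (γ ≫ pullback.fst c q) u ∈ (regOpens t)
      rw [hγ1]
      exact u.2
    let γ' := IsOpenImmersion.lift W.ι γ hr
    have hfac : γ' ≫ W.ι = γ := IsOpenImmersion.lift_fac _ _ _
    have hsec : γ' ≫ (pullback.fst c q ∣_ (regOpens t)) = 𝟙 _ := by
      rw [← cancel_mono (regOpens t).ι, Category.assoc, morphismRestrict_ι, reassoc_of% hfac, hγ1,
        Category.id_comp]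
    haveI : IsClosedImmersion (γ' ≫ (pullback.fst c q ∣_ (regOpens t))) := hsec ▸ inferInstance
    haveI : IsClosedImmersion γ' := IsClosedImmersion.of_comp γ' (pullback.fst c q ∣_ (regOpens t))
    refine ⟨W.ι '' (Set.range γ')ᶜ, ?_, W.ι.isOpenEmbedding.isOpenMap _
      γ'.isClosedEmbedding.isClosed_range.isOpen_compl, ⟨⟨z, hpU⟩, ?_, rfl⟩⟩
    · rintro _ ⟨w, hw, rfl⟩ ⟨u, hu⟩
      refine hw ⟨u, W.ι.isOpenEmbedding.injective ?_⟩
      rw [← hu, ← hfac]
      rfl
    · rintro ⟨u, hu⟩
      refine hz ⟨u, ?_⟩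
      rw [← hfac]
      exact congrArg W.ι hu
  · set W1 := regOpens t⁻¹
    have hpW : pullback.fst c q z ∈ W1 := (regularAt_or_inv c t _).resolve_left hpU
    obtain ⟨y, hy⟩ := exists_regSection t⁻¹
    let V := pullback.fst c q ⁻¹ᵁ W1
    let Xt := (Scheme.ΓSpecIso (CommRingCat.of k[X])).inv X
    let a : Γ(pullback c q, V) := (pullback.fst c q).app W1 y
    let b : Γ(pullback c q, V) := (pullback.snd c q).appLE ⊤ V (by simp) Xt
    let g := a * b - 1
    refine ⟨(pullback c q).basicOpen g, ?_, ((pullback c q).basicOpen g).isOpen, ?_⟩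
    · rintro w hw ⟨u, rfl⟩
      have hu : u ∈ γ ⁻¹ᵁ (pullback c q).basicOpen g := hw
      rw [Scheme.preimage_basicOpen] at hu
      have huV : u ∈ γ ⁻¹ᵁ V := (regOpens t).toScheme.basicOpen_le _ hu
      set V' := γ ⁻¹ᵁ V
      have hη : genericPoint C ∈ (regOpens t).ι ''ᵁ V' := genericPoint_mem ⟨⟨(regOpens t).ι u, u, huV, rfl⟩⟩
      have ha : toFn ((regOpens t).ι ''ᵁ V') hη (γ.app V a) = t⁻¹ := by
        have e : (pullback.fst c q).app W1 ≫ γ.app V = (regOpens t).ι.appLE W1 V'
            (le_of_eq (by simp only [V', V, ← Scheme.Hom.comp_preimage, hγ1])) := by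
          rw [Scheme.Hom.app_eq_appLE, Scheme.Hom.app_eq_appLE, Scheme.Hom.appLE_comp_appLE]
          simp only [hγ1]
          rfl
        change toFn ((regOpens t).ι ''ᵁ V') hη (((pullback.fst c q).app W1 ≫ γ.app V) y) = _
        rw [e, Scheme.Opens.ι_appLE]
        exact (toFn_res _ hη y).trans hy
      have hb : toFn ((regOpens t).ι ''ᵁ V') hη (γ.app V b) = t := by
        have e : (pullback.snd c q).appLE ⊤ V (by simp) ≫ γ.app V =
            (toLine c (regOpens t) s).appTop ≫ (regOpens t).toScheme.presheaf.map (homOfLE (le_top : V' ≤ ⊤)).op := by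
          rw [Scheme.Hom.app_eq_appLE]
          erw [Scheme.Hom.appLE_comp_appLE]
          simp only [hγ2]
          rfl
        change toFn ((regOpens t).ι ''ᵁ V') hη (((pullback.snd c q).appLE ⊤ V (by simp) ≫ γ.app V) Xt) = _
        rw [e]
        change toFn ((regOpens t).ι ''ᵁ V') hη ((regOpens t).toScheme.presheaf.map _ ((toLine c (regOpens t) s).appTop Xt)) = _
        rw [toLine_appTop]
        refine ((C.presheaf.germ_res_apply _ _ hη _).trans ?_)
        exact (C.presheaf.germ_res_apply _ _ _ s).trans hs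
      have hg0 : γ.app V g = 0 := by
        apply toFn_injective hη
        change (toFn ((regOpens t).ι ''ᵁ V') hη).hom ((γ.app V).hom (a * b - 1)) =
          (toFn ((regOpens t).ι ''ᵁ V') hη).hom 0
        rw [map_sub, map_mul, map_one, map_zero]
        erw [map_sub, map_mul, map_one]
        erw [ha, hb]
        rw [inv_mul_cancel₀ ht, sub_self]
      rw [hg0, Scheme.basicOpen_zero] at hu
      exact hu
    · refine (Scheme.mem_basicOpen _ g z hpW).mpr ?_
      rw [map_sub, map_mul, map_one]
      have hnu : ¬ IsUnit ((pullback c q).presheaf.germ V z hpW a) := by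
        intro hunit
        rw [show a = (pullback.fst c q).app W1 y from rfl,
          ← Scheme.Hom.germ_stalkMap_apply (pullback.fst c q) W1 z hpW y] at hunit
        obtain ⟨v, hv⟩ := (isUnit_map_iff ((pullback.fst c q).stalkMap z).hom _).mp hunit
        refine hpU ⟨(↑v⁻¹ : C.presheaf.stalk (pullback.fst c q z)), ?_⟩
        rw [map_units_inv, hv, algebraMap_germ]
        erw [hy]
        rw [inv_inv]
      rw [← IsUnit.neg_iff, neg_sub]
      exact IsLocalRing.isUnit_one_sub_self_of_mem_nonunits _ fun h => hnu (isUnit_of_mul_isUnit_left h)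

lemma isProper_toLine (ht : t ≠ 0) (s : Γ(C, regOpens t))
    (hs : toFn _ (genericPoint_mem_regOpens t) s = t) : IsProper (toLine c _ s) := by
  haveI : IsImmersion (graphHom c s ≫ pullback.fst _ _) := by
    rw [graphHom, pullback.lift_fst]; infer_instance
  haveI : IsImmersion (graphHom c s) := IsImmersion.of_comp _ (pullback.fst _ _)
  haveI : IsClosedImmersion (graphHom c s) :=
    .of_isPreimmersion _ (isClosed_range_graphHom c ht s hs)
  rw [← show graphHom c s ≫ pullback.snd _ _ = toLine c _ s from pullback.lift_snd _ _ _]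
  infer_instance

lemma finite_preimage_toLine (ht : letI := fnAlgebra c; Transcendental k t)
    (s : Γ(C, regOpens t)) (hs : toFn _ (genericPoint_mem_regOpens t) s = t)
    [IsProper (toLine c _ s)] (a : Spec (CommRingCat.of k[X])) :
    (toLine c _ s ⁻¹' {a}).Finite := by
  set φ := toLine c (regOpens t) s
  haveI : Nonempty (regOpens t) := ⟨⟨_, genericPoint_mem_regOpens t⟩⟩
  let η : (regOpens t).toScheme := ⟨genericPoint C, genericPoint_mem_regOpens t⟩
  have hclosed : ∀ u : (regOpens t).toScheme, u ≠ η → IsClosed ({u} : Set (regOpens t).toScheme) := fun u hu => by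
    have := isClosed_singleton c (p := (regOpens t).ι u) fun h => hu (Subtype.ext h)
    convert this.preimage (regOpens t).ι.continuous using 1
    ext v
    exact ((regOpens t).ι.isOpenEmbedding.injective.eq_iff).symm
  have himg : ∀ u : (regOpens t).toScheme, u ≠ η → IsClosed ({φ u} : Set (Spec (CommRingCat.of k[X]))) :=
    fun u hu => by
      rw [← Set.image_singleton]
      exact φ.isClosedMap _ (hclosed u hu)
  by_cases hη : φ η = a
  · refine (Set.finite_singleton η).subset fun u hu => ?_
    by_contra hne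
    have ha : IsClosed ({a} : Set (Spec (CommRingCat.of k[X]))) := hu ▸ himg u hne
    have hmax : (a : PrimeSpectrum k[X]).asIdeal.IsMaximal :=
      (PrimeSpectrum.isClosed_singleton_iff_isMaximal _).mp ha
    obtain ⟨f, hfa, hf0⟩ := (Submodule.ne_bot_iff _).mp
      (Ring.ne_bot_of_isMaximal_of_not_isField hmax (Polynomial.not_isField k))
    have hη' : η ∉ φ ⁻¹ᵁ PrimeSpectrum.basicOpen f := fun h => by
      have : a ∈ PrimeSpectrum.basicOpen f := hη ▸ h
      exact this hfa
    rw [toLine_preimage_basicOpen] at hη'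
    let _ := fnAlgebra c
    refine hf0 (transcendental_iff.mp ht f ?_)
    by_contra hne0
    apply hη'
    change genericPoint C ∈ C.basicOpen ((evalAt c (regOpens t) s).hom f)
    rw [Scheme.mem_basicOpen _ _ _ (genericPoint_mem_regOpens t)]
    refine Ne.isUnit ?_
    change (toFn (regOpens t) _).hom ((evalAt c (regOpens t) s).hom f) ≠ 0
    convert hne0 using 1
    rw [evalAt, CommRingCat.hom_ofHom, Polynomial.coe_eval₂RingHom, Polynomial.hom_eval₂,
      Polynomial.aeval_def]
    congr 1
    exact RingHom.ext (baseMap_toFn c (regOpens t) _)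
  · rcases (φ ⁻¹' {a}).eq_empty_or_nonempty with h | ⟨u, hu⟩
    · simp [h]
    have hune : u ≠ η := fun h => hη (h ▸ hu)
    have ha : IsClosed ({a} : Set (Spec (CommRingCat.of k[X]))) := hu ▸ himg u hune
    have hfib : IsClosed (φ ⁻¹' {a}) := ha.preimage φ.continuous
    refine Set.Finite.of_finite_image ?_ (regOpens t).ι.isOpenEmbedding.injective.injOn
    obtain ⟨Z, hZ, hZU⟩ : ∃ Z : Set C, IsClosed Z ∧ (regOpens t).ι ⁻¹' Z = φ ⁻¹' {a} :=
      (regOpens t).ι.isOpenEmbedding.isInducing.isClosed_iff.mp hfib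
    let Z' := closure ((regOpens t).ι '' (φ ⁻¹' {a}))
    have hZ' : genericPoint C ∉ Z' := fun h => hη <| by
      have hsub : Z' ⊆ Z := closure_minimal (by rw [← hZU]; exact Set.image_preimage_subset _ _) hZ
      have : η ∈ (regOpens t).ι ⁻¹' Z := hsub h
      rwa [hZU] at this
    exact (finite_of_isClosed c isClosed_closure hZ').subset subset_closure

/-- The domain of regularity of a transcendental function is affine, and finite over the line. -/
theorem affine_finite_regOpens (ht : letI := fnAlgebra c; Transcendental k t)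
    (s : Γ(C, regOpens t)) (hs : toFn _ (genericPoint_mem_regOpens t) s = t) :
    IsAffineOpen (regOpens t) ∧ (evalAt c (regOpens t) s).hom.Finite := by
  have ht0 : t ≠ 0 := by
    rintro rfl
    letI := fnAlgebra c
    exact ht isAlgebraic_zero
  haveI := isProper_toLine c ht0 s hs
  haveI : LocallyQuasiFinite (toLine c _ s) :=
    .of_finite_preimage_singleton _ (finite_preimage_toLine c ht s hs)
  haveI hfin : IsFinite (toLine c _ s) := .of_isProper_of_locallyQuasiFinite _
  have hU : IsAffineOpen (regOpens t) := isAffine_of_isAffineHom (toLine c _ s)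
  refine ⟨hU, (IsFinite.SpecMap_iff (evalAt c (regOpens t) s)).mp ?_⟩
  haveI : IsIso (regOpens t).toSpecΓ := by
    rw [← hU.isoSpec_hom]; infer_instance
  haveI : IsFinite (inv (regOpens t).toSpecΓ ≫ toLine c _ s) := inferInstance
  simpa [toLine] using this

end FermatLib.AV.ChartsCurve
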