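import Fermat.Agent.AV.Jac.CurveCharts
import Fermat.Agent.AV.Jac.ChartsFinite

/-!
Existence of the two-chart presentation of a smooth proper curve over an algebraically closed field.
-/

set_option autoImplicit false
set_option linter.style.haveILetI false

universe u

open CategoryTheory CategoryTheory.Limits AlgebraicGeometry NeronModelInfra TopologicalSpace
open scoped TensorProduct IntermediateField

namespace FermatLib.AV.ChartsCurve

variable {k : Type u} [Field k] {C : Scheme.{u}} (c : C ⟶ Spec (CommRingCat.of k))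

variable [IsIntegral C]

omit [Field k] in
/-- The overlap of the two domains of regularity is a basic open subset of the first one. -/
lemma regOpens_inf {t : C.functionField} (ht : t ≠ 0) (s : Γ(C, regOpens t))
    (hs : toFn _ (genericPoint_mem_regOpens t) s = t) :
    regOpens t ⊓ regOpens t⁻¹ = C.basicOpen s := by
  apply le_antisymm
  · rintro p ⟨hp, b, hb⟩
    refine (Scheme.mem_basicOpen C s p hp).mpr (IsUnit.of_mul_eq_one b ?_)
    apply IsFractionRing.injective (C.presheaf.stalk p) C.functionField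
    rw [map_mul, map_one, hb, algebraMap_germ]
    erw [hs]
    exact mul_inv_cancel₀ ht
  · intro p hp
    have hpU : p ∈ regOpens t := C.basicOpen_le s hp
    refine ⟨hpU, ?_⟩
    obtain ⟨v, hv⟩ := (Scheme.mem_basicOpen C s p hpU).mp hp
    refine ⟨(↑v⁻¹ : C.presheaf.stalk p), ?_⟩
    rw [map_units_inv, hv, algebraMap_germ]
    erw [hs]

variable [SmoothOfRelativeDimension 1 c] [IsProper c] [IsAlgClosed k]

include c in
/-- A global function on a proper integral curve is constant. -/
lemma exists_const {f : C.functionField} (hf : ∀ p, RegularAt f p) :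
    ∃ r : k, toFn ⊤ trivial (baseMap c ⊤ r) = f := by
  obtain ⟨g, hg⟩ : ∃ g : Γ(C, ⊤), toFn ⊤ trivial g = f := by
    have h : ∀ W : C.Opens, W = regOpens f → ∀ hη : genericPoint C ∈ W,
        ∃ g : Γ(C, W), toFn W hη g = f := by
      rintro _ rfl hη
      exact exists_regSection f
    exact h ⊤ (eq_top_iff.mpr fun p _ => hf p).symm trivial
  let _ : Algebra k Γ(C, ⊤) := (baseMap c ⊤).hom.toAlgebra
  haveI : Module.Finite k Γ(C, ⊤) := by
    have h := finite_appTop_of_universallyClosed k c
    have h' : baseMap c ⊤ = (Scheme.ΓSpecIso (CommRingCat.of k)).inv ≫ c.appTop := by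
      rw [baseMap, Scheme.Hom.appTop, Scheme.Hom.app_eq_appLE]; rfl
    change (baseMap c ⊤).hom.Finite
    rw [h']
    exact RingHom.Finite.comp h (RingHom.Finite.of_surjective _
      (Scheme.ΓSpecIso (CommRingCat.of k)).symm.commRingCatIsoToRingEquiv.surjective)
  obtain ⟨r, hr⟩ := (IsAlgClosed.algebraMap_bijective_of_isIntegral (k := k) (K := Γ(C, ⊤))).2 g
  exact ⟨r, by rw [← hg, ← hr]; rfl⟩

omit [IsAlgClosed k] in
include c in
/-- The domain of regularity as a chart: a finite free algebra over the polynomial ring. -/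
lemma exists_basis {t : C.functionField} (ht : letI := fnAlgebra c; Transcendental k t)
    (s : Γ(C, regOpens t)) (hs : toFn _ (genericPoint_mem_regOpens t) s = t) :
    letI := fnAlgebra c
    letI : Algebra k Γ(C, regOpens t) := (baseMap c _).hom.toAlgebra
    ∃ b : Fin (Module.finrank k⟮t⟯ C.functionField) → Γ(C, regOpens t), Function.Bijective
      fun p : Fin (Module.finrank k⟮t⟯ C.functionField) → Polynomial k =>
        ∑ i, Polynomial.aeval s (p i) * b i := by
  let _ := fnAlgebra c
  let _ : Algebra k Γ(C, regOpens t) := (baseMap c _).hom.toAlgebra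
  obtain ⟨hU, hfin⟩ := affine_finite_regOpens c ht s hs
  haveI : Nonempty (regOpens t) := ⟨⟨_, genericPoint_mem_regOpens t⟩⟩
  haveI := functionField_isFractionRing_of_isAffineOpen C _ hU
  haveI : IsScalarTower k Γ(C, regOpens t) C.functionField :=
    IsScalarTower.of_algebraMap_eq fun r => (baseMap_toFn c _ (genericPoint_mem_regOpens t) r).symm
  have hs' : algebraMap Γ(C, regOpens t) C.functionField s = t := hs
  have hts : Transcendental k s := by
    intro halg
    have h := halg.algHom (IsScalarTower.toAlgHom k Γ(C, regOpens t) C.functionField)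
    rw [IsScalarTower.coe_toAlgHom', hs'] at h
    exact ht h
  have key := ChartsAlg.exists_chart_basis (k := k) C.functionField s hts hfin
  rw [hs'] at key
  exact key

omit [IsProper c] in
include c in
lemma tensor_isDomain_sections {U : C.Opens} (hU : IsAffineOpen U) [Nonempty U]
    (K : Type u) [Field K] [Algebra k K] :
    letI : Algebra k Γ(C, U) := (baseMap c U).hom.toAlgebra
    IsDomain (K ⊗[k] Γ(C, U)) := by
  let _ : Algebra k Γ(C, U) := (baseMap c U).hom.toAlgebra
  haveI : Algebra.FiniteType k Γ(C, U) := finiteType_baseMap c hU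
  exact ChartsAlg.tensor_isDomain _ K

omit [IsProper c] in
include c in
lemma tensor_isDedekindRing_sections {U : C.Opens} (hU : IsAffineOpen U) [Nonempty U]
    (K : Type u) [Field K] [Algebra k K] :
    letI : Algebra k Γ(C, U) := (baseMap c U).hom.toAlgebra
    IsDedekindRing (K ⊗[k] Γ(C, U)) := by
  let _ : Algebra k Γ(C, U) := (baseMap c U).hom.toAlgebra
  haveI : Algebra.FiniteType k Γ(C, U) := finiteType_baseMap c hU
  haveI := ChartsAlg.tensor_isDomain (k := k) Γ(C, U) K
  haveI := ChartsAlg.isDedekindDomain_of_locally (K := K) (R := K ⊗[k] Γ(C, U))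
    (ChartsAlg.locally_baseChange (k := k) (A := Γ(C, U)) (K := K) (locally_baseMap c hU))
  infer_instance

/-- The restriction of sections as a map of algebras over the base field. -/
noncomputable def resHom {U V : C.Opens} (h : V ≤ U) :
    letI : Algebra k Γ(C, U) := (baseMap c U).hom.toAlgebra
    letI : Algebra k Γ(C, V) := (baseMap c V).hom.toAlgebra
    Γ(C, U) →ₐ[k] Γ(C, V) :=
  letI : Algebra k Γ(C, U) := (baseMap c U).hom.toAlgebra
  letI : Algebra k Γ(C, V) := (baseMap c V).hom.toAlgebra
  { (C.presheaf.map (homOfLE h).op).hom with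
    commutes' := fun r => congr($(baseMap_res c h) r) }

end FermatLib.AV.ChartsCurve

namespace FermatLib.AV

open ChartsCurve

/-- A smooth proper integral pointed curve over an algebraically closed field has a presentation by
two affine charts, finite over the two standard charts of the projective line. -/
theorem nonempty_curveCharts (k : Type u) [Field k] [IsAlgClosed k] {C : Scheme.{u}}
    (c : C ⟶ Spec (CommRingCat.of k)) [IsProper c] [SmoothOfRelativeDimension 1 c] [IsIntegral C]
    (ε : SchemeHomOver (𝟙 (Spec (CommRingCat.of k))) c) :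
    Nonempty (CurveCharts k c ε) := by
  let _ := fnAlgebra c
  let e : C := ε.1 (IsLocalRing.closedPoint k)
  have hpt : ∀ x : Spec (CommRingCat.of k), x = IsLocalRing.closedPoint k :=
    fun x => Subsingleton.elim (α := PrimeSpectrum k) _ _
  have he : IsClosed ({e} : Set C) := by
    haveI := isClosedImmersion_of_comp_eq_id c ε.1 ε.2
    have hr : Set.range ε.1 = {e} := Set.eq_singleton_iff_unique_mem.mpr
      ⟨⟨_, rfl⟩, by rintro _ ⟨x, rfl⟩; rw [hpt x]⟩
    exact hr ▸ ε.1.isClosedEmbedding.isClosed_range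
  obtain ⟨t, ht, hte, hte'⟩ := exists_pole c e he
  have ht0 : t ≠ 0 := fun h => ht (h ▸ isAlgebraic_zero)
  have ht' : Transcendental k t⁻¹ := fun h => ht (by simpa using h.inv)
  obtain ⟨s0, hs0⟩ := exists_regSection t
  obtain ⟨s1, hs1⟩ := exists_regSection t⁻¹
  obtain ⟨hU0, -⟩ := affine_finite_regOpens c ht s0 hs0
  obtain ⟨hU1, -⟩ := affine_finite_regOpens c ht' s1 hs1
  haveI : Nonempty (regOpens t) := ⟨⟨_, genericPoint_mem_regOpens t⟩⟩
  haveI : Nonempty (regOpens t⁻¹) := ⟨⟨_, genericPoint_mem_regOpens t⁻¹⟩⟩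
  have hb0 : (regOpens t) ⊓ (regOpens t⁻¹) = C.basicOpen s0 := regOpens_inf ht0 s0 hs0
  have hb1 : (regOpens t) ⊓ (regOpens t⁻¹) = C.basicOpen s1 := by
    have h := regOpens_inf (inv_ne_zero ht0) s1 hs1
    rw [inv_inv] at h
    rw [← h, inf_comm]
  have hU01 : IsAffineOpen ((regOpens t) ⊓ (regOpens t⁻¹)) := hb0 ▸ hU0.basicOpen s0
  have hη : genericPoint C ∈ (regOpens t) ⊓ (regOpens t⁻¹) :=
    ⟨genericPoint_mem_regOpens t, genericPoint_mem_regOpens t⁻¹⟩
  let _ : Algebra k Γ(C, (regOpens t)) := (baseMap c (regOpens t)).hom.toAlgebra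
  let _ : Algebra k Γ(C, (regOpens t⁻¹)) := (baseMap c (regOpens t⁻¹)).hom.toAlgebra
  let _ : Algebra k Γ(C, (regOpens t) ⊓ (regOpens t⁻¹)) := (baseMap c ((regOpens t) ⊓ (regOpens t⁻¹))).hom.toAlgebra
  let j0 : Γ(C, (regOpens t)) →ₐ[k] Γ(C, (regOpens t) ⊓ (regOpens t⁻¹)) := resHom c inf_le_left
  let j1 : Γ(C, (regOpens t⁻¹)) →ₐ[k] Γ(C, (regOpens t) ⊓ (regOpens t⁻¹)) := resHom c inf_le_right
  -- ranks
  obtain ⟨b0, hb0'⟩ := exists_basis c ht s0 hs0
  have hex := exists_basis c ht' s1 hs1
  rw [ChartsAlg.adjoin_simple_inv] at hex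
  obtain ⟨b1, hb1'⟩ := hex
  -- the marked point
  have hrange : Set.range ε.1 ⊆ Set.range hU0.fromSpec := by
    rw [IsAffineOpen.range_fromSpec]
    rintro _ ⟨x, rfl⟩
    rw [hpt x]
    exact hte
  let εl := IsOpenImmersion.lift hU0.fromSpec ε.1 hrange
  have hεl : εl ≫ hU0.fromSpec = ε.1 := IsOpenImmersion.lift_fac _ _ _
  let g0 : Γ(C, (regOpens t)) ⟶ CommRingCat.of k := Spec.preimage εl
  have hg0 : baseMap c (regOpens t) ≫ g0 = 𝟙 _ := by
    apply Spec.map_injective
    rw [Spec.map_comp, Spec.map_id, Spec.map_preimage, ← fromSpec_comp c hU0, reassoc_of% hεl]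
    exact ε.2
  let ε0 : Γ(C, (regOpens t)) →ₐ[k] k := { g0.hom with commutes' := fun r => congr($(hg0) r) }
  have hε0 : ε0 s0 = 0 := by
    by_contra hne
    have hmem : IsLocalRing.closedPoint k ∈
        Spec.map g0 ⁻¹ᵁ PrimeSpectrum.basicOpen s0 := by
      intro h
      exact (IsLocalRing.mem_maximalIdeal _).mp h (Ne.isUnit hne)
    have hval : Spec.map g0 = εl := Spec.map_preimage _
    rw [hval, ← hU0.fromSpec_preimage_basicOpen] at hmem
    have he' : ε.1 (IsLocalRing.closedPoint k) ∈ C.basicOpen s0 := by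
      rw [← hεl]; exact hmem
    rw [← hb0] at he'
    exact hte' he'.2
  -- the gluing square
  have hsq0 : Spec.map (C.presheaf.map (homOfLE (inf_le_left : (regOpens t) ⊓ (regOpens t⁻¹) ≤ (regOpens t))).op) ≫ hU0.fromSpec =
      hU01.fromSpec := hU0.map_fromSpec hU01 _
  have hsq1 : Spec.map (C.presheaf.map (homOfLE (inf_le_right : (regOpens t) ⊓ (regOpens t⁻¹) ≤ (regOpens t⁻¹))).op) ≫ hU1.fromSpec =
      hU01.fromSpec := hU1.map_fromSpec hU01 _
  have hoverlap : IsPullback (Spec.map (C.presheaf.map (homOfLE (inf_le_left : (regOpens t) ⊓ (regOpens t⁻¹) ≤ (regOpens t))).op))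
      (Spec.map (C.presheaf.map (homOfLE (inf_le_right : (regOpens t) ⊓ (regOpens t⁻¹) ≤ (regOpens t⁻¹))).op))
      hU0.fromSpec hU1.fromSpec := by
    haveI : IsOpenImmersion
        (Spec.map (C.presheaf.map (homOfLE (inf_le_right : (regOpens t) ⊓ (regOpens t⁻¹) ≤ (regOpens t⁻¹))).op) ≫ hU1.fromSpec) :=
      hsq1 ▸ inferInstance
    haveI : IsOpenImmersion
        (Spec.map (C.presheaf.map (homOfLE (inf_le_right : (regOpens t) ⊓ (regOpens t⁻¹) ≤ (regOpens t⁻¹))).op)) :=
      IsOpenImmersion.of_comp _ hU1.fromSpec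
    refine IsOpenImmersion.isPullback _ _ _ _ (hsq1.trans hsq0.symm) ?_
    apply hU1.fromSpec.image_injective
    simp only [Scheme.Hom.image_preimage_eq_opensRange_inf, IsAffineOpen.opensRange_fromSpec,
      ← Scheme.Hom.opensRange_comp, hsq1]
    exact inf_comm _ _
  -- assembly
  exact ⟨{
    A0 := Γ(C, (regOpens t))
    A1 := Γ(C, (regOpens t⁻¹))
    A01 := Γ(C, (regOpens t) ⊓ (regOpens t⁻¹))
    x := s0
    y := s1
    j0 := j0
    j1 := j1
    isLoc0 := hU0.isLocalization_of_eq_basicOpen s0 (homOfLE inf_le_left) hb0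
    isLoc1 := hU1.isLocalization_of_eq_basicOpen s1 (homOfLE inf_le_right) hb1
    x_mul_y := by
      apply toFn_injective hη
      change (toFn _ hη).hom (C.presheaf.map (homOfLE inf_le_left).op s0 *
        C.presheaf.map (homOfLE inf_le_right).op s1) = (toFn _ hη).hom 1
      rw [map_mul, map_one]
      erw [toFn_res, toFn_res]
      erw [hs0, hs1]
      exact mul_inv_cancel₀ ht0
    n := Module.finrank k⟮t⟯ C.functionField
    b0 := b0
    b1 := b1
    basis0 := hb0'
    basis1 := hb1'
    ε0 := ε0
    ε0_x := hε0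
    isDomain0 := fun K _ _ => tensor_isDomain_sections c hU0 K
    isDomain1 := fun K _ _ => tensor_isDomain_sections c hU1 K
    isDedekind0 := fun K _ _ => tensor_isDedekindRing_sections c hU0 K
    isDedekind1 := fun K _ _ => tensor_isDedekindRing_sections c hU1 K
    const := by
      intro a0 a1 h
      have hfn : toFn (regOpens t) (genericPoint_mem_regOpens t) a0 =
          toFn (regOpens t⁻¹) (genericPoint_mem_regOpens t⁻¹) a1 := by
        have h2 : toFn _ hη (C.presheaf.map (homOfLE inf_le_left).op a0) =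
            toFn _ hη (C.presheaf.map (homOfLE inf_le_right).op a1) := congrArg _ h
        rwa [toFn_res, toFn_res] at h2
      obtain ⟨r, hr⟩ := exists_const c (f := toFn (regOpens t) (genericPoint_mem_regOpens t) a0) fun p => by
        rcases regularAt_or_inv c t p with hp | hp
        · exact regularAt_of_section (U := (regOpens t)) a0 hp
        · rw [hfn]; exact regularAt_of_section (U := (regOpens t⁻¹)) a1 hp
      refine ⟨r, toFn_injective (genericPoint_mem_regOpens t) ?_⟩
      rw [← hr]
      exact (baseMap_toFn c ⊤ trivial r).trans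
        (baseMap_toFn c (regOpens t) (genericPoint_mem_regOpens t) r).symm
    i0 := hU0.fromSpec
    i1 := hU1.fromSpec
    i0_base := fromSpec_comp c hU0
    i1_base := fromSpec_comp c hU1
    cover := by
      rw [IsAffineOpen.opensRange_fromSpec, IsAffineOpen.opensRange_fromSpec, eq_top_iff]
      exact fun p _ => regularAt_or_inv c t p
    overlap := hoverlap
    i0_ε := by
      have : CommRingCat.ofHom ε0.toRingHom = g0 := rfl
      rw [this, Spec.map_preimage]
      exact hεl }⟩

end FermatLib.AV
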