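import Fermat.Agent.AV.Jac.CriterionSmall

/-!
The functor of rigidified bundles in `Q` on all schemes, valued in small types, as a Zariski sheaf.
-/

set_option autoImplicit false

universe u

open CategoryTheory CategoryTheory.Limits TopologicalSpace AlgebraicGeometry Opposite
  NeronModelInfra AlgebraicGeometry.RelPicard

noncomputable section

namespace FermatLib.AV.Glue

variable {k : Type u} [CommRing k] {C : Scheme.{u}} {c : C ⟶ Spec (CommRingCat.of k)}
  {ε : SchemeHomOver (𝟙 (Spec (CommRingCat.of k))) c} (Q : SubPicCondition c ε)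

/-- A rigidified bundle in `Q` on some structure map of `T`. -/
structure Bun (T : Scheme.{u}) : Type (u + 1) where
  t : T ⟶ Spec (CommRingCat.of k)
  M : RigidifiedLineBundle c ε t
  mem : Q.P t M

variable {Q}

/-- Isomorphism over equal structure maps. -/
def BunRel {T : Scheme.{u}} (a b : Bun Q T) : Prop :=
  ∃ g : SchemeHomOver b.t a.t, g.1 = 𝟙 T ∧ BunIso (a.M.pullbackAlong g) b.M

variable (Q) in
instance bunSetoid (T : Scheme.{u}) : Setoid (Bun Q T) where
  r := BunRel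
  iseqv := by
    refine ⟨fun a => ⟨⟨𝟙 T, Category.id_comp _⟩, rfl, bunIso_pull_id _ _ rfl⟩, ?_, ?_⟩
    · rintro a b ⟨g, hg, e⟩
      let g' : SchemeHomOver a.t b.t :=
        ⟨𝟙 T, by rw [Category.id_comp]; exact ((Category.id_comp a.t).symm.trans (hg ▸ g.2)).symm⟩
      exact ⟨g', rfl, ((e.pull g').symm.trans (bunIso_pull_pull _ _ _
        ⟨𝟙 T, Category.id_comp _⟩ (by simp [g', hg]))).trans (bunIso_pull_id _ _ rfl)⟩
    · rintro a b d ⟨g, hg, e⟩ ⟨g', hg', e'⟩
      exact ⟨postComp g g', by simp [postComp, hg, hg'],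
        ((bunIso_pull_pull _ g g' (postComp g g') rfl).symm.trans (e.pull g')).trans e'⟩

/-- Pull back along any morphism. -/
def Bun.map {T T' : Scheme.{u}} (f : T' ⟶ T) (a : Bun Q T) : Bun Q T' :=
  ⟨f ≫ a.t, a.M.pullbackAlong ⟨f, rfl⟩, Q.pullback_mem _ _ _ _ a.mem⟩

lemma Bun.map_congr {T T' : Scheme.{u}} (f : T' ⟶ T) {a b : Bun Q T} (h : a ≈ b) :
    a.map f ≈ b.map f := by
  obtain ⟨g, hg, e⟩ := h
  have ht : f ≫ b.t = f ≫ a.t := by rw [← g.2, hg, Category.id_comp]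
  let g' : SchemeHomOver (f ≫ b.t) (f ≫ a.t) := ⟨𝟙 T', by rw [Category.id_comp, ht]⟩
  refine ⟨g', rfl, ((bunIso_pull_pull a.M ⟨f, rfl⟩ g' ⟨f, ht.symm⟩ (by simp [g'])).trans
    (bunIso_pull_pull a.M g ⟨f, rfl⟩ ⟨f, ht.symm⟩ (by simp [hg])).symm).trans (e.pull _)⟩

variable (Q) in
/-- The classes of rigidified bundles in `Q` on `T`. -/
abbrev BunClass (T : Scheme.{u}) : Type (u + 1) := Quotient (bunSetoid Q T)

instance small_bunClass (T : Scheme.{u}) : Small.{u} (BunClass Q T) := by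
  let S : Type (u + 1) := Σ t : T ⟶ Spec (CommRingCat.of k),
    {x : RigidifiedLineBundle.Classes c ε t // ∃ M, Q.P t M ∧
      Quotient.mk (RigidifiedLineBundle.setoid t) M = x}
  let f : S → BunClass Q T :=
    fun x => Quotient.mk _ ⟨x.1, x.2.2.choose, x.2.2.choose_spec.1⟩
  haveI : Small.{u} S := small_sigma.{u} _
  suffices Function.Surjective f from small_of_surjective this
  intro q
  induction q using Quotient.inductionOn with
  | _ a =>
    refine ⟨⟨a.t, ⟨Quotient.mk _ a.M, a.M, a.mem, rfl⟩⟩, Quotient.sound ?_⟩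
    refine ⟨⟨𝟙 T, Category.id_comp _⟩, rfl, ?_⟩
    refine (bunIso_pull_id _ _ rfl).trans ?_
    exact (Quotient.exact (s := RigidifiedLineBundle.setoid a.t)
      (Exists.choose_spec (p := fun M => Q.P a.t M ∧
        Quotient.mk (RigidifiedLineBundle.setoid a.t) M = Quotient.mk _ a.M)
        ⟨a.M, a.mem, rfl⟩).2)

/-- The class of a bundle, in a small type. -/
def mkClass {T : Scheme.{u}} (a : Bun Q T) : Shrink.{u} (BunClass Q T) :=
  equivShrink _ (Quotient.mk _ a)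

lemma mkClass_surjective {T : Scheme.{u}} (x : Shrink.{u} (BunClass Q T)) :
    ∃ a, mkClass a = x := by
  obtain ⟨a, ha⟩ := Quotient.exists_rep ((equivShrink _).symm x)
  exact ⟨a, by simp [mkClass, ha]⟩

lemma mkClass_eq_iff {T : Scheme.{u}} {a b : Bun Q T} : mkClass a = mkClass b ↔ a ≈ b :=
  (equivShrink _).injective.eq_iff.trans Quotient.eq

/-- Pullback of classes. -/
def mapClass {T T' : Scheme.{u}} (f : T' ⟶ T) (x : Shrink.{u} (BunClass Q T)) :
    Shrink.{u} (BunClass Q T') :=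
  equivShrink _ (Quotient.map (Bun.map f) (fun _ _ h => Bun.map_congr f h) ((equivShrink _).symm x))

@[simp] lemma mapClass_mkClass {T T' : Scheme.{u}} (f : T' ⟶ T) (a : Bun Q T) :
    mapClass f (mkClass a) = mkClass (a.map f) := by
  simp [mapClass, mkClass]

lemma mapClass_id {T : Scheme.{u}} (x : Shrink.{u} (BunClass Q T)) : mapClass (𝟙 T) x = x := by
  obtain ⟨a, rfl⟩ := mkClass_surjective x
  rw [mapClass_mkClass, mkClass_eq_iff]
  exact ⟨⟨𝟙 T, by simp [Bun.map]⟩, rfl,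
    (bunIso_pull_pull _ _ _ ⟨𝟙 T, Category.id_comp _⟩ (Category.id_comp _)).trans
      (bunIso_pull_id _ _ rfl)⟩

lemma mapClass_comp {T T' T'' : Scheme.{u}} (f : T' ⟶ T) (g : T'' ⟶ T')
    (x : Shrink.{u} (BunClass Q T)) : mapClass (g ≫ f) x = mapClass g (mapClass f x) := by
  obtain ⟨a, rfl⟩ := mkClass_surjective x
  rw [mapClass_mkClass, mapClass_mkClass, mapClass_mkClass, mkClass_eq_iff]
  let i : SchemeHomOver (g ≫ f ≫ a.t) ((g ≫ f) ≫ a.t) := ⟨𝟙 T'', by simp⟩
  exact ⟨i, rfl, (bunIso_pull_pull _ _ _ ⟨g ≫ f, Category.assoc g f a.t⟩ (Category.id_comp _)).trans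
    (bunIso_pull_pull a.M ⟨f, rfl⟩ ⟨g, rfl⟩ ⟨g ≫ f, Category.assoc g f a.t⟩ rfl).symm⟩

variable (Q) in
/-- The functor of classes on all schemes. -/
def bunPresheaf : Scheme.{u}ᵒᵖ ⥤ Type u where
  obj T := Shrink.{u} (BunClass Q T.unop)
  map f := TypeCat.ofHom (mapClass f.unop)
  map_id T := TypeCat.homEquiv.injective (funext mapClass_id)
  map_comp f g := TypeCat.homEquiv.injective (funext fun x => mapClass_comp f.unop g.unop x)

lemma bunPresheaf_map {T T' : Scheme.{u}} (f : T' ⟶ T) (x : Shrink.{u} (BunClass Q T)) :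
    (bunPresheaf Q).map f.op x = mapClass f x := rfl

lemma isSheaf_bunPresheaf (hc : ConstCurve c) (hQ : IsLocalCondition Q) :
    Presieve.IsSheaf Scheme.zariskiTopology (bunPresheaf Q) := by
  rw [Precoverage.isSheaf_toGrothendieck_iff_of_isStableUnderBaseChange]
  intro T S hS x hx
  obtain ⟨(𝓤 : Scheme.OpenCover T), rfl⟩ := Scheme.exists_cover_of_mem_pretopology hS
  choose a ha using fun j => mkClass_surjective (x (𝓤.f j) (.mk j))
  have hrel : ∀ i j {Z : Scheme.{u}} (p : Z ⟶ 𝓤.X i) (q : Z ⟶ 𝓤.X j),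
      p ≫ 𝓤.f i = q ≫ 𝓤.f j → (a i).map p ≈ (a j).map q := by
    intro i j Z p q hpq
    rw [← mkClass_eq_iff, ← mapClass_mkClass, ← mapClass_mkClass, ha i, ha j]
    exact hx p q (Presieve.ofArrows.mk i) (Presieve.ofArrows.mk j) hpq
  let t : T ⟶ Spec (CommRingCat.of k) := 𝓤.glueMorphisms (fun j => (a j).t) fun i j => by
    obtain ⟨g, hg, -⟩ := hrel i j (pullback.fst (𝓤.f i) (𝓤.f j)) (pullback.snd _ _)
      pullback.condition
    have := g.2
    rw [hg, Category.id_comp] at this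
    exact this
  have ht : ∀ j, 𝓤.f j ≫ t = (a j).t := fun j => 𝓤.ι_glueMorphisms _ _ j
  let ψ : ∀ j, SchemeHomOver (a j).t t := fun j => ⟨𝓤.f j, ht j⟩
  have hψ : ∀ y : T, ∃ j, y ∈ Set.range (ψ j).1 := fun y => by
    obtain ⟨j, z, hz⟩ := 𝓤.exists_eq y
    exact ⟨j, z, hz⟩
  have : ∀ j, IsOpenImmersion (ψ j).1 := fun j => 𝓤.map_prop j
  -- the index type may be large, so glue along small reindexings of the cover
  choose idx hidx using hψ
  have glue : ∀ {ι : Type u} (σ : ι → 𝓤.I₀), (∀ y : T, ∃ l, y ∈ Set.range (ψ (σ l)).1) →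
      ∃ M : RigidifiedLineBundle c ε t, ∀ l, BunIso (M.pullbackAlong (ψ (σ l))) (a (σ l)).M := by
    intro ι σ hσ
    refine exists_glue_openCover hc (fun l => ψ (σ l)) hσ (fun l => (a (σ l)).M)
      fun i₀ j₀ {Z} z p q hpq => ?_
    let i := σ i₀
    let j := σ j₀
    obtain ⟨g, hg, e⟩ := hrel i j p.1 q.1 hpq
    let m : SchemeHomOver z (q.1 ≫ (a j).t) := ⟨𝟙 Z, by rw [Category.id_comp, q.2]⟩
    have h1 : ((a i).M.pullbackAlong ⟨p.1, rfl⟩).pullbackAlong g |>.pullbackAlong m |>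
        fun X => BunIso X ((a i).M.pullbackAlong p) := by
      refine ((bunIso_pull_pull _ ⟨p.1, rfl⟩ g ⟨p.1, ?_⟩ ?_).pull m).trans
        (bunIso_pull_pull _ _ m p ?_)
      · show p.1 ≫ (a i).t = q.1 ≫ (a j).t
        rw [p.2, q.2]
      · show g.1 ≫ p.1 = p.1
        rw [hg, Category.id_comp]
      · exact Category.id_comp _
    have h2 : BunIso (((a j).M.pullbackAlong ⟨q.1, rfl⟩).pullbackAlong m) ((a j).M.pullbackAlong q) :=
      bunIso_pull_pull _ _ _ q (Category.id_comp _)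
    exact (h1.symm.trans (e.pull m)).trans h2
  obtain ⟨M, hM₀⟩ := glue idx fun y => ⟨y, hidx y⟩
  have hM : ∀ j, BunIso (M.pullbackAlong (ψ j)) (a j).M := fun j => by
    obtain ⟨M', hM'⟩ := glue (fun o : Option T => o.elim j idx) fun y => ⟨some y, hidx y⟩
    have hMM : BunIso M M' := nonempty_iso_of_openCover hc (fun y => ψ (idx y))
      (fun y => ⟨y, hidx y⟩) M M' fun y => (hM₀ y).trans (hM' (some y)).symm
    exact (hMM.pull (ψ j)).trans (hM' none)
  have hψ : ∀ y : T, ∃ j, y ∈ Set.range (ψ j).1 := fun y => ⟨idx y, hidx y⟩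
  have hmem : Q.P t M := hQ t M fun y => by
    obtain ⟨j, hj⟩ := hψ y
    exact ⟨_, _, ψ j, 𝓤.map_prop j, hj, Q.congr _ _ _ ⟨(hM j).some.symm⟩ (a j).mem⟩
  refine ⟨mkClass ⟨t, M, hmem⟩, ?_, ?_⟩
  · rintro Z _ ⟨j⟩
    rw [bunPresheaf_map, mapClass_mkClass, ← ha j]
    refine mkClass_eq_iff.2 ?_
    let g : SchemeHomOver (a j).t (𝓤.f j ≫ t) := ⟨𝟙 _, by rw [Category.id_comp, ht]⟩
    exact ⟨g, rfl, (bunIso_pull_pull M ⟨𝓤.f j, rfl⟩ g (ψ j) (Category.id_comp _)).trans (hM j)⟩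
  · intro y hy
    obtain ⟨b, rfl⟩ := mkClass_surjective y
    refine mkClass_eq_iff.2 ?_
    have hb : ∀ j, b.map (𝓤.f j) ≈ a j := fun j => by
      rw [← mkClass_eq_iff, ← mapClass_mkClass, ha j]
      exact hy (𝓤.f j) (Presieve.ofArrows.mk j)
    have hbt : t = b.t := by
      apply 𝓤.hom_ext
      intro j
      obtain ⟨g, hg, -⟩ := hb j
      have := g.2
      rw [hg, Category.id_comp] at this
      show 𝓤.f j ≫ t = 𝓤.f j ≫ b.t
      rw [ht, ← this]
      rfl
    let i : SchemeHomOver t b.t := ⟨𝟙 T, by rw [Category.id_comp, hbt]⟩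
    refine ⟨i, rfl, nonempty_iso_of_openCover hc (fun y => ψ (idx y)) (fun y => ⟨y, hidx y⟩) _ _
      fun y => ?_⟩
    let j := idx y
    obtain ⟨g, hg, e⟩ := hb j
    exact ((bunIso_pull_pull b.M i (ψ j) (postComp i (ψ j)) rfl).trans
      (bunIso_pull_pull b.M ⟨𝓤.f j, rfl⟩ g (postComp i (ψ j)) (by simp [postComp, i, ψ, hg])).symm).trans
      (e.trans (BunIso.symm (hM j)))

variable (Q) in
/-- The sheaf of classes. -/
def bunSheaf (hc : ConstCurve c) (hQ : IsLocalCondition Q) :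
    Sheaf Scheme.zariskiTopology.{u} (Type u) :=
  ⟨bunPresheaf Q, (isSheaf_iff_isSheaf_of_type _ _).2 (isSheaf_bunPresheaf hc hQ)⟩

end FermatLib.AV.Glue
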