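import Fermat.Agent.AV.Jac.CriterionOpen
import Fermat.Agent.AV.Jac.CriterionFunctor

/-!
Representability of a Zariski local part of the relative Picard functor from affine charts.
-/

set_option autoImplicit false

universe u

open CategoryTheory CategoryTheory.Limits TopologicalSpace AlgebraicGeometry Opposite
  NeronModelInfra AlgebraicGeometry.RelPicard GoodReductionJacobian

noncomputable section

namespace FermatLib.AV.Glue

variable {k : Type u} [CommRing k] {C : Scheme.{u}} {c : C ⟶ Spec (CommRingCat.of k)}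
  {ε : SchemeHomOver (𝟙 (Spec (CommRingCat.of k))) c} {Q : SubPicCondition c ε}

namespace ChartFamily

variable (F : ChartFamily Q)

/-- The tautological class on a chart. -/
def chartBun (i : F.ι) : Bun Q (Spec (CommRingCat.of (F.A i))) :=
  ⟨affStr k (F.A i), F.bun i, F.mem i⟩

/-- The map from a chart to the functor. -/
def chartMap (i : F.ι) : yoneda.obj (Spec (CommRingCat.of (F.A i))) ⟶ bunPresheaf Q :=
  yonedaEquiv.symm (mkClass (F.chartBun i))

lemma chartMap_app (i : F.ι) {Z : Scheme.{u}} (g : Z ⟶ Spec (CommRingCat.of (F.A i))) :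
    (F.chartMap i).app (op Z) g = mkClass ((F.chartBun i).map g) :=
  mapClass_mkClass g _

lemma mkClass_map_eq_iff {Z T : Scheme.{u}} (i : F.ι) (a : Bun Q T)
    (g : Z ⟶ Spec (CommRingCat.of (F.A i))) (v : Z ⟶ T) :
    (mkClass ((F.chartBun i).map g) = mkClass (a.map v)) ↔
      ∃ hg : g ≫ affStr k (F.A i) = v ≫ a.t,
        BunIso ((F.bun i).pullbackAlong ⟨g, hg⟩) (a.M.pullbackAlong ⟨v, rfl⟩) := by
  rw [mkClass_eq_iff]
  constructor
  · rintro ⟨m, hm, e⟩
    have := m.2
    rw [hm, Category.id_comp] at this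
    exact ⟨this, (bunIso_pull_pull (F.bun i) ⟨g, rfl⟩ m ⟨g, this⟩ (by
      show m.1 ≫ g = g
      rw [hm, Category.id_comp])).symm.trans e⟩
  · rintro ⟨hg, e⟩
    exact ⟨⟨𝟙 Z, by rw [Category.id_comp]; exact hg⟩, rfl,
      (bunIso_pull_pull (F.bun i) ⟨g, rfl⟩ _ ⟨g, hg⟩ (Category.id_comp _)).trans e⟩

lemma isOpenImmersion_chartMap (hc : ConstCurve c) (i : F.ι) :
    IsOpenImmersion.presheaf (F.chartMap i) := by
  refine MorphismProperty.relative.of_exists fun T g => ?_
  obtain ⟨a, ha⟩ := mkClass_surjective (yonedaEquiv g)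
  have hg : ∀ {Z : Scheme.{u}} (v : Z ⟶ T), g.app (op Z) v = mkClass (a.map v) := fun v => by
    rw [← mapClass_mkClass, ha]
    simpa using (yonedaEquiv_naturality g v) ▸ (rfl : yonedaEquiv (yoneda.map v ≫ g) = _)
  let U : T.Opens := ⟨F.goodSet i a.M, F.isOpen_goodSet i a.M a.mem⟩
  obtain ⟨h, hh⟩ := (F.range_subset_goodSet_iff hc i a.M a.mem
    (⟨U.ι, rfl⟩ : SchemeHomOver (U.ι ≫ a.t) a.t)).1 (by rw [Scheme.Opens.range_ι]; rfl)
  refine ⟨U, yoneda.map h.1, U.ι, IsPullback.of_forall_isPullback_app fun Z => ?_, inferInstance⟩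
  obtain ⟨Z⟩ := Z
  rw [Types.isPullback_iff]
  refine ⟨TypeCat.homEquiv.injective (funext fun (v : Z ⟶ U.toScheme) => ?_),
    fun v w hvw => ?_, fun w v hwv => ?_⟩
  · show (F.chartMap i).app (op Z) (v ≫ h.1) = g.app (op Z) (v ≫ U.ι)
    rw [chartMap_app, hg]
    refine (F.mkClass_map_eq_iff i a _ _).2 ⟨by rw [Category.assoc, h.2, Category.assoc], ?_⟩
    let vv : SchemeHomOver ((v ≫ U.ι) ≫ a.t) (U.ι ≫ a.t) := ⟨v, (Category.assoc _ _ _).symm⟩
    exact ((bunIso_pull_pull (F.bun i) h vv _ rfl).symm.trans (hh.pull vv)).trans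
      (bunIso_pull_pull a.M _ vv _ rfl)
  · exact (cancel_mono U.ι).1 hvw.2
  · change (Z ⟶ Spec (CommRingCat.of (F.A i))) at w
    change (Z ⟶ T) at v
    replace hwv : (F.chartMap i).app (op Z) w = g.app (op Z) v := hwv
    rw [chartMap_app, hg] at hwv
    obtain ⟨hw, e⟩ := (F.mkClass_map_eq_iff i a w v).1 hwv
    have hr : Set.range v ⊆ Set.range U.ι := by
      rw [Scheme.Opens.range_ι]
      exact (F.range_subset_goodSet_iff hc i a.M a.mem ⟨v, rfl⟩).2 ⟨_, e⟩
    let l := IsOpenImmersion.lift U.ι v hr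
    have hl : l ≫ U.ι = v := IsOpenImmersion.lift_fac _ _ _
    refine ⟨l, ?_, hl⟩
    show l ≫ h.1 = w
    let ll : SchemeHomOver (v ≫ a.t) (U.ι ≫ a.t) := ⟨l, by rw [← Category.assoc, hl]⟩
    exact congrArg Subtype.val (F.mono_general i (postComp h ll) ⟨w, hw⟩
      ((((bunIso_pull_pull (F.bun i) h ll _ rfl).symm.trans (hh.pull ll)).trans
        (bunIso_pull_pull a.M _ ll ⟨v, rfl⟩ hl)).trans e.symm))

lemma isLocallySurjective_chartMap (hc : ConstCurve c) :
    Presheaf.IsLocallySurjective Scheme.zariskiTopology (Sigma.desc F.chartMap) := by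
  refine ⟨fun {Z} s => ?_⟩
  obtain ⟨a, rfl⟩ := mkClass_surjective s
  choose idx hidx using fun x => F.exists_mem_goodSet a.M a.mem x
  let U : Z → Z.Opens := fun x => ⟨F.goodSet (idx x) a.M, F.isOpen_goodSet _ a.M a.mem⟩
  let 𝒰 := Scheme.Cover.mkOfCovers (P := @IsOpenImmersion) Z (fun x => (U x).toScheme)
    (fun x => (U x).ι) (fun x => ⟨x, ⟨x, hidx x⟩, rfl⟩) (fun x => inferInstance)
  refine GrothendieckTopology.superset_covering _ ?_ 𝒰.mem_grothendieckTopology
  rw [Sieve.ofArrows, Sieve.generate_le_iff]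
  rintro W f ⟨x⟩
  obtain ⟨h, hh⟩ := (F.range_subset_goodSet_iff hc (idx x) a.M a.mem
    (⟨(U x).ι, rfl⟩ : SchemeHomOver ((U x).ι ≫ a.t) a.t)).1 (by rw [Scheme.Opens.range_ι]; rfl)
  refine ⟨(Sigma.ι (fun i => yoneda.obj (Spec (CommRingCat.of (F.A i)))) (idx x)).app _ h.1, ?_⟩
  have : (Sigma.ι (fun i => yoneda.obj (Spec (CommRingCat.of (F.A i)))) (idx x) ≫
      Sigma.desc F.chartMap) = F.chartMap (idx x) := Sigma.ι_desc _ _
  show (Sigma.desc F.chartMap).app _
      ((Sigma.ι (fun i => yoneda.obj (Spec (CommRingCat.of (F.A i)))) (idx x)).app _ h.1) =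
    mapClass (U x).ι (mkClass a)
  rw [← NatTrans.comp_app_apply, this, mapClass_mkClass]
  exact (F.chartMap_app (idx x) h.1).trans ((F.mkClass_map_eq_iff _ a h.1 _).2 ⟨h.2, hh⟩)

end ChartFamily

/-- A covering family of charts represents the functor. -/
theorem ChartFamily.exists_representsRelSubPic (hc : ConstCurve c) (hQ : IsLocalCondition Q)
    (F : ChartFamily Q) :
    ∃ (D : RelativePic0Designation k c) (h : RepresentsRelSubPic c ε Q D)
      (e : ∀ i, SchemeHomOver (affStr k (F.A i)) D.toBase),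
      (∀ i, IsOpenImmersion (e i).1) ∧ (∀ x : D.P, ∃ i, x ∈ Set.range (e i).1) ∧
        ∀ i, BunIso (h.poincare.pullbackAlong (e i)) (F.bun i) := by
  have hf : ∀ i, IsOpenImmersion.presheaf (F.chartMap i) := F.isOpenImmersion_chartMap hc
  let S := bunSheaf Q hc hQ
  have hsurj := F.isLocallySurjective_chartMap hc
  let P := (Scheme.LocalRepresentability.glueData (F := S) hf).glued
  let r : (bunPresheaf Q).RepresentableBy P :=
    @Scheme.LocalRepresentability.representableBy S _ _ _ hf hsurj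
  obtain ⟨b, hb⟩ := mkClass_surjective (r.homEquiv (𝟙 P))
  have hr : ∀ {Z : Scheme.{u}} (g : Z ⟶ P), r.homEquiv g = mkClass (b.map g) := fun g => by
    rw [← mapClass_mkClass, hb]
    exact r.homEquiv_eq g
  have univ : ∀ {T : Scheme.{u}} (t : T ⟶ Spec (CommRingCat.of k))
      (M : RigidifiedLineBundle c ε t), Q.P t M →
      ∃! g : SchemeHomOver t b.t, Nonempty ((b.M.pullbackAlong g).L ≅ M.L) := by
    intro T t M hM
    have key : ∀ g : T ⟶ P, r.homEquiv g = mkClass ⟨t, M, hM⟩ ↔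
        ∃ hg : g ≫ b.t = t, BunIso (b.M.pullbackAlong ⟨g, hg⟩) M := by
      intro g
      rw [hr]
      refine mkClass_eq_iff.trans ⟨?_, ?_⟩
      · rintro ⟨m, hm, e⟩
        have := m.2
        rw [hm, Category.id_comp] at this
        exact ⟨this, (bunIso_pull_pull b.M ⟨g, rfl⟩ m ⟨g, this⟩ (by
          show m.1 ≫ g = g
          rw [hm, Category.id_comp])).symm.trans e⟩
      · rintro ⟨hg, e⟩
        exact ⟨⟨𝟙 T, by rw [Category.id_comp]; exact hg⟩, rfl,
          (bunIso_pull_pull b.M ⟨g, rfl⟩ _ ⟨g, hg⟩ (Category.id_comp _)).trans e⟩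
    obtain ⟨g, hg⟩ := r.homEquiv.surjective (mkClass ⟨t, M, hM⟩)
    obtain ⟨hgt, e⟩ := (key g).1 hg
    refine ⟨⟨g, hgt⟩, e, fun g' hg' => Subtype.ext (r.homEquiv.injective ?_)⟩
    exact ((key g'.1).2 ⟨g'.2, hg'⟩).trans hg.symm
  obtain ⟨z, hz, -⟩ := univ (𝟙 _) (RigidifiedLineBundle.unit (c := c) (ε := ε) (𝟙 _)) (Q.unit_mem _)
  let D : RelativePic0Designation k c := ⟨P, b.t, z.1, z.2⟩
  let h : RepresentsRelSubPic c ε Q D := ⟨b.M, b.mem, univ, hz⟩
  have hto : ∀ i, r.homEquiv (Scheme.LocalRepresentability.toGlued (F := S) hf i) =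
      mkClass (F.chartBun i) := fun i => by
    have h1 : ∀ {Z : Scheme.{u}} (g : Z ⟶ P), r.homEquiv g =
        (Scheme.LocalRepresentability.yonedaGluedToSheaf (F := S) hf).hom.app _ g := fun g => rfl
    rw [h1]
    refine (Scheme.LocalRepresentability.yonedaGluedToSheaf_app_toGlued (F := S) hf).trans ?_
    exact Equiv.apply_symm_apply _ _
  choose ht he using fun i => (show ∃ hg : (Scheme.LocalRepresentability.toGlued (F := S) hf i) ≫
      b.t = affStr k (F.A i), BunIso (b.M.pullbackAlong ⟨_, hg⟩) (F.bun i) by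
    obtain ⟨g, hg, -⟩ := univ (affStr k (F.A i)) (F.bun i) (F.mem i)
    have : g.1 = Scheme.LocalRepresentability.toGlued (F := S) hf i := by
      apply r.homEquiv.injective
      rw [hto, hr]
      refine mkClass_eq_iff.2 ⟨⟨𝟙 _, (Category.id_comp _).trans g.2⟩, rfl, ?_⟩
      exact (bunIso_pull_pull b.M _ _ g (Category.id_comp _)).trans hg
    obtain ⟨g, hgt⟩ := g
    subst this
    exact ⟨hgt, hg⟩)
  refine ⟨D, h, fun i => ⟨_, ht i⟩, fun i => ?_, fun x => ?_, he⟩
  · exact inferInstanceAs (IsOpenImmersion (Scheme.LocalRepresentability.toGlued (F := S) hf i))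
  · obtain ⟨i, y, hy⟩ := (Scheme.LocalRepresentability.glueData (F := S) hf).openCover.exists_eq x
    exact ⟨i, y, hy⟩

end FermatLib.AV.Glue
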