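import Fermat.Agent.AV.Jac.GlueRigGlue

/-!
Zariski descent for rigidified line bundles on a relative curve, when functions on the curve over
an affine base come from the base.
-/

set_option autoImplicit false

universe u

open CategoryTheory CategoryTheory.Limits TopologicalSpace AlgebraicGeometry Opposite
  NeronModelInfra AlgebraicGeometry.RelPicard

noncomputable section

namespace FermatLib.AV.Glue

variable {R : Type u} [CommRing R] {C : Scheme.{u}}

/-- Functions on `C × U` come from the affine scheme `U`. -/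
def ConstCurve (c : C ⟶ Spec (CommRingCat.of R)) : Prop :=
  ∀ ⦃U : Scheme.{u}⦄ [IsAffine U] (u : U ⟶ Spec (CommRingCat.of R)),
    Function.Surjective (pullback.snd c u).appTop

variable {c : C ⟶ Spec (CommRingCat.of R)} {ε : SchemeHomOver (𝟙 (Spec (CommRingCat.of R))) c}
  {T T' : Scheme.{u}} {t : T ⟶ Spec (CommRingCat.of R)} {t' : T' ⟶ Spec (CommRingCat.of R)}

lemma rigSection_snd (t : T ⟶ Spec (CommRingCat.of R))
    (ε : SchemeHomOver (𝟙 (Spec (CommRingCat.of R))) c) :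
    rigSection c t ε ≫ pullback.snd c t = 𝟙 T :=
  pullback.lift_snd _ _ _

lemma baseChangeSnd_snd (ψ : SchemeHomOver t' t) :
    baseChangeSnd c ψ ≫ pullback.snd c t = pullback.snd c t' ≫ ψ.1 :=
  pullback.lift_snd _ _ _

lemma baseChangeSnd_fst (ψ : SchemeHomOver t' t) :
    baseChangeSnd c ψ ≫ pullback.fst c t = pullback.fst c t' :=
  (pullback.lift_fst _ _ _).trans (Category.comp_id _)

lemma isPullback_baseChangeSnd (ψ : SchemeHomOver t' t) :
    IsPullback (baseChangeSnd c ψ) (pullback.snd c t') (pullback.snd c t) ψ.1 := by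
  refine IsPullback.of_right ?_ (baseChangeSnd_snd ψ) (IsPullback.of_hasPullback c t)
  rw [baseChangeSnd_fst, ψ.2]
  exact IsPullback.of_hasPullback c t'

instance isOpenImmersion_baseChangeSnd (ψ : SchemeHomOver t' t) [IsOpenImmersion ψ.1] :
    IsOpenImmersion (baseChangeSnd c ψ) :=
  MorphismProperty.of_isPullback (P := @IsOpenImmersion) (isPullback_baseChangeSnd ψ).flip ‹_›

lemma opensRange_baseChangeSnd (ψ : SchemeHomOver t' t) [IsOpenImmersion ψ.1] :
    (baseChangeSnd c ψ).opensRange = pullback.snd c t ⁻¹ᵁ ψ.1.opensRange := by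
  have h := isPullback_baseChangeSnd (c := c) ψ
  rw [← Scheme.Hom.opensRange_pullbackFst]
  apply Opens.ext
  show Set.range (baseChangeSnd c ψ) = Set.range (pullback.fst (pullback.snd c t) ψ.1)
  rw [← h.isoPullback_hom_fst, Scheme.Hom.comp_base, TopCat.coe_comp,
    (h.isoPullback.hom.surjective).range_comp]

lemma appLE_bijective {X Y : Scheme.{u}} (f : X ⟶ Y) [IsOpenImmersion f] {W : Y.Opens}
    (hW : W = f.opensRange) (e : (⊤ : X.Opens) ≤ f ⁻¹ᵁ W) :
    Function.Bijective (pb f e) := by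
  subst hW
  have h1 : f.opensRange = f ''ᵁ ⊤ := f.image_top_eq_opensRange.symm
  have h2 : pb f e = ((f.appIso ⊤).hom).hom.comp (rres Y h1.ge) := by
    ext a
    show pb f e a = (f.appIso ⊤).hom (rres Y h1.ge a)
    rw [Scheme.Hom.appIso_hom']
    exact (pb_rres f (f.preimage_image_eq ⊤).ge h1.ge a).symm
  rw [h2]
  refine Function.Bijective.comp (g := ⇑((f.appIso ⊤).hom).hom)
    (ConcreteCategory.bijective_of_isIso (f.appIso ⊤).hom) ?_
  exact Function.bijective_iff_has_inverse.2 ⟨rres Y h1.le, fun a => by simp, fun a => by simp⟩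

lemma pb_comp {X Y Z : Scheme.{u}} (f : X ⟶ Y) (g : Y ⟶ Z) {A : Z.Opens} {B : Y.Opens}
    {D : X.Opens} (e : B ≤ g ⁻¹ᵁ A) (e' : D ≤ f ⁻¹ᵁ B) (a : Γ(Z, A)) :
    pb f e' (pb g e a) = pb (f ≫ g) (e'.trans (f.preimage_mono e)) a := by
  show (g.appLE A B e ≫ f.appLE B D e') a = _
  rw [Scheme.Hom.appLE_comp_appLE]
  rfl

lemma pb_congr {X Y : Scheme.{u}} {f g : X ⟶ Y} (h : f = g) {B : Y.Opens} {D : X.Opens}
    (e : D ≤ f ⁻¹ᵁ B) (a : Γ(Y, B)) : pb f e a = pb g (h ▸ e) a := by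
  subst h; rfl

lemma constOn (hc : ConstCurve c) (t : T ⟶ Spec (CommRingCat.of R))
    (ε : SchemeHomOver (𝟙 (Spec (CommRingCat.of R))) c) :
    ConstOn (pullback.snd c t) (rigSection_snd t ε) := by
  let p := pullback.snd c t
  let σ := rigSection c t ε
  intro T' a ha
  refine req_of_forall_nhds fun x hx => ?_
  obtain ⟨_, ⟨U₀, hU, rfl⟩, hxU, hUT⟩ :=
    T.isBasis_affineOpens.exists_subset_of_mem_open hx T'.isOpen
  let U : T.Opens := U₀
  refine ⟨p ⁻¹ᵁ U, p.preimage_mono hUT, hxU, ?_⟩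
  have : IsAffine U := hU
  let ψ : SchemeHomOver (U.ι ≫ t) t := ⟨U.ι, rfl⟩
  have hW : p ⁻¹ᵁ U = (baseChangeSnd c ψ).opensRange := by
    rw [opensRange_baseChangeSnd]
    simp [ψ, p]
  have e : (⊤ : (pullback c (U.ι ≫ t)).Opens) ≤ baseChangeSnd c ψ ⁻¹ᵁ (p ⁻¹ᵁ U) := by
    rw [hW, Scheme.Hom.preimage_opensRange]
  apply (appLE_bijective (baseChangeSnd c ψ) hW e).1
  rw [map_one, map_one]
  obtain ⟨b, hb⟩ := hc (U.ι ≫ t) (pb (baseChangeSnd c ψ) e (rres _ (p.preimage_mono hUT) a))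
  let σ' := rigSection c (U.ι ≫ t) ε
  have hsq : σ' ≫ baseChangeSnd c ψ = U.ι ≫ σ := rigSection_baseChangeSnd c ε ψ
  have e2 : (⊤ : (U : Scheme).Opens) ≤ σ' ⁻¹ᵁ ⊤ := le_rfl
  have eb : b = pb σ' e2 (pb (baseChangeSnd c ψ) e (rres _ (p.preimage_mono hUT) a)) := by
    rw [← hb]
    show b = pb σ' e2 ((pullback.snd c (U.ι ≫ t)).app ⊤ b)
    rw [Scheme.Hom.app_eq_appLE]
    refine Eq.symm ((pb_pb (rigSection_snd (U.ι ≫ t) ε) _ e2 le_rfl b).trans ?_)
    simp
  have hb1 : b = 1 := by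
    have hιT : U.ι ⁻¹ᵁ T' = ⊤ := top_unique fun z _ => hUT z.2
    rw [eb, pb_rres, pb_comp, pb_congr hsq,
      ← pb_comp U.ι σ (preimage_section (rigSection_snd t ε) T').ge hιT.ge, ha, map_one]
  rw [← hb, hb1, map_one]

lemma locFree_of_pullback {X X' : Scheme.{u}} (f : X' ⟶ X) [IsOpenImmersion f] {N : X.Modules}
    (h : Scheme.Modules.IsInvertible ((Scheme.Modules.pullback f).obj N)) :
    LocFree N f.opensRange := by
  refine LocFree.of_cover fun x hx => ?_
  obtain ⟨z, rfl⟩ := hx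
  obtain ⟨U, hzU, ⟨e⟩⟩ := h.exists_trivialization z
  obtain ⟨α⟩ := (nonempty_isoOn_iff (U.ι ≫ f) N (𝕆 X)).2
    ⟨((Scheme.Modules.pullbackComp U.ι f).app N).symm ≪≫ e ≪≫
      (Scheme.Modules.pullbackUnitIso (U.ι ≫ f)).symm⟩
  exact ⟨(U.ι ≫ f).opensRange, ⟨⟨z, hzU⟩, rfl⟩, (locFree_unit _).ofIsoOn α.symm⟩

lemma exists_rig_of_rigidified (M : RigidifiedLineBundle c ε t) :
    Nonempty (Rig (rigSection c t ε) M.L ⊤) := by
  obtain ⟨ρ⟩ := exists_rig (rigSection_snd t ε) M.L (IsoOn.ofIso M.rigidified.some ⊤)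
  exact ⟨ρ.restrict (by simp)⟩

/-- Rigidified line bundles locally isomorphic over the base are isomorphic. -/
theorem nonempty_iso_of_openCover (hc : ConstCurve c) {ι : Type u} {Ti : ι → Scheme.{u}}
    {ti : ∀ i, Ti i ⟶ Spec (CommRingCat.of R)} (ψ : ∀ i, SchemeHomOver (ti i) t)
    [∀ i, IsOpenImmersion (ψ i).1] (hψ : ∀ x : T, ∃ i, x ∈ Set.range (ψ i).1)
    (M M' : RigidifiedLineBundle c ε t)
    (h : ∀ i, Nonempty ((M.pullbackAlong (ψ i)).L ≅ (M'.pullbackAlong (ψ i)).L)) :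
    Nonempty (M.L ≅ M'.L) := by
  obtain ⟨ρ⟩ := exists_rig_of_rigidified M
  obtain ⟨ρ'⟩ := exists_rig_of_rigidified M'
  refine nonempty_iso_of_locally (rigSection_snd t ε) (constOn hc t ε)
    (fun i => (ψ i).1.opensRange) (fun x _ => ?_) (locFree_of_isInvertible M.isInvertible ⊤) ρ ρ'
    fun i => ?_
  · obtain ⟨i, hi⟩ := hψ x
    exact Opens.mem_iSup.2 ⟨i, hi⟩
  · obtain ⟨α⟩ := (nonempty_isoOn_iff (baseChangeSnd c (ψ i)) M.L M'.L).2 (h i)
    exact ⟨α.restrict (opensRange_baseChangeSnd (ψ i)).ge⟩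

/-- Rigidified line bundles isomorphic on overlaps glue. -/
theorem exists_glue_openCover (hc : ConstCurve c) {ι : Type u} {Ti : ι → Scheme.{u}}
    {ti : ∀ i, Ti i ⟶ Spec (CommRingCat.of R)} (ψ : ∀ i, SchemeHomOver (ti i) t)
    [∀ i, IsOpenImmersion (ψ i).1] (hψ : ∀ x : T, ∃ i, x ∈ Set.range (ψ i).1)
    (M : ∀ i, RigidifiedLineBundle c ε (ti i))
    (h : ∀ i j {Z : Scheme.{u}} (z : Z ⟶ Spec (CommRingCat.of R)) (a : SchemeHomOver z (ti i))
      (b : SchemeHomOver z (ti j)), a.1 ≫ (ψ i).1 = b.1 ≫ (ψ j).1 →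
      Nonempty (((M i).pullbackAlong a).L ≅ ((M j).pullbackAlong b).L)) :
    ∃ M₀ : RigidifiedLineBundle c ε t, ∀ i, Nonempty ((M₀.pullbackAlong (ψ i)).L ≅ (M i).L) := by
  let σ := rigSection c t ε
  let N : ι → (pullback c t).Modules := fun i =>
    (Scheme.Modules.pushforward (baseChangeSnd c (ψ i))).obj (M i).L
  let eN : ∀ i, (Scheme.Modules.pullback (baseChangeSnd c (ψ i))).obj (N i) ≅ (M i).L := fun i =>
    pullbackPushIso _ _
  have hN : ∀ i, LocFree (N i) (pullback.snd c t ⁻¹ᵁ (ψ i).1.opensRange) := by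
    intro i
    rw [← opensRange_baseChangeSnd (ψ i)]
    refine locFree_of_pullback _ (isInvertible_of_locFree ?_)
    exact (locFree_of_isInvertible (M i).isInvertible ⊤).ofIsoOn (IsoOn.ofIso (eN i).symm ⊤)
  have hρ : ∀ i, Nonempty (Rig σ (N i) (pullback.snd c t ⁻¹ᵁ (ψ i).1.opensRange)) := by
    intro i
    obtain ⟨α⟩ := (nonempty_isoOn_iff (ψ i).1 ((Scheme.Modules.pullback σ).obj (N i)) (𝕆 T)).2
      ⟨(Scheme.Modules.pullbackComp _ _).app (N i) ≪≫
        (Scheme.Modules.pullbackCongr (rigSection_baseChangeSnd c ε (ψ i)).symm).app (N i) ≪≫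
        ((Scheme.Modules.pullbackComp _ _).app (N i)).symm ≪≫
        (Scheme.Modules.pullback _).mapIso (eN i) ≪≫ (M i).rigidified.some ≪≫
        (Scheme.Modules.pullbackUnitIso (ψ i).1).symm⟩
    exact exists_rig (rigSection_snd t ε) (N i) α
  obtain ⟨M₀, hM₀, ⟨ρ₀⟩, hiso⟩ := exists_glue_rigidified (rigSection_snd t ε) (constOn hc t ε)
    (fun i => (ψ i).1.opensRange) (fun x _ => Opens.mem_iSup.2 (hψ x)) N hN
    (fun i => (hρ i).some) fun i j => by
      let Z := pullback (ψ i).1 (ψ j).1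
      let z : Z ⟶ Spec (CommRingCat.of R) := pullback.fst _ _ ≫ ti i
      let a : SchemeHomOver z (ti i) := ⟨pullback.fst _ _, rfl⟩
      let b : SchemeHomOver z (ti j) := ⟨pullback.snd _ _, by
        show pullback.snd (ψ i).1 (ψ j).1 ≫ ti j = pullback.fst (ψ i).1 (ψ j).1 ≫ ti i
        exact ((congrArg (_ ≫ ·) (ψ j).2.symm).trans (pullback.condition_assoc t).symm).trans
          (congrArg (_ ≫ ·) (ψ i).2)⟩
      have hab : a.1 ≫ (ψ i).1 = b.1 ≫ (ψ j).1 := pullback.condition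
      let g : SchemeHomOver z t := ⟨a.1 ≫ (ψ i).1, by rw [Category.assoc, (ψ i).2]⟩
      have : IsOpenImmersion g.1 := inferInstanceAs (IsOpenImmersion (pullback.fst _ _ ≫ (ψ i).1))
      obtain ⟨e⟩ := h i j z a b hab
      have hga : baseChangeSnd c a ≫ baseChangeSnd c (ψ i) = baseChangeSnd c g :=
        baseChangeSnd_comp c (ψ i) a
      have hgb : baseChangeSnd c b ≫ baseChangeSnd c (ψ j) = baseChangeSnd c g := by
        rw [baseChangeSnd_comp]
        exact congrArg (baseChangeSnd c) (Subtype.ext hab.symm)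
      obtain ⟨α⟩ := (nonempty_isoOn_iff (baseChangeSnd c g) (N i) (N j)).2
        ⟨(Scheme.Modules.pullbackCongr hga.symm).app (N i) ≪≫
          ((Scheme.Modules.pullbackComp _ _).app (N i)).symm ≪≫
          (Scheme.Modules.pullback _).mapIso (eN i) ≪≫ e ≪≫
          ((Scheme.Modules.pullback _).mapIso (eN j)).symm ≪≫
          (Scheme.Modules.pullbackComp _ _).app (N j) ≪≫
          (Scheme.Modules.pullbackCongr hgb).app (N j)⟩
      have hrange : g.1.opensRange = (ψ i).1.opensRange ⊓ (ψ j).1.opensRange :=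
        Opens.ext (Scheme.Pullback.range_fst_comp (ψ i).1 (ψ j).1)
      exact ⟨α.restrict (by rw [opensRange_baseChangeSnd, hrange])⟩
  have hinv := isInvertible_of_locFree hM₀
  refine ⟨⟨M₀, hinv, nonempty_pullback_iso M₀ (hinv.pullback _) ρ₀⟩, fun i => ?_⟩
  obtain ⟨e⟩ := (nonempty_isoOn_iff (baseChangeSnd c (ψ i)) M₀ (N i)).1
    ⟨(hiso i).some.restrict (opensRange_baseChangeSnd (ψ i)).le⟩
  exact ⟨e ≪≫ eN i⟩

end FermatLib.AV.Glue
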