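import Fermat.Agent.AV.Jac.Bridge
import Fermat.Agent.AV.Jac.Core.Trivial
import Fermat.Agent.AV.Jac.GluePicard

/-!
The two charts of the constant family over an affine base: constants and geometric integrality.
-/

set_option autoImplicit false
set_option linter.style.haveILetI false

universe u

open CategoryTheory CategoryTheory.Limits AlgebraicGeometry NeronModelInfra TopologicalSpace
open scoped TensorProduct

noncomputable section

namespace FermatLib.AV

section Algebra

variable {k : Type u} [Field k] (D : ChartData k) (R : Type u) [CommRing R] [Algebra k R]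

/-- Functions regular on both charts come from the base. -/
theorem ChartData.exists_const_of_r0_eq_r1 (a : D.R0 R) (b : D.R1 R) (h : D.r0 R a = D.r1 R b) :
    ∃ r : R, a = algebraMap R (D.R0 R) r ∧ b = algebraMap R (D.R1 R) r := by
  classical
  obtain ⟨⟨ι, v⟩⟩ := Module.Free.exists_basis (R := k) (M := R)
  let e0 := TensorProduct.equivFinsuppOfBasisLeft (N := D.A0) v
  let e1 := TensorProduct.equivFinsuppOfBasisLeft (N := D.A1) v
  let e01 := TensorProduct.equivFinsuppOfBasisLeft (N := D.A01) v
  have h0 : ∀ (a : D.R0 R) i, e01 (D.r0 R a) i = D.j0 (e0 a i) := by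
    intro a i
    induction a using TensorProduct.induction_on with
    | zero => simp
    | tmul r x => simp [e0, e01]
    | add p q hp hq => simp [hp, hq]
  have h1 : ∀ (a : D.R1 R) i, e01 (D.r1 R a) i = D.j1 (e1 a i) := by
    intro a i
    induction a using TensorProduct.induction_on with
    | zero => simp
    | tmul r x => simp [e1, e01]
    | add p q hp hq => simp [hp, hq]
  have hc : ∀ i, ∃ r : k, e0 a i = algebraMap k D.A0 r := fun i =>
    D.const _ (e1 b i) (by rw [← h0, h, h1])
  have hmem : a ∈ (algebraMap R (D.R0 R)).range := by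
    rw [← e0.symm_apply_apply a, TensorProduct.equivFinsuppOfBasisLeft_symm_apply, Finsupp.sum]
    refine Subring.sum_mem _ fun i _ => ?_
    obtain ⟨r, hr⟩ := hc i
    refine ⟨r • v i, ?_⟩
    rw [hr, Algebra.algebraMap_eq_smul_one r, ← TensorProduct.smul_tmul]
    simp [Algebra.TensorProduct.algebraMap_apply]
  obtain ⟨r, rfl⟩ := hmem
  refine ⟨r, rfl, D.r1_injective (h.symm.trans ?_)⟩
  rw [AlgHom.commutes, AlgHom.commutes]

end Algebra

namespace CurveCharts

variable {k : Type u} [Field k] {C : Scheme.{u}} {c : C ⟶ Spec (CommRingCat.of k)}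
  {ε : SchemeHomOver (𝟙 (Spec (CommRingCat.of k))) c} (P : CurveCharts k c ε)
  (R : Type u) [CommRing R] [Algebra k R]

/-- The first chart of the constant family. -/
def degChart0 : Spec (CommRingCat.of (P.R0 R)) ⟶ pullback c (specStr k R) :=
  pullback.lift
    (Spec.map (CommRingCat.ofHom (Algebra.TensorProduct.includeRight : P.A0 →ₐ[k] P.R0 R).toRingHom)
      ≫ P.i0)
    (Spec.map (CommRingCat.ofHom (algebraMap R (P.R0 R)))) (by
      rw [Category.assoc, P.i0_base, specStr, ← Spec.map_comp, ← Spec.map_comp,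
        ← CommRingCat.ofHom_comp, ← CommRingCat.ofHom_comp]
      exact congrArg (fun f => Spec.map (CommRingCat.ofHom f)) (RingHom.ext fun r => by simp))

/-- The second chart of the constant family. -/
def degChart1 : Spec (CommRingCat.of (P.R1 R)) ⟶ pullback c (specStr k R) :=
  pullback.lift
    (Spec.map (CommRingCat.ofHom (Algebra.TensorProduct.includeRight : P.A1 →ₐ[k] P.R1 R).toRingHom)
      ≫ P.i1)
    (Spec.map (CommRingCat.ofHom (algebraMap R (P.R1 R)))) (by
      rw [Category.assoc, P.i1_base, specStr, ← Spec.map_comp, ← Spec.map_comp,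
        ← CommRingCat.ofHom_comp, ← CommRingCat.ofHom_comp]
      exact congrArg (fun f => Spec.map (CommRingCat.ofHom f)) (RingHom.ext fun r => by simp))

lemma isPullback_degChart0 : IsPullback
    (Spec.map (CommRingCat.ofHom (Algebra.TensorProduct.includeRight : P.A0 →ₐ[k] P.R0 R).toRingHom))
    (P.degChart0 R) P.i0 (pullback.fst c (specStr k R)) := by
  refine IsPullback.of_bot ?_ (pullback.lift_fst _ _ _).symm
    (IsPullback.of_hasPullback c (specStr k R))
  rw [degChart0, pullback.lift_snd, P.i0_base]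
  exact (isPullback_SpecMap_of_isPushout _ _ _ _
    (CommRingCat.isPushout_tensorProduct k R P.A0).flip)

lemma isPullback_degChart1 : IsPullback
    (Spec.map (CommRingCat.ofHom (Algebra.TensorProduct.includeRight : P.A1 →ₐ[k] P.R1 R).toRingHom))
    (P.degChart1 R) P.i1 (pullback.fst c (specStr k R)) := by
  refine IsPullback.of_bot ?_ (pullback.lift_fst _ _ _).symm
    (IsPullback.of_hasPullback c (specStr k R))
  rw [degChart1, pullback.lift_snd, P.i1_base]
  exact (isPullback_SpecMap_of_isPushout _ _ _ _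
    (CommRingCat.isPushout_tensorProduct k R P.A1).flip)

instance : IsOpenImmersion (P.degChart0 R) :=
  MorphismProperty.of_isPullback (P := @IsOpenImmersion) (P.isPullback_degChart0 R) inferInstance

instance : IsOpenImmersion (P.degChart1 R) :=
  MorphismProperty.of_isPullback (P := @IsOpenImmersion) (P.isPullback_degChart1 R) inferInstance

lemma degChart_comp : Spec.map (CommRingCat.ofHom (P.r0 R).toRingHom) ≫ P.degChart0 R =
    Spec.map (CommRingCat.ofHom (P.r1 R).toRingHom) ≫ P.degChart1 R := by
  have e0 : (P.r0 R).toRingHom.comp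
      (Algebra.TensorProduct.includeRight : P.A0 →ₐ[k] P.R0 R).toRingHom =
      (Algebra.TensorProduct.includeRight : P.A01 →ₐ[k] P.R01 R).toRingHom.comp P.j0.toRingHom :=
    RingHom.ext fun a => rfl
  have e1 : (P.r1 R).toRingHom.comp
      (Algebra.TensorProduct.includeRight : P.A1 →ₐ[k] P.R1 R).toRingHom =
      (Algebra.TensorProduct.includeRight : P.A01 →ₐ[k] P.R01 R).toRingHom.comp P.j1.toRingHom :=
    RingHom.ext fun a => rfl
  apply pullback.hom_ext
  · rw [Category.assoc, Category.assoc, degChart0, degChart1, pullback.lift_fst, pullback.lift_fst,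
      ← Spec.map_comp_assoc, ← Spec.map_comp_assoc, ← CommRingCat.ofHom_comp,
      ← CommRingCat.ofHom_comp, e0, e1, CommRingCat.ofHom_comp, CommRingCat.ofHom_comp,
      Spec.map_comp_assoc, Spec.map_comp_assoc, P.overlap.w]
  · rw [Category.assoc, Category.assoc, degChart0, degChart1, pullback.lift_snd, pullback.lift_snd,
      ← Spec.map_comp, ← Spec.map_comp, ← CommRingCat.ofHom_comp, ← CommRingCat.ofHom_comp]
    exact congrArg (fun f => Spec.map (CommRingCat.ofHom f))
      (RingHom.ext fun r => ((P.r0 R).commutes r).trans ((P.r1 R).commutes r).symm)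

lemma mem_range_degChart (p : ↑(pullback c (specStr k R))) :
    p ∈ Set.range (P.degChart0 R) ∨ p ∈ Set.range (P.degChart1 R) := by
  have hp : pullback.fst c (specStr k R) p ∈ P.i0.opensRange ⊔ P.i1.opensRange := by
    rw [P.cover]; trivial
  rcases hp with ⟨y, hy⟩ | ⟨y, hy⟩
  · left
    obtain ⟨z, -, hz⟩ := Scheme.exists_preimage_of_isPullback (P.isPullback_degChart0 R) y p hy
    exact ⟨z, hz⟩
  · right
    obtain ⟨z, -, hz⟩ := Scheme.exists_preimage_of_isPullback (P.isPullback_degChart1 R) y p hy
    exact ⟨z, hz⟩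

lemma eq_of_appTop_degChart {a b : Γ(pullback c (specStr k R), ⊤)}
    (h0 : (P.degChart0 R).appTop a = (P.degChart0 R).appTop b)
    (h1 : (P.degChart1 R).appTop a = (P.degChart1 R).appTop b) : a = b := by
  refine TopCat.Presheaf.section_ext (pullback c (specStr k R)).sheaf ⊤ _ _ fun p _ => ?_
  have key : ∀ {Z : Scheme.{u}} (j : Z ⟶ pullback c (specStr k R)) [IsOpenImmersion j],
      j.appTop a = j.appTop b → ∀ z : Z,
        (pullback c (specStr k R)).presheaf.germ ⊤ (j z) trivial a =
          (pullback c (specStr k R)).presheaf.germ ⊤ (j z) trivial b := by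
    intro Z j _ hj z
    apply (ConcreteCategory.bijective_of_isIso (j.stalkMap z)).1
    refine (j.germ_stalkMap_apply ⊤ z trivial a).trans
      (Eq.trans ?_ (j.germ_stalkMap_apply ⊤ z trivial b).symm)
    exact congrArg _ hj
  rcases P.mem_range_degChart R p with ⟨z, rfl⟩ | ⟨z, rfl⟩
  · exact key _ h0 z
  · exact key _ h1 z

include P in
lemma surjective_appTop_snd :
    Function.Surjective (pullback.snd c (specStr k R)).appTop := by
  intro a
  have e0 := Scheme.ΓSpecIso_naturality (CommRingCat.ofHom (P.r0 R).toRingHom)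
  have e1 := Scheme.ΓSpecIso_naturality (CommRingCat.ofHom (P.r1 R).toRingHom)
  let a0 := (Scheme.ΓSpecIso (CommRingCat.of (P.R0 R))).hom ((P.degChart0 R).appTop a)
  let a1 := (Scheme.ΓSpecIso (CommRingCat.of (P.R1 R))).hom ((P.degChart1 R).appTop a)
  have h : P.r0 R a0 = P.r1 R a1 := by
    have h0 := congr($(e0) ((P.degChart0 R).appTop a))
    have h1 := congr($(e1) ((P.degChart1 R).appTop a))
    have hw : (P.degChart0 R ).appTop ≫ (Spec.map (CommRingCat.ofHom (P.r0 R).toRingHom)).appTop =
        (P.degChart1 R).appTop ≫ (Spec.map (CommRingCat.ofHom (P.r1 R).toRingHom)).appTop := by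
      rw [← Scheme.Hom.comp_appTop, ← Scheme.Hom.comp_appTop, P.degChart_comp]
    have hw' := congr($(hw) a)
    refine h0.symm.trans ?_
    refine (congrArg _ hw').trans h1
  obtain ⟨r, hr0, hr1⟩ := P.toChartData.exists_const_of_r0_eq_r1 R a0 a1 h
  refine ⟨(Scheme.ΓSpecIso (CommRingCat.of R)).inv r, ?_⟩
  have hs0 : (pullback.snd c (specStr k R)).appTop ≫ (P.degChart0 R).appTop =
      (Scheme.ΓSpecIso (CommRingCat.of R)).hom ≫ CommRingCat.ofHom (algebraMap R (P.R0 R)) ≫
        (Scheme.ΓSpecIso (CommRingCat.of (P.R0 R))).inv := by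
    rw [← Scheme.Hom.comp_appTop, degChart0, pullback.lift_snd,
      ← Scheme.ΓSpecIso_naturality_assoc, Iso.hom_inv_id, Category.comp_id]
  have hs1 : (pullback.snd c (specStr k R)).appTop ≫ (P.degChart1 R).appTop =
      (Scheme.ΓSpecIso (CommRingCat.of R)).hom ≫ CommRingCat.ofHom (algebraMap R (P.R1 R)) ≫
        (Scheme.ΓSpecIso (CommRingCat.of (P.R1 R))).inv := by
    rw [← Scheme.Hom.comp_appTop, degChart1, pullback.lift_snd,
      ← Scheme.ΓSpecIso_naturality_assoc, Iso.hom_inv_id, Category.comp_id]
  refine P.eq_of_appTop_degChart R ?_ ?_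
  · refine (congr($(hs0) ((Scheme.ΓSpecIso (CommRingCat.of R)).inv r))).trans ?_
    change (Scheme.ΓSpecIso (CommRingCat.of (P.R0 R))).inv (algebraMap R (P.R0 R)
      ((Scheme.ΓSpecIso (CommRingCat.of R)).hom ((Scheme.ΓSpecIso (CommRingCat.of R)).inv r))) = _
    rw [Iso.inv_hom_id_apply, ← hr0]
    exact (Scheme.ΓSpecIso _).hom_inv_id_apply _
  · refine (congr($(hs1) ((Scheme.ΓSpecIso (CommRingCat.of R)).inv r))).trans ?_
    change (Scheme.ΓSpecIso (CommRingCat.of (P.R1 R))).inv (algebraMap R (P.R1 R)
      ((Scheme.ΓSpecIso (CommRingCat.of R)).hom ((Scheme.ΓSpecIso (CommRingCat.of R)).inv r))) = _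
    rw [Iso.inv_hom_id_apply, ← hr1]
    exact (Scheme.ΓSpecIso _).hom_inv_id_apply _

include P in
/-- Functions on the constant family over an affine base are functions on the base. -/
theorem constCurve : Glue.ConstCurve c := by
  intro U _ u
  let u' := U.isoSpec.inv ≫ u
  let alg : Algebra k Γ(U, ⊤) := (Spec.preimage u').hom.toAlgebra
  have hu : specStr k Γ(U, ⊤) = u' := Spec.map_preimage u'
  let m : pullback c (specStr k Γ(U, ⊤)) ⟶ pullback c u :=
    pullback.map c (specStr k Γ(U, ⊤)) c u (𝟙 C) U.isoSpec.inv (𝟙 _) (by simp)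
      (by rw [Category.comp_id]; exact hu)
  have hm : m ≫ pullback.snd c u = pullback.snd c _ ≫ U.isoSpec.inv := pullback.lift_snd _ _ _
  have h : Function.Surjective (m ≫ pullback.snd c u).appTop := by
    rw [hm, Scheme.Hom.comp_appTop]
    exact (P.surjective_appTop_snd _).comp
      (ConcreteCategory.bijective_of_isIso (U.isoSpec.inv.app ⊤)).2
  rw [Scheme.Hom.comp_appTop] at h
  haveI : IsIso m := pullback.map_isIso _ _ _ _ _ _ _ _ _
  intro a
  obtain ⟨b, hb⟩ := h (m.appTop a)
  exact ⟨b, (ConcreteCategory.bijective_of_isIso (m.app ⊤)).1 hb⟩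

end CurveCharts

end FermatLib.AV
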