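import Fermat.Agent.AV.Jac.ChartFamily
import Fermat.Agent.AV.Jac.DegreeCharts
import Fermat.Agent.AV.Jac.Criterion
import Fermat.Agent.AV.Jac.Charts
import Fermat.Prelude.Def_JacJ1Iface

/-!
Assembly of the Jacobian from the charts and the properties of the degree zero functor.
-/

set_option autoImplicit false

universe u

open CategoryTheory CategoryTheory.Limits AlgebraicGeometry NeronModelInfra AlgebraicGeometry.RelPicard
  GoodReductionJacobian
open scoped TensorProduct

noncomputable section

namespace FermatLib.AV

/-- A representing object only depends on the underlying predicate of the cut. -/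
def representsRelSubPicCongr {R : Type u} [CommRing R] {C : Scheme.{u}}
    {c : C ⟶ Spec (CommRingCat.of R)} {ε : SchemeHomOver (𝟙 (Spec (CommRingCat.of R))) c}
    {Q Q' : SubPicCondition c ε} {D : RelativePic0Designation R c}
    (h : RepresentsRelSubPic c ε Q D)
    (e : ∀ {T : Scheme.{u}} (t : T ⟶ Spec (CommRingCat.of R)) (M : RigidifiedLineBundle c ε t),
      Q'.P t M ↔ Q.P t M) : RepresentsRelSubPic c ε Q' D where
  poincare := h.poincare
  poincare_mem := (e _ _).2 h.poincare_mem
  univ t M hM := h.univ t M ((e t M).1 hM)
  zero := h.zero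

namespace CurveCharts

variable {k : Type u} [Field k] {C : Scheme.{u}} {c : C ⟶ Spec (CommRingCat.of k)}
  {ε : SchemeHomOver (𝟙 (Spec (CommRingCat.of k))) c} (P : CurveCharts k c ε)

/-- The algebraic equivalence cut is represented by a smooth proper connected scheme, given the
twists, the local properties and the Abel map. -/
theorem exists_jacobian (S : P.toChartData.TwistSystem)
    (hprops : ∀ (D : RelativePic0Designation k c) (h : RepresentsRelSubPic c ε P.degZeroCut D)
      (e : ∀ i, SchemeHomOver (Glue.affStr k ((P.chartFamily S).A i)) D.toBase),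
      (∀ i, IsOpenImmersion (e i).1) → (∀ x : D.P, ∃ i, x ∈ Set.range (e i).1) →
      (∀ i, Glue.BunIso (h.poincare.pullbackAlong (e i)) ((P.chartFamily S).bun i)) →
      Smooth D.toBase ∧ IsSeparated D.toBase ∧ LocallyOfFiniteType D.toBase)
    (habel : ∀ (D : RelativePic0Designation k c) (_ : RepresentsRelSubPic c ε P.degZeroCut D),
      LocallyOfFiniteType D.toBase → IsSeparated D.toBase →
      UniversallyClosed D.toBase ∧ GeometricallyConnected D.toBase ∧
        ∀ (K : Type u) [Field K] [IsAlgClosed K] [Algebra k K] (B : P.toChartData.Bundle K),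
          B.IsDegZero → P.IsRigidified B →
            IsAlgEquivZero (pullback.snd c (specStr k K)) (P.toModules B)) :
    ∃ D : RelativePic0Designation k c,
      Nonempty (RepresentsRelSubPic c ε (algEquivZeroCut c ε) D) ∧
        Smooth D.toBase ∧ IsProper D.toBase ∧ GeometricallyConnected D.toBase := by
  obtain ⟨D, h, e, he, hcov, hpoinc⟩ :=
    (P.chartFamily S).exists_representsRelSubPic P.constCurve P.isLocalCondition_degZeroCut
  obtain ⟨hsm, hsep, hlft⟩ := hprops D h e he hcov hpoinc
  obtain ⟨huc, hconn, hgeo⟩ := habel D h hlft hsep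
  exact ⟨D, ⟨representsRelSubPicCongr h fun t M => P.algEquivZeroCut_iff_degZeroCut hgeo M⟩,
    hsm, {}, hconn⟩

end CurveCharts

end FermatLib.AV
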