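import Mathlib

/-!
Invertible modules lift along surjections of rings with square zero kernel.
-/

set_option autoImplicit false

universe u

open scoped TensorProduct

namespace FermatLib.AV

/-- For an invertible module all `φ m • x - φ x • m` vanish. -/
theorem invertible_cross {A L : Type u} [CommRing A] [AddCommGroup L] [Module A L]
    [Module.Invertible A L] (φ : L →ₗ[A] A) (m x : L) : φ m • x = φ x • m := by
  have h := congrArg (fun z : L ⊗[A] L => TensorProduct.lid A L (φ.rTensor L z))
    (Module.Invertible.tmul_comm (R := A) (m₁ := m) (m₂ := x))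
  simpa using h

/-- A module with functionals whose values sum to one and satisfying the cross identity is
invertible. -/
theorem invertible_of_cross {A L : Type u} [CommRing A] [AddCommGroup L] [Module A L] {ι : Type u}
    [Fintype ι] (φ : ι → L →ₗ[A] A) (m : ι → L) (h1 : ∑ i, φ i (m i) = 1)
    (hc : ∀ (ψ : L →ₗ[A] A) (a x : L), ψ a • x = ψ x • a) : Module.Invertible A L := by
  let Ψ : A →ₗ[A] Module.Dual A L ⊗[A] L :=
    LinearMap.toSpanSingleton A _ (∑ i, φ i ⊗ₜ[A] m i)
  have hx : ∀ x : L, x = ∑ i, φ i x • m i := fun x => by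
    simp_rw [← hc _ (m _) x, ← Finset.sum_smul, h1, one_smul]
  have hright : ∀ a, contractLeft A L (Ψ a) = a := fun a => by
    simp [Ψ, contractLeft_apply, h1]
  have hleft : ∀ z, Ψ (contractLeft A L z) = z := by
    intro z
    induction z using TensorProduct.induction_on with
    | zero => simp
    | add a b ha hb => simp only [map_add, ha, hb]
    | tmul ψ x =>
      have hψ : ∀ i, φ i x • ψ = ψ x • φ i := fun i => LinearMap.ext fun y => by
        have := congrArg ψ (hc (φ i) x y)
        simp only [map_smul, smul_eq_mul] at this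
        simp only [LinearMap.smul_apply, smul_eq_mul, this]
        ring
      conv_rhs => rw [hx x, TensorProduct.tmul_sum]
      simp only [Ψ, contractLeft_apply, LinearMap.toSpanSingleton_apply, Finset.smul_sum,
        TensorProduct.smul_tmul', TensorProduct.tmul_smul, hψ]
  exact ⟨Function.bijective_iff_has_inverse.2 ⟨Ψ, hleft, hright⟩⟩

/-- A lift of an invertible module with enough functionals is invertible. -/
theorem invertible_of_lift {A A' L L' : Type u} [CommRing A] [CommRing A'] [AddCommGroup L]
    [Module A L] [AddCommGroup L'] [Module A' L'] [Module.Invertible A' L'] (π : A →+* A')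
    (hsq : RingHom.ker π ^ 2 = ⊥) (g : L →+ L') (hg : ∀ (a : A) (l : L), g (a • l) = π a • g l)
    (hgsurj : Function.Surjective g)
    (hker : ∀ l, g l = 0 → l ∈ RingHom.ker π • (⊤ : Submodule A L))
    (hlift : ∀ f : L' →ₗ[A'] A', ∃ φ : L →ₗ[A] A, ∀ l, π (φ l) = f (g l)) :
    Module.Invertible A L := by
  classical
  let T : Submodule A L := RingHom.ker π • ⊤
  obtain ⟨S, hS⟩ : ∃ S : Finset (Module.Dual A' L' × L'),
      (Module.Invertible.linearEquiv A' L').symm 1 = ∑ i ∈ S, i.1 ⊗ₜ[A'] i.2 :=
    TensorProduct.exists_finset _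
  have hS1 : ∑ i ∈ S, i.1 i.2 = 1 := by
    have := congrArg (Module.Invertible.linearEquiv A' L') hS
    simpa [Module.Invertible.linearEquiv] using this.symm
  choose φ hφ using fun j : S => hlift j.1.1
  choose m hm using fun j : S => hgsurj j.1.2
  obtain ⟨u, hu⟩ : IsUnit (∑ j, φ j (m j)) := by
    have hi : 1 - ∑ j, φ j (m j) ∈ RingHom.ker π := by
      rw [RingHom.mem_ker, map_sub, map_one, map_sum]
      simp only [hφ, hm]
      rw [Finset.sum_coe_sort S (fun i => i.1 i.2), hS1, sub_self]
    have hnil : IsNilpotent (1 - ∑ j, φ j (m j)) := ⟨2, by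
      rw [← Ideal.mem_bot, ← hsq]; exact Ideal.pow_mem_pow hi 2⟩
    simpa using hnil.isUnit_one_sub
  let φ₁ : S → L →ₗ[A] A := fun j => (↑u⁻¹ : A) • φ j
  have h1 : ∑ j, φ₁ j (m j) = 1 := by
    simp only [φ₁, LinearMap.smul_apply, smul_eq_mul, ← Finset.mul_sum, ← hu, Units.inv_mul]
  have key : ∀ j (x : L),
      φ₁ j (m j) • (φ₁ j (m j) • x - φ₁ j x • m j) = 0 := by
    intro j
    let θ : L →ₗ[A] L :=
      φ₁ j (m j) • LinearMap.id - (φ₁ j).smulRight (m j)
    have hθ : ∀ x, θ x = φ₁ j (m j) • x - φ₁ j x • m j := fun x => rfl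
    have hθ0 : ∀ x, θ x ∈ T := fun x => hker _ (by
      rw [hθ, map_sub, hg, hg]
      simp only [φ₁, LinearMap.smul_apply, smul_eq_mul, map_mul, hφ, mul_smul, ← smul_sub]
      rw [invertible_cross, sub_self, smul_zero])
    intro x
    have hk : φ₁ j (θ x) = 0 := by
      rw [hθ, map_sub, map_smul, map_smul, smul_eq_mul, smul_eq_mul, mul_comm, sub_self]
    have h2 : θ (θ x) ∈ RingHom.ker π • T := by
      have := Submodule.mem_map_of_mem (f := θ) (hθ0 x)
      rw [Submodule.map_smul''] at this
      exact Submodule.smul_mono le_rfl (fun y hy => by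
        obtain ⟨z, -, rfl⟩ := hy; exact hθ0 z) this
    rw [← Submodule.mul_smul, ← pow_two, hsq, Submodule.bot_smul, Submodule.mem_bot, hθ (θ x), hk,
      zero_smul, sub_zero] at h2
    rwa [← hθ]
  refine invertible_of_cross φ₁ m h1 fun ψ a x => ?_
  have hspan : Ideal.span (Set.range fun j => φ₁ j (m j)) = ⊤ := by
    rw [Ideal.eq_top_iff_one, ← h1]
    exact Ideal.sum_mem _ fun j _ => Ideal.subset_span ⟨j, rfl⟩
  have htop := Ideal.span_pow_eq_top _ hspan 4
  let N : Submodule A A := LinearMap.ker (LinearMap.toSpanSingleton A _ (ψ a • x - ψ x • a))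
  have : Ideal.span ((fun r => r ^ 4) '' Set.range fun j => φ₁ j (m j)) ≤ N := by
    rw [Ideal.span_le]
    rintro _ ⟨_, ⟨j, rfl⟩, rfl⟩
    show (φ₁ j (m j)) ^ 4 • (ψ a • x - ψ x • a) = 0
    set r := φ₁ j (m j) with hr
    have hx : ∀ y, (r * r) • y = (r * φ₁ j y) • m j := fun y => by
      have := key j y
      rw [← hr, smul_sub, smul_smul, smul_smul, sub_eq_zero] at this
      exact this
    have e1 : r * r * ψ a = r * φ₁ j a * ψ (m j) := by
      simpa using congrArg ψ (hx a)
    have e2 : r * r * ψ x = r * φ₁ j x * ψ (m j) := by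
      simpa using congrArg ψ (hx x)
    calc r ^ 4 • (ψ a • x - ψ x • a)
        = (r * r * ψ a) • (r * r) • x - (r * r * ψ x) • (r * r) • a := by
          simp only [smul_sub, smul_smul]; congr 2 <;> ring
      _ = 0 := by
          rw [hx, hx, e1, e2, smul_smul, smul_smul, sub_eq_zero]; congr 1; ring
  rw [htop] at this
  have h := this (Submodule.mem_top (x := (1 : A)))
  simpa [N, sub_eq_zero] using h

/-- Invertible modules lift along a surjection with square zero kernel. -/
theorem exists_lift_invertible {A A' : Type u} [CommRing A] [CommRing A'] (π : A →+* A')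
    (hπ : Function.Surjective π) (hsq : RingHom.ker π ^ 2 = ⊥) (L' : Type u) [AddCommGroup L']
    [Module A' L'] [Module.Invertible A' L'] :
    ∃ (L : Type u) (_ : AddCommGroup L) (_ : Module A L) (g : L →+ L'),
      Module.Invertible A L ∧ (∀ (a : A) (l : L), g (a • l) = π a • g l) ∧ Function.Surjective g ∧
        ∀ l, g l = 0 → l ∈ RingHom.ker π • (⊤ : Submodule A L) := by
  classical
  obtain ⟨n, p, hp⟩ := Module.Finite.exists_fin' A' L'
  obtain ⟨s, hs⟩ := p.exists_rightInverse_of_surjective (LinearMap.range_eq_top.2 hp)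
  have hps : ∀ l, p (s l) = l := fun l => LinearMap.congr_fun hs l
  let e' : Matrix (Fin n) (Fin n) A' := LinearMap.toMatrix' (s.comp p)
  have he' : ∀ v, e'.mulVec v = s (p v) := fun v => LinearMap.toMatrix'_mulVec _ v
  have hidem : IsIdempotentElem e' := by
    rw [IsIdempotentElem, ← LinearMap.toMatrix'_comp]
    refine congrArg _ (LinearMap.ext fun v => ?_)
    simp [hps]
  obtain ⟨e, hee, heq⟩ := exists_isIdempotentElem_eq_of_ker_isNilpotent π.mapMatrix
    (fun x hx => by
      refine ⟨2, Matrix.ext fun i j => ?_⟩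
      rw [pow_two, Matrix.mul_apply]
      refine Finset.sum_eq_zero fun l _ => ?_
      have hxi : ∀ i j, x i j ∈ RingHom.ker π := fun i j =>
        congrFun (congrFun (hx : π.mapMatrix x = 0) i) j
      have := Ideal.mul_mem_mul (hxi i l) (hxi l j)
      rwa [← pow_two, hsq, Ideal.mem_bot] at this)
    e' ⟨Matrix.of fun i j => Function.surjInv hπ (e' i j),
      Matrix.ext fun i j => Function.surjInv_eq hπ _⟩ hidem
  let E : (Fin n → A) →ₗ[A] (Fin n → A) := Matrix.mulVecLin e
  have hEE : ∀ v, E (E v) = E v := fun v => by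
    simp only [E, Matrix.mulVecLin_apply, Matrix.mulVec_mulVec, hee.eq]
  have hfix : ∀ l : LinearMap.range E, E l = l := by
    rintro ⟨_, v, rfl⟩; exact hEE v
  have hπE : ∀ v : Fin n → A, (π ∘ E v : Fin n → A') = s (p (π ∘ v)) := fun v => by
    funext i
    rw [Function.comp_apply, ← he', ← heq]
    exact RingHom.map_mulVec π e v i
  let g : LinearMap.range E →+ L' := AddMonoidHom.mk' (fun l => p (π ∘ (l : Fin n → A)))
    fun l l' => by
      rw [← map_add]; congr 1; funext i; exact map_add π _ _
  have hg : ∀ (a : A) (l : LinearMap.range E), g (a • l) = π a • g l := fun a l => by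
    show p _ = π a • p _
    rw [← map_smul]; congr 1; funext i; exact map_mul π _ _
  have hgsurj : Function.Surjective g := by
    intro l'
    refine ⟨⟨E fun i => Function.surjInv hπ (s l' i), _, rfl⟩, ?_⟩
    show p (π ∘ E _) = l'
    rw [hπE, hps]
    exact (congrArg p (funext fun i => Function.surjInv_eq hπ _)).trans (hps l')
  let T : Submodule A (LinearMap.range E) := RingHom.ker π • ⊤
  have hker : ∀ l, g l = 0 → l ∈ T := by
    intro l hl
    have h0 : ∀ i, (l : Fin n → A) i ∈ RingHom.ker π := fun i => by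
      have h := congrFun (hπE (l : Fin n → A)) i
      rw [hfix, show p (π ∘ (l : Fin n → A)) = 0 from hl, map_zero] at h
      exact h
    have : l = ∑ i, (l : Fin n → A) i • E.rangeRestrict (Pi.single i 1) := by
      conv_lhs => rw [show l = E.rangeRestrict (l : Fin n → A) from Subtype.ext (hfix l).symm,
        show (l : Fin n → A) = ∑ i, (l : Fin n → A) i • Pi.single i (1 : A) from
          pi_eq_sum_univ' (l : Fin n → A)]
      simp only [map_sum, map_smul]
    rw [this]
    exact Submodule.sum_mem _ fun i _ => Submodule.smul_mem_smul (h0 i) Submodule.mem_top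
  refine ⟨LinearMap.range E, inferInstance, inferInstance, g,
    invertible_of_lift π hsq g hg hgsurj hker ?_, hg, hgsurj, hker⟩
  intro f
  let φ : LinearMap.range E →ₗ[A] A :=
    (∑ i, Function.surjInv hπ (f (p (Pi.single i 1))) • LinearMap.proj i).comp
      (LinearMap.range E).subtype
  refine ⟨φ, fun l => ?_⟩
  have : g l = ∑ i, π ((l : Fin n → A) i) • p (Pi.single i 1) := by
    show p (π ∘ (l : Fin n → A)) = _
    conv_lhs => rw [pi_eq_sum_univ' (π ∘ (l : Fin n → A))]
    simp only [map_sum, map_smul, Function.comp_apply]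
  rw [this, map_sum]
  simp only [φ, LinearMap.comp_apply, LinearMap.sum_apply, map_sum, LinearMap.smul_apply,
    LinearMap.proj_apply, Submodule.subtype_apply, smul_eq_mul, map_mul, map_smul,
    Function.surjInv_eq hπ]
  exact Finset.sum_congr rfl fun i _ => mul_comm _ _


end FermatLib.AV
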