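import Fermat.Agent.AV.Jac.Core.Functorial
import Fermat.Agent.AV.Jac.PropsLiftModule

/-!
Bundles over a valuation ring which are isomorphic over the fraction field are isomorphic.
-/

set_option autoImplicit false
set_option linter.unusedSectionVars false

universe u

open scoped TensorProduct

namespace FermatLib.AV

namespace ChartData

variable {k : Type u} [Field k] (D : ChartData k)

theorem isDomain_R01 (K : Type u) [Field K] [Algebra k K] : IsDomain (D.R01 K) := by
  have := D.isDomain0 K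
  have : Nontrivial (D.R01 K) := (D.r0_injective K).nontrivial
  have hu : ∀ N : ℕ, IsUnit (D.r0 K (D.xR K) ^ N) := fun N =>
    (IsUnit.of_mul_eq_one _ (D.r0_x_mul_r1_y K)).pow N
  have : NoZeroDivisors (D.R01 K) := ⟨fun {a b} h => by
    obtain ⟨N, a0, ha⟩ := D.exists_pow_mul_r0 K a
    obtain ⟨N', b0, hb⟩ := D.exists_pow_mul_r0 K b
    have h0 : D.r0 K (a0 * b0) = D.r0 K 0 := by
      rw [map_mul, map_zero, ← ha, ← hb,
        show D.r0 K (D.xR K) ^ N * a * (D.r0 K (D.xR K) ^ N' * b) =
          D.r0 K (D.xR K) ^ N * D.r0 K (D.xR K) ^ N' * (a * b) by ring, h, mul_zero]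
    rcases mul_eq_zero.1 (D.r0_injective K h0) with h1 | h1
    · left
      rw [h1, map_zero] at ha
      exact (hu N).mul_right_eq_zero.1 ha
    · right
      rw [h1, map_zero] at hb
      exact (hu N').mul_right_eq_zero.1 hb⟩
  exact NoZeroDivisors.to_isDomain _

/-- The basis of the overlap with coefficients induced by a basis over the field of constants. -/
noncomputable def basis01 (R : Type u) [CommRing R] [Algebra k R] :
    Module.Basis (Module.Free.ChooseBasisIndex k D.A01) R (D.R01 R) :=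
  Algebra.TensorProduct.basis R (Module.Free.chooseBasis k D.A01)

theorem basis01_repr_map01 {R S : Type u} [CommRing R] [Algebra k R] [CommRing S] [Algebra k S]
    (φ : R →ₐ[k] S) (a : D.R01 R) (i : Module.Free.ChooseBasisIndex k D.A01) :
    (D.basis01 S).repr (D.map01 φ a) i = φ ((D.basis01 R).repr a i) := by
  induction a using TensorProduct.induction_on with
  | zero => simp
  | tmul r a =>
    simp [basis01, ChartData.map01, Algebra.TensorProduct.basis_repr_tmul]
  | add a b ha hb => simp [map_add, ha, hb]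

variable {D}

theorem Bundle.invertible_M {R : Type u} [CommRing R] [Algebra k R] (B : D.Bundle R) :
    Module.Invertible (D.R01 R) B.M := by
  let : Algebra (D.R0 R) (D.R01 R) := (D.r0 R).toRingHom.toAlgebra
  have : IsScalarTower (D.R0 R) (D.R01 R) B.M := IsScalarTower.of_algebraMap_smul B.smul0
  exact Module.Invertible.congr B.isLocalizedModule_L0.equiv

variable {V : Type u} [CommRing V] [Algebra k V] [IsDomain V] [ValuationRing V]

/-- The functions on the overlap vanishing on the special fibre. -/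
noncomputable def specialIdeal (D : ChartData k) (V : Type u) [CommRing V] [Algebra k V]
    [IsLocalRing V] : Ideal (D.R01 V) :=
  RingHom.ker (D.map01 (IsScalarTower.toAlgHom k V (IsLocalRing.ResidueField V))).toRingHom

theorem specialIdeal_isPrime : (specialIdeal D V).IsPrime := by
  have := D.isDomain_R01 (IsLocalRing.ResidueField V)
  exact RingHom.ker_isPrime _

theorem algebraMap_mem_specialIdeal {q : V} (hq : ¬ IsUnit q) (a : D.R01 V) :
    q • a ∈ specialIdeal D V := by
  rw [Algebra.smul_def]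
  refine Ideal.mul_mem_right _ _ ?_
  show D.map01 _ (algebraMap V (D.R01 V) q) = 0
  rw [map01_algebraMap,
    show (IsScalarTower.toAlgHom k V (IsLocalRing.ResidueField V)) q = 0 from
      Ideal.Quotient.eq_zero_iff_mem.2 hq, map_zero]

theorem not_mem_specialIdeal {a : D.R01 V} {i : Module.Free.ChooseBasisIndex k D.A01}
    (h : IsUnit ((D.basis01 V).repr a i)) : a ∉ specialIdeal D V := by
  intro ha
  have h0 := D.basis01_repr_map01 (IsScalarTower.toAlgHom k V (IsLocalRing.ResidueField V)) a i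
  rw [show D.map01 _ a = 0 from ha, map_zero, Finsupp.zero_apply] at h0
  exact (h.map (IsScalarTower.toAlgHom k V (IsLocalRing.ResidueField V))).ne_zero h0.symm

namespace Bundle

variable (B B' : D.Bundle V)

/-- A section not vanishing identically on the special fibre. -/
def Off (m : B.M) : Prop := ∃ ψ : B.M →ₗ[D.R01 V] D.R01 V, ψ m ∉ specialIdeal D V

theorem exists_off : ∃ m, B.Off m := by
  have := B.invertible_M
  by_contra h
  simp only [Off, not_exists, not_not] at h
  have hle : ∀ z, contractLeft (D.R01 V) B.M z ∈ specialIdeal D V := by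
    intro z
    induction z using TensorProduct.induction_on with
    | zero => rw [map_zero]; exact (specialIdeal D V).zero_mem
    | tmul ψ m => rw [contractLeft_apply]; exact h m ψ
    | add a b ha hb => rw [map_add]; exact (specialIdeal D V).add_mem ha hb
  obtain ⟨z, hz⟩ := (Module.Invertible.bijective (R := D.R01 V) (M := B.M)).2 1
  exact specialIdeal_isPrime.ne_top ((Ideal.eq_top_iff_one _).2 (hz ▸ hle z))

theorem not_off_smul {q : V} (hq : ¬ IsUnit q) (m : B.M) : ¬ B.Off (q • m) := by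
  rintro ⟨ψ, hψ⟩
  apply hψ
  rw [← algebraMap_smul (D.R01 V) q m, map_smul, algebraMap_smul]
  exact algebraMap_mem_specialIdeal hq _

variable {B B'}

theorem off_map (f : B.M →ₗ[D.R01 V] B'.M) {m₁ m : B.M} (h₁ : B'.Off (f m₁)) (h : B.Off m) :
    B'.Off (f m) := by
  have := B.invertible_M
  obtain ⟨φ, hφ⟩ := h
  obtain ⟨ψ, hψ⟩ := h₁
  refine ⟨ψ, fun hm => ?_⟩
  have := congrArg (fun z => ψ (f z)) (invertible_cross φ m m₁)
  simp only [map_smul, smul_eq_mul] at this
  rcases specialIdeal_isPrime.mem_or_mem (this ▸ Ideal.mul_mem_left _ _ hm) with h' | h'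
  exacts [hφ h', hψ h']

variable (B)

theorem eq_zero_of_smul_eq_zero {a : V} (ha : a ≠ 0) {m : B.M} (h : a • m = 0) : m = 0 := by
  obtain ⟨s, hs⟩ := B.projective_M.out
  have h0 : s m = 0 := by
    have := congrArg s h
    rw [map_smul, map_zero] at this
    exact (smul_eq_zero.1 this).resolve_left ha
  rw [← hs m, h0, map_zero]

theorem smul_left_cancel {a : V} (ha : a ≠ 0) {m m' : B.M} (h : a • m = a • m') : m = m' :=
  sub_eq_zero.1 (B.eq_zero_of_smul_eq_zero ha (by rw [smul_sub, h, sub_self]))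

theorem mem_L0_of_smul_mem {a : V} (ha : a ≠ 0) {m : B.M} (h : a • m ∈ B.L0) : m ∈ B.L0 := by
  obtain ⟨ρ, hρ⟩ := B.exists_retraction_L0
  have h1 := congrArg Subtype.val (hρ ⟨a • m, h⟩)
  rw [map_smul] at h1
  have h2 : (ρ m : B.M) = m := B.smul_left_cancel ha h1
  exact h2 ▸ (ρ m).2

theorem mem_L1_of_smul_mem {a : V} (ha : a ≠ 0) {m : B.M} (h : a • m ∈ B.L1) : m ∈ B.L1 := by
  obtain ⟨ρ, hρ⟩ := B.exists_retraction_L1
  have h1 := congrArg Subtype.val (hρ ⟨a • m, h⟩)
  rw [map_smul] at h1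
  have h2 : (ρ m : B.M) = m := B.smul_left_cancel ha h1
  exact h2 ▸ (ρ m).2

theorem exists_common_dvd {ι : Type*} [DecidableEq ι] (s : Finset ι) (hs : s.Nonempty) (v : ι → V) :
    ∃ i ∈ s, ∀ j ∈ s, v i ∣ v j := by
  induction hs using Finset.Nonempty.cons_induction with
  | singleton a => exact ⟨a, by simp⟩
  | cons a s ha hs ih =>
    obtain ⟨i, hi, h⟩ := ih
    rcases ValuationRing.dvd_total (v a) (v i) with h' | h'
    · exact ⟨a, Finset.mem_cons_self a s, fun j hj =>
        (Finset.mem_cons.1 hj).elim (fun e => e ▸ dvd_rfl) fun hj => h'.trans (h j hj)⟩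
    · exact ⟨i, Finset.mem_cons.2 (Or.inr hi), fun j hj =>
        (Finset.mem_cons.1 hj).elim (fun e => e ▸ h') (h j)⟩

/-- A finite family of sections can be divided by a scalar so that some member stays non-zero
on the special fibre. -/
theorem exists_divide {ι : Type u} [Fintype ι] (z : ι → B.M) (hz : ∃ i, z i ≠ 0) :
    ∃ (a : V) (y : ι → B.M), a ≠ 0 ∧ (∀ i, a • y i = z i) ∧ ∃ i, B.Off (y i) := by
  classical
  have := B.invertible_M
  obtain ⟨s, hs⟩ := (inferInstance : Module.Projective (D.R01 V) B.M).out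
  let T : Finset (ι × B.M × Module.Free.ChooseBasisIndex k D.A01) :=
    Finset.univ.biUnion fun i => (s (z i)).support.biUnion fun m =>
      (((D.basis01 V).repr (s (z i) m)).support).image fun p => (i, m, p)
  let v : ι × B.M × Module.Free.ChooseBasisIndex k D.A01 → V :=
    fun t => (D.basis01 V).repr (s (z t.1) t.2.1) t.2.2
  have hmem : ∀ t, v t ≠ 0 → t ∈ T := by
    rintro ⟨i, m, p⟩ ht
    have hm : s (z i) m ≠ 0 := fun h => ht (by simp [v, h])
    simp only [T, Finset.mem_biUnion, Finset.mem_image, Finsupp.mem_support_iff]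
    exact ⟨i, Finset.mem_univ i, m, hm, p, ht, rfl⟩
  have hTne : ∀ t ∈ T, v t ≠ 0 := by
    intro t ht
    simp only [T, Finset.mem_biUnion, Finset.mem_image, Finsupp.mem_support_iff] at ht
    obtain ⟨i, -, m, -, p, hp, rfl⟩ := ht
    exact hp
  obtain ⟨i, hi⟩ := hz
  have hne : T.Nonempty := by
    by_contra h
    apply hi
    rw [← hs (z i)]
    have : s (z i) = 0 := Finsupp.ext fun m => (D.basis01 V).repr.injective <| Finsupp.ext fun p => by
      by_contra h'
      exact h ⟨(i, m, p), hmem _ (by simpa [v] using h')⟩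
    rw [this, map_zero]
  obtain ⟨t0, ht0, hdvd⟩ := exists_common_dvd T hne v
  have hall : ∀ t, v t0 ∣ v t := fun t => by
    by_cases ht : v t = 0
    · rw [ht]; exact dvd_zero _
    · exact hdvd t (hmem t ht)
  choose q hq using hall
  let c : ι → B.M → D.R01 V := fun i m =>
    ∑ p ∈ ((D.basis01 V).repr (s (z i) m)).support, q (i, m, p) • D.basis01 V p
  have hc : ∀ i m, v t0 • c i m = s (z i) m := fun i m => by
    conv_rhs => rw [← (D.basis01 V).linearCombination_repr (s (z i) m),
      Finsupp.linearCombination_apply, Finsupp.sum]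
    simp only [c, Finset.smul_sum, smul_smul, ← hq, v]
  refine ⟨v t0, fun i => ∑ m ∈ (s (z i)).support, c i m • m, hTne _ ht0, fun i => ?_, t0.1, ?_⟩
  · conv_rhs => rw [← hs (z i), Finsupp.linearCombination_apply, Finsupp.sum]
    simp only [Finset.smul_sum, ← smul_assoc, hc, id_eq]
  · let ψ : B.M →ₗ[D.R01 V] D.R01 V := (Finsupp.lapply t0.2.1).comp s
    refine ⟨ψ, not_mem_specialIdeal (i := t0.2.2) ?_⟩
    have h1 : v t0 • ψ (∑ m ∈ (s (z t0.1)).support, c t0.1 m • m) = ψ (z t0.1) := by
      conv_rhs => rw [← hs (z t0.1), Finsupp.linearCombination_apply, Finsupp.sum]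
      simp only [← algebraMap_smul (D.R01 V) (v t0), ← map_smul, Finset.smul_sum, smul_smul,
        id_eq]
      refine congrArg ψ (Finset.sum_congr rfl fun m _ => ?_)
      rw [← smul_eq_mul, algebraMap_smul, hc]
    have h2 := congrArg (fun a => (D.basis01 V).repr a t0.2.2) h1
    simp only [map_smul, Finsupp.smul_apply, smul_eq_mul] at h2
    have h3 : v t0 * (D.basis01 V).repr (ψ (∑ m ∈ (s (z t0.1)).support, c t0.1 m • m)) t0.2.2 =
        v t0 * 1 := by
      rw [mul_one]; exact h2
    rw [mul_left_cancel₀ (hTne _ ht0) h3]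
    exact isUnit_one

variable {K : Type u} [Field K] [Algebra k K] [Algebra V K] [IsScalarTower k V K]
  [IsFractionRing V K]

/-- Base change to the fraction field. -/
noncomputable abbrev incl : B.M →+ (B.mapTo K).M := B.mapHom (IsScalarTower.toAlgHom k V K)

theorem incl_smul (a : V) (m : B.M) : B.incl (K := K) (a • m) = algebraMap V K a • B.incl m := by
  rw [incl, ← algebraMap_smul (D.R01 V) a m, mapHom_smul, map01_algebraMap]
  exact IsScalarTower.algebraMap_smul (D.R01 K) (algebraMap V K a) _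

theorem incl_injective : Function.Injective (B.incl (K := K)) := by
  rw [injective_iff_map_eq_zero]
  intro m hm
  obtain ⟨e, he⟩ := B.exists_tensorEquiv K
  obtain ⟨s, hs⟩ := B.projective_M.out
  have h0 : (1 : K) ⊗ₜ[V] m = 0 := e.injective (by rw [he, map_zero]; exact hm)
  have hs0 : s m = 0 := Finsupp.ext fun i => by
    have := congrArg (fun z : K ⊗[V] B.M =>
      TensorProduct.rid V K (((Finsupp.lapply i).comp s : B.M →ₗ[V] V).lTensor K z)) h0
    simpa [Algebra.smul_def] using this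
  rw [← hs m, hs0, map_zero]

theorem exists_denominator (w : (B.mapTo K).M) :
    ∃ (d : V) (z : B.M), d ≠ 0 ∧ algebraMap V K d • w = B.incl z := by
  obtain ⟨e, he⟩ := B.exists_tensorEquiv K
  obtain ⟨t, rfl⟩ := e.surjective w
  induction t using TensorProduct.induction_on with
  | zero => exact ⟨1, 0, one_ne_zero, by rw [map_zero, smul_zero, map_zero]⟩
  | tmul r m =>
    obtain ⟨a, d, hd, h⟩ := IsFractionRing.div_surjective (A := V) r
    have hd0 : d ≠ 0 := nonZeroDivisors.ne_zero hd
    refine ⟨d, a • m, hd0, ?_⟩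
    rw [incl_smul, show B.incl m = e ((1 : K) ⊗ₜ[V] m) from (he m).symm, ← map_smul, ← map_smul,
      TensorProduct.smul_tmul', TensorProduct.smul_tmul', smul_eq_mul, smul_eq_mul, mul_one, ← h,
      mul_div_cancel₀]
    exact IsFractionRing.to_map_ne_zero_of_mem_nonZeroDivisors hd
  | add x y hx hy =>
    obtain ⟨d, z, hd, hz⟩ := hx
    obtain ⟨d', z', hd', hz'⟩ := hy
    refine ⟨d * d', d' • z + d • z', mul_ne_zero hd hd', ?_⟩
    rw [map_add, map_add, smul_add, incl_smul, incl_smul, ← hz, ← hz', smul_smul, smul_smul, map_mul,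
      mul_comm (algebraMap V K d') (algebraMap V K d)]

theorem mem_L0_of_incl_mem {y : B.M} (h : B.incl (K := K) y ∈ (B.mapTo K).L0) : y ∈ B.L0 := by
  have h' : B.incl (K := K) y ∈ (B.mapTo K).L0.restrictScalars K := h
  rw [B.mapTo_L0_eq K] at h'
  suffices ∃ (d : V) (z : B.M), d ≠ 0 ∧ z ∈ B.L0 ∧ algebraMap V K d • B.incl (K := K) y = B.incl z by
    obtain ⟨d, z, hd, hz, e⟩ := this
    rw [← incl_smul] at e
    exact B.mem_L0_of_smul_mem hd (B.incl_injective e ▸ hz)
  refine Submodule.span_induction (p := fun w _ => ∃ (d : V) (z : B.M), d ≠ 0 ∧ z ∈ B.L0 ∧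
    algebraMap V K d • w = B.incl z) ?_ ?_ ?_ ?_ h'
  · rintro _ ⟨z, hz, rfl⟩; exact ⟨1, z, one_ne_zero, hz, by rw [map_one, one_smul]⟩
  · exact ⟨1, 0, one_ne_zero, B.L0.zero_mem, by rw [map_zero, smul_zero]⟩
  · rintro w w' - - ⟨d, z, hd, hz, e⟩ ⟨d', z', hd', hz', e'⟩
    refine ⟨d * d', d' • z + d • z', mul_ne_zero hd hd',
      add_mem ((B.L0.restrictScalars V).smul_mem _ hz) ((B.L0.restrictScalars V).smul_mem _ hz'), ?_⟩
    rw [map_add, smul_add, incl_smul, incl_smul, ← e, ← e', smul_smul, smul_smul, map_mul,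
      mul_comm (algebraMap V K d') (algebraMap V K d)]
  · rintro r w - ⟨d, z, hd, hz, e⟩
    obtain ⟨a, d', hd', h⟩ := IsFractionRing.div_surjective (A := V) r
    refine ⟨d * d', a • z, mul_ne_zero hd (nonZeroDivisors.ne_zero hd'),
      (B.L0.restrictScalars V).smul_mem _ hz, ?_⟩
    rw [incl_smul, ← e, smul_smul, smul_smul, map_mul, ← h, mul_assoc,
      mul_div_cancel₀ _ (IsFractionRing.to_map_ne_zero_of_mem_nonZeroDivisors hd'), mul_comm]

theorem mem_L1_of_incl_mem {y : B.M} (h : B.incl (K := K) y ∈ (B.mapTo K).L1) : y ∈ B.L1 := by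
  have h' : B.incl (K := K) y ∈ (B.mapTo K).L1.restrictScalars K := h
  rw [B.mapTo_L1_eq K] at h'
  suffices ∃ (d : V) (z : B.M), d ≠ 0 ∧ z ∈ B.L1 ∧ algebraMap V K d • B.incl (K := K) y = B.incl z by
    obtain ⟨d, z, hd, hz, e⟩ := this
    rw [← incl_smul] at e
    exact B.mem_L1_of_smul_mem hd (B.incl_injective e ▸ hz)
  refine Submodule.span_induction (p := fun w _ => ∃ (d : V) (z : B.M), d ≠ 0 ∧ z ∈ B.L1 ∧
    algebraMap V K d • w = B.incl z) ?_ ?_ ?_ ?_ h'
  · rintro _ ⟨z, hz, rfl⟩; exact ⟨1, z, one_ne_zero, hz, by rw [map_one, one_smul]⟩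
  · exact ⟨1, 0, one_ne_zero, B.L1.zero_mem, by rw [map_zero, smul_zero]⟩
  · rintro w w' - - ⟨d, z, hd, hz, e⟩ ⟨d', z', hd', hz', e'⟩
    refine ⟨d * d', d' • z + d • z', mul_ne_zero hd hd',
      add_mem ((B.L1.restrictScalars V).smul_mem _ hz) ((B.L1.restrictScalars V).smul_mem _ hz'), ?_⟩
    rw [map_add, smul_add, incl_smul, incl_smul, ← e, ← e', smul_smul, smul_smul, map_mul,
      mul_comm (algebraMap V K d') (algebraMap V K d)]
  · rintro r w - ⟨d, z, hd, hz, e⟩
    obtain ⟨a, d', hd', h⟩ := IsFractionRing.div_surjective (A := V) r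
    refine ⟨d * d', a • z, mul_ne_zero hd (nonZeroDivisors.ne_zero hd'),
      (B.L1.restrictScalars V).smul_mem _ hz, ?_⟩
    rw [incl_smul, ← e, smul_smul, smul_smul, map_mul, ← h, mul_assoc,
      mul_div_cancel₀ _ (IsFractionRing.to_map_ne_zero_of_mem_nonZeroDivisors hd'), mul_comm]

variable {B} (B')

/-- An isomorphism over the fraction field, scaled to an integral map non-zero on the special
fibre. -/
theorem exists_integral (e : (B.mapTo K).Iso (B'.mapTo K)) :
    ∃ (t : K) (f : B.M →ₗ[D.R01 V] B'.M), t ≠ 0 ∧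
      (∀ m, B'.incl (f m) = t • e.toEquiv (B.incl m)) ∧ (∀ m ∈ B.L0, f m ∈ B'.L0) ∧
      (∀ m ∈ B.L1, f m ∈ B'.L1) ∧ ∃ m, B'.Off (f m) := by
  classical
  have := B.invertible_M
  obtain ⟨G, hG⟩ := (inferInstance : Module.Finite (D.R01 V) B.M).fg_top
  choose d z hd hz using fun g : G => B'.exists_denominator (K := K) (e.toEquiv (B.incl (K := K) g.1))
  let d₀ := ∏ g, d g
  have hd₀ : d₀ ≠ 0 := Finset.prod_ne_zero_iff.2 fun g _ => hd g
  let z' : G → B'.M := fun g => (∏ g' ∈ Finset.univ.erase g, d g') • z g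
  have hz' : ∀ g, algebraMap V K d₀ • e.toEquiv (B.incl (K := K) g.1) = B'.incl (z' g) := fun g => by
    simp only [z', d₀]
    rw [incl_smul, ← hz, smul_smul, ← map_mul, Finset.prod_erase_mul _ _ (Finset.mem_univ g)]
  have hd₀K : algebraMap V K d₀ ≠ 0 := (map_ne_zero_iff _ (IsFractionRing.injective V K)).2 hd₀
  have hne : ∃ g, z' g ≠ 0 := by
    by_contra h
    simp only [not_exists, not_not] at h
    obtain ⟨m, ψ, hψ⟩ := B.exists_off
    apply hψ
    have hm0 : m = 0 := by
      have hG0 : ∀ g ∈ G, g = (0 : B.M) := fun g hg => by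
        have h1 := hz' ⟨g, hg⟩
        rw [h, map_zero, smul_eq_zero_iff_right hd₀K, LinearEquiv.map_eq_zero_iff] at h1
        exact B.incl_injective (h1.trans (map_zero _).symm)
      have : m ∈ Submodule.span (D.R01 V) (G : Set B.M) := hG ▸ Submodule.mem_top
      refine (Submodule.mem_bot (D.R01 V)).1 (Submodule.span_le.2 (fun g hg => ?_) this)
      exact (Submodule.mem_bot (D.R01 V)).2 (hG0 g hg)
    rw [hm0, map_zero]; exact (specialIdeal D V).zero_mem
  obtain ⟨a, y, ha, hy, g0, hg0⟩ := B'.exists_divide z' hne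
  have haK : algebraMap V K a ≠ 0 := (map_ne_zero_iff _ (IsFractionRing.injective V K)).2 ha
  let t : K := algebraMap V K d₀ / algebraMap V K a
  have hty : ∀ g : G, t • e.toEquiv (B.incl (K := K) g.1) = B'.incl (y g) := fun g => by
    show (algebraMap V K d₀ / algebraMap V K a) • _ = _
    rw [div_eq_inv_mul, mul_smul, hz', ← hy g, incl_smul, inv_smul_smul₀ haK]
  have hlin : ∀ (a : D.R01 V) (m : B.M) (x : B'.M), B'.incl (K := K) x = t • e.toEquiv (B.incl m) →
      B'.incl (a • x) = t • e.toEquiv (B.incl (a • m)) := by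
    intro a m x hx
    rw [incl, incl, mapHom_smul, mapHom_smul, map_smul, smul_comm t, ← hx]
  have hex : ∀ m : B.M, ∃ x, B'.incl (K := K) x = t • e.toEquiv (B.incl m) := by
    intro m
    have : m ∈ Submodule.span (D.R01 V) (G : Set B.M) := hG ▸ Submodule.mem_top
    refine Submodule.span_induction (fun g hg => ⟨y ⟨g, hg⟩, (hty ⟨g, hg⟩).symm⟩)
      ⟨0, by simp⟩ ?_ ?_ this
    · rintro m m' - - ⟨x, hx⟩ ⟨x', hx'⟩
      exact ⟨x + x', by rw [map_add, map_add, hx, hx', map_add, smul_add]⟩
    · rintro a m - ⟨x, hx⟩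
      exact ⟨a • x, hlin a m x hx⟩
  choose f hf using hex
  let F : B.M →ₗ[D.R01 V] B'.M :=
    { toFun := f
      map_add' := fun m m' => B'.incl_injective (K := K) <| by
        rw [hf, map_add (B'.incl (K := K)), hf, hf, map_add, map_add, smul_add]
      map_smul' := fun a m => B'.incl_injective (K := K) <| by
        rw [hf, RingHom.id_apply, hlin a m (f m) (hf m)] }
  refine ⟨t, F, div_ne_zero hd₀K haK, hf, fun m hm => ?_, fun m hm => ?_, g0.1, ?_⟩
  · refine B'.mem_L0_of_incl_mem (K := K) ?_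
    rw [show B'.incl (K := K) (F m) = _ from hf m]
    exact ((B'.mapTo K).L0.restrictScalars K).smul_mem _
      ((e.mem0 _).2 (Submodule.subset_span ⟨m, hm, rfl⟩))
  · refine B'.mem_L1_of_incl_mem (K := K) ?_
    rw [show B'.incl (K := K) (F m) = _ from hf m]
    exact ((B'.mapTo K).L1.restrictScalars K).smul_mem _
      ((e.mem1 _).2 (Submodule.subset_span ⟨m, hm, rfl⟩))
  · convert hg0 using 1
    exact B'.incl_injective (K := K) ((hf g0.1).trans (hty g0))

variable {B'}

/-- Bundles over a valuation ring isomorphic over the fraction field are isomorphic. -/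
theorem isom_of_isom_mapTo (h : (B.mapTo K).Isom (B'.mapTo K)) : B.Isom B' := by
  obtain ⟨e⟩ := h
  let e' : (B'.mapTo K).Iso (B.mapTo K) :=
    ⟨e.toEquiv.symm, fun m => by rw [← e.mem0, LinearEquiv.apply_symm_apply],
      fun m => by rw [← e.mem1, LinearEquiv.apply_symm_apply]⟩
  obtain ⟨t, f, ht, hf, hf0, hf1, m1, hm1⟩ := exists_integral B' e
  obtain ⟨t', g, ht', hg, hg0, hg1, m1', hm1'⟩ := exists_integral B e'
  obtain ⟨a, d, hd, hc⟩ := IsFractionRing.div_surjective (A := V) (t * t')
  have hd0 : d ≠ 0 := nonZeroDivisors.ne_zero hd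
  have hdK : algebraMap V K d ≠ 0 := IsFractionRing.to_map_ne_zero_of_mem_nonZeroDivisors hd
  have hcV : algebraMap V K d * (t * t') = algebraMap V K a := by
    rw [← hc, mul_div_cancel₀ _ hdK]
  have hgf : ∀ m, d • g (f m) = a • m := fun m => B.incl_injective (K := K) <| by
    rw [incl_smul, incl_smul, hg, hf]
    change algebraMap V K d • t' • e.toEquiv.symm (t • e.toEquiv (B.incl m)) = _
    rw [← IsScalarTower.algebraMap_smul (D.R01 K) t (e.toEquiv (B.incl (K := K) m)), map_smul,
      LinearEquiv.symm_apply_apply, IsScalarTower.algebraMap_smul (D.R01 K) t, smul_smul, smul_smul,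
      mul_assoc, mul_comm t' t, hcV]
  have hfg : ∀ m, d • f (g m) = a • m := fun m => B'.incl_injective (K := K) <| by
    rw [incl_smul, incl_smul, hf, hg]
    change algebraMap V K d • t • e.toEquiv (t' • e.toEquiv.symm (B'.incl m)) = _
    rw [← IsScalarTower.algebraMap_smul (D.R01 K) t' (e.toEquiv.symm (B'.incl (K := K) m)), map_smul,
      LinearEquiv.apply_symm_apply, IsScalarTower.algebraMap_smul (D.R01 K) t', smul_smul, smul_smul,
      mul_assoc, hcV]
  obtain ⟨m, hm⟩ := B.exists_off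
  have hgfm : B.Off (g (f m)) := off_map g hm1' (off_map f hm1 hm)
  obtain ⟨u, hu⟩ : ∃ u : Vˣ, a = d * u := by
    rcases ValuationRing.dvd_total d a with ⟨q, hq⟩ | ⟨q, hq⟩
    · have h1 : g (f m) = q • m := B.smul_left_cancel hd0 (by rw [hgf, hq, mul_smul])
      have hqu : IsUnit q := by
        by_contra hn; exact B.not_off_smul hn m (h1 ▸ hgfm)
      exact ⟨hqu.unit, by rw [IsUnit.unit_spec, hq]⟩
    · have ha0 : a ≠ 0 := fun h => hd0 (by rw [hq, h, zero_mul])
      have h1 : q • g (f m) = m := B.smul_left_cancel ha0 (by rw [← mul_smul, ← hq, hgf])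
      have hqu : IsUnit q := by
        by_contra hn; exact B.not_off_smul hn (g (f m)) (h1.symm ▸ hm)
      refine ⟨hqu.unit⁻¹, ?_⟩
      rw [hq, mul_assoc, IsUnit.mul_val_inv, mul_one]
  have hgf' : ∀ m, g (f m) = (u : V) • m := fun m =>
    B.smul_left_cancel hd0 (by rw [hgf, hu, mul_smul])
  have hfg' : ∀ m, f (g m) = (u : V) • m := fun m =>
    B'.smul_left_cancel hd0 (by rw [hfg, hu, mul_smul])
  let g₂ : B'.M →ₗ[D.R01 V] B.M := algebraMap V (D.R01 V) (↑u⁻¹ : V) • g
  have hg₂ : ∀ m, g₂ m = (↑u⁻¹ : V) • g m := fun m => algebraMap_smul (D.R01 V) _ (g m)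
  let E : B.M ≃ₗ[D.R01 V] B'.M := LinearEquiv.ofLinearMap f g₂
    (LinearMap.ext fun m => by
      rw [LinearMap.comp_apply, hg₂, ← algebraMap_smul (D.R01 V), map_smul, algebraMap_smul, hfg',
        smul_smul, Units.inv_mul, one_smul]
      rfl)
    (LinearMap.ext fun m => by
      rw [LinearMap.comp_apply, hg₂, hgf', smul_smul, Units.inv_mul, one_smul]
      rfl)
  refine ⟨⟨E, fun m => ⟨fun h => ?_, hf0 m⟩, fun m => ⟨fun h => ?_, hf1 m⟩⟩⟩
  · rw [← E.symm_apply_apply m]
    show g₂ (E m) ∈ B.L0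
    rw [hg₂]
    exact (B.L0.restrictScalars V).smul_mem _ (hg0 _ h)
  · rw [← E.symm_apply_apply m]
    show g₂ (E m) ∈ B.L1
    rw [hg₂]
    exact (B.L1.restrictScalars V).smul_mem _ (hg1 _ h)

end Bundle

end ChartData

end FermatLib.AV
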