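import Fermat.Agent.AV.Jac.DegreeCut
import Fermat.Agent.AV.Jac.PropsSepAlg

/-!
The representing scheme of the degree zero part is separated.
-/

set_option autoImplicit false

universe u

open CategoryTheory CategoryTheory.Limits AlgebraicGeometry NeronModelInfra AlgebraicGeometry.RelPicard
  GoodReductionJacobian

noncomputable section

namespace FermatLib.AV.CurveCharts

variable {k : Type u} [Field k] {C : Scheme.{u}} {c : C ⟶ Spec (CommRingCat.of k)}
  {ε : SchemeHomOver (𝟙 (Spec (CommRingCat.of k))) c}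

theorem isSeparated_toBase (P : CurveCharts k c ε) {D : RelativePic0Designation k c}
    (h : RepresentsRelSubPic c ε P.degZeroCut D) [LocallyOfFiniteType D.toBase] :
    IsSeparated D.toBase := by
  have : IsLocallyNoetherian D.P := LocallyOfFiniteType.isLocallyNoetherian D.toBase
  have : QuasiSeparated D.toBase := QuasiSeparated.of_quasiSeparatedSpace D.toBase
  refine IsSeparated.of_valuativeCriterion _ fun S => ⟨fun l₁ l₂ => CommSq.LiftStruct.ext ?_⟩
  let : Algebra k S.R := Glue.algebraOfSpecHom S.i₂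
  let : Algebra k S.K := ((algebraMap S.R S.K).comp (algebraMap k S.R)).toAlgebra
  have : IsScalarTower k S.R S.K := IsScalarTower.of_algebraMap_eq fun _ => rfl
  have hs : Glue.affStr k S.R = S.i₂ := Glue.affStr_algebraOfSpecHom S.i₂
  let g₁ : SchemeHomOver (Glue.affStr k S.R) D.toBase := ⟨l₁.l, l₁.fac_right.trans hs.symm⟩
  let g₂ : SchemeHomOver (Glue.affStr k S.R) D.toBase := ⟨l₂.l, l₂.fac_right.trans hs.symm⟩
  suffices g₁ = g₂ from congrArg Subtype.val this
  refine h.ext_of_iso _ g₁ g₂ ?_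
  obtain ⟨B₁, ⟨e₁⟩⟩ := P.exists_bundle _ (h.poincare.pullbackAlong g₁).isInvertible
  obtain ⟨B₂, ⟨e₂⟩⟩ := P.exists_bundle _ (h.poincare.pullbackAlong g₂).isInvertible
  let φ := IsScalarTower.toAlgHom k S.R S.K
  let ψ : SchemeHomOver (Glue.affStr k S.K) D.toBase := postComp g₁ (Glue.affHom φ)
  have hψ : (Glue.affHom φ).1 ≫ g₂.1 = ψ.1 := l₂.fac_left.trans l₁.fac_left.symm
  obtain ⟨p₁⟩ := P.toModules_pullback φ B₁ (B₁.map φ) (B₁.mapHom φ) (B₁.isPullback_map φ)
  obtain ⟨p₂⟩ := P.toModules_pullback φ B₂ (B₂.map φ) (B₂.mapHom φ) (B₂.isPullback_map φ)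
  obtain ⟨q⟩ := (Glue.bunIso_pull_pull h.poincare g₁ (Glue.affHom φ) ψ rfl).trans
    (Glue.bunIso_pull_pull h.poincare g₂ (Glue.affHom φ) ψ hψ).symm
  have hK : (B₁.map φ).Isom (B₂.map φ) := (P.isom_iff _ _).2
    ⟨p₁.symm ≪≫ (Scheme.Modules.pullback _).mapIso e₁ ≪≫ q ≪≫
      (Scheme.Modules.pullback _).mapIso e₂.symm ≪≫ p₂⟩
  obtain ⟨e⟩ := (P.isom_iff _ _).1 (ChartData.Bundle.isom_of_isom_mapTo (K := S.K) hK)
  exact ⟨e₁.symm ≪≫ e ≪≫ e₂⟩

end FermatLib.AV.CurveCharts
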