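import Fermat.Agent.AV.Jac.Core.Functorial
import Fermat.Agent.AV.Jac.PropsLiftModule

/-!
Bundles lift along surjections of coefficient rings with square zero kernel.
-/

set_option autoImplicit false

universe u

open scoped TensorProduct

namespace FermatLib.AV

namespace ChartData

variable {k : Type u} [Field k] (D : ChartData k) (R : Type u) [CommRing R] [Algebra k R]
  (L : Type u) [AddCommGroup L] [Module (D.R0 R) L]

/-- The extension of a module on the first chart to the overlap. -/
def OverlapM : Type u :=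
  letI := (D.r0 R).toRingHom.toAlgebra
  D.R01 R ⊗[D.R0 R] L

noncomputable instance instAddCommGroupOverlapM : AddCommGroup (D.OverlapM R L) :=
  letI := (D.r0 R).toRingHom.toAlgebra
  (inferInstance : AddCommGroup (D.R01 R ⊗[D.R0 R] L))

noncomputable instance instModule01OverlapM : Module (D.R01 R) (D.OverlapM R L) :=
  letI := (D.r0 R).toRingHom.toAlgebra
  (inferInstance : Module (D.R01 R) (D.R01 R ⊗[D.R0 R] L))

noncomputable instance instModule0OverlapM : Module (D.R0 R) (D.OverlapM R L) :=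
  Module.compHom _ (D.r0 R).toRingHom

noncomputable instance instModule1OverlapM : Module (D.R1 R) (D.OverlapM R L) :=
  Module.compHom _ (D.r1 R).toRingHom

noncomputable instance instModuleOverlapM : Module R (D.OverlapM R L) :=
  Module.compHom _ (algebraMap R (D.R01 R))

instance instTower01OverlapM : IsScalarTower R (D.R01 R) (D.OverlapM R L) :=
  IsScalarTower.of_algebraMap_smul fun _ _ => rfl

instance instTower0OverlapM : IsScalarTower R (D.R0 R) (D.OverlapM R L) :=
  IsScalarTower.of_algebraMap_smul fun s m => by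
    change D.r0 R (algebraMap R (D.R0 R) s) • m = algebraMap R (D.R01 R) s • m
    rw [AlgHom.commutes]

instance instTower1OverlapM : IsScalarTower R (D.R1 R) (D.OverlapM R L) :=
  IsScalarTower.of_algebraMap_smul fun s m => by
    change D.r1 R (algebraMap R (D.R1 R) s) • m = algebraMap R (D.R01 R) s • m
    rw [AlgHom.commutes]

/-- The inclusion of the first chart. -/
noncomputable def overlapIncl : L →ₗ[D.R0 R] D.OverlapM R L where
  toFun l := letI := (D.r0 R).toRingHom.toAlgebra; ((1 : D.R01 R) ⊗ₜ[D.R0 R] l)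
  map_add' a b := by
    let := (D.r0 R).toRingHom.toAlgebra
    exact TensorProduct.tmul_add (R := D.R0 R) (1 : D.R01 R) a b
  map_smul' a l := by
    let := (D.r0 R).toRingHom.toAlgebra
    show (1 : D.R01 R) ⊗ₜ[D.R0 R] (a • l) = D.r0 R a • ((1 : D.R01 R) ⊗ₜ[D.R0 R] l)
    rw [TensorProduct.tmul_smul, TensorProduct.smul_tmul', TensorProduct.smul_tmul',
      Algebra.smul_def, smul_eq_mul]
    rfl

theorem overlapM_induction {p : D.OverlapM R L → Prop} (zero : p 0)
    (smul : ∀ (a : D.R01 R) (l : L), p (a • D.overlapIncl R L l))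
    (add : ∀ x y, p x → p y → p (x + y)) (m : D.OverlapM R L) : p m := by
  let := (D.r0 R).toRingHom.toAlgebra
  induction (m : D.R01 R ⊗[D.R0 R] L) using TensorProduct.induction_on with
  | zero => exact zero
  | tmul a l =>
    have h : (a ⊗ₜ[D.R0 R] l : D.R01 R ⊗[D.R0 R] L) = a • ((1 : D.R01 R) ⊗ₜ[D.R0 R] l) := by
      rw [TensorProduct.smul_tmul', smul_eq_mul, mul_one]
    rw [h]
    exact smul a l
  | add x y hx hy => exact add x y hx hy

theorem exists_overlap_form (m : D.OverlapM R L) :
    ∃ (N : ℕ) (l : L), D.r0 R (D.xR R) ^ N • m = D.overlapIncl R L l := by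
  induction m using D.overlapM_induction R L with
  | zero => exact ⟨0, 0, by rw [map_zero, smul_zero]⟩
  | smul a l =>
    obtain ⟨N, a0, ha⟩ := D.exists_pow_mul_r0 R a
    refine ⟨N, a0 • l, ?_⟩
    rw [smul_smul, ha, map_smul]
    rfl
  | add a b ha hb =>
    obtain ⟨N, la, ha⟩ := ha
    obtain ⟨N', lb, hb⟩ := hb
    refine ⟨N + N', D.xR R ^ N' • la + D.xR R ^ N • lb, ?_⟩
    rw [map_add, map_smul, map_smul, ← ha, ← hb, smul_add]
    change _ = D.r0 R (D.xR R ^ N') • D.r0 R (D.xR R) ^ N • a +
      D.r0 R (D.xR R ^ N) • D.r0 R (D.xR R) ^ N' • b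
    rw [smul_smul, smul_smul, map_pow, map_pow, ← pow_add, ← pow_add, add_comm N' N]

theorem overlapIncl_injective [Module.Invertible (D.R0 R) L] :
    Function.Injective (D.overlapIncl R L) := by
  let := (D.r0 R).toRingHom.toAlgebra
  have h := Module.Flat.rTensor_preserves_injective_linearMap (M := L)
    (Algebra.linearMap (D.R0 R) (D.R01 R)) (D.r0_injective R)
  intro a b hab
  apply (TensorProduct.lid (D.R0 R) L).symm.injective
  apply h
  simp only [TensorProduct.lid_symm_apply, LinearMap.rTensor_tmul, Algebra.linearMap_apply, map_one]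
  exact hab

variable {D R} {S : Type u} [CommRing S] [Algebra k S] {φ : R →ₐ[k] S}

theorem map0_surjective (hφ : Function.Surjective φ) : Function.Surjective (D.map0 φ) :=
  TensorProduct.map_surjective hφ Function.surjective_id

theorem map1_surjective (hφ : Function.Surjective φ) : Function.Surjective (D.map1 φ) :=
  TensorProduct.map_surjective hφ Function.surjective_id

theorem ker_map0 (hφ : Function.Surjective φ) :
    RingHom.ker (D.map0 φ).toRingHom = (RingHom.ker φ).map (algebraMap R (D.R0 R)) :=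
  Algebra.TensorProduct.rTensor_ker φ hφ

theorem ker_map1 (hφ : Function.Surjective φ) :
    RingHom.ker (D.map1 φ).toRingHom = (RingHom.ker φ).map (algebraMap R (D.R1 R)) :=
  Algebra.TensorProduct.rTensor_ker φ hφ

theorem sq_zero_map (h : RingHom.ker φ ^ 2 = ⊥) {A : Type u} [CommRing A] (f : R →+* A) :
    (RingHom.ker φ).map f ^ 2 = ⊥ := by
  rw [← Ideal.map_pow, h, Ideal.map_bot]

variable (D R)

/-- Bundles lift along a surjection with square zero kernel. -/
theorem exists_bundle_lift (hφ : Function.Surjective φ) (hsq : RingHom.ker φ ^ 2 = ⊥)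
    (B' : D.Bundle S) : ∃ B : D.Bundle R, (B.map φ).Isom B' := by
  obtain ⟨L0, _, _, g0, hL0, hg0, hg0s, hg0k⟩ := exists_lift_invertible (D.map0 φ).toRingHom
    (map0_surjective hφ) (by rw [ker_map0 hφ]; exact sq_zero_map hsq _) B'.L0
  obtain ⟨L1, _, _, g1, hL1, hg1, hg1s, hg1k⟩ := exists_lift_invertible (D.map1 φ).toRingHom
    (map1_surjective hφ) (by rw [ker_map1 hφ]; exact sq_zero_map hsq _) B'.L1
  let := (D.r0 R).toRingHom.toAlgebra
  let : Module (D.R01 R) B'.M := Module.compHom _ (D.map01 φ).toRingHom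
  let : Module (D.R0 R) B'.M := Module.compHom _ ((D.map01 φ).toRingHom.comp (D.r0 R).toRingHom)
  have : IsScalarTower (D.R0 R) (D.R01 R) B'.M := IsScalarTower.of_algebraMap_smul fun _ _ => rfl
  let g0' : L0 →ₗ[D.R0 R] B'.M :=
    { toFun := fun l => (g0 l : B'.M)
      map_add' := fun a b => by simp
      map_smul' := fun a l => by
        change ((g0 (a • l) : B'.L0) : B'.M) = D.map01 φ (D.r0 R a) • (g0 l : B'.M)
        rw [hg0, map01_r0, B'.smul0]
        rfl }
  let gl0 : D.R01 R ⊗[D.R0 R] L0 →ₗ[D.R01 R] B'.M := LinearMap.liftBaseChange _ g0'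
  let g : D.OverlapM R L0 →+ B'.M := gl0.toAddMonoidHom
  have hg : ∀ (a : D.R01 R) (m : D.OverlapM R L0), g (a • m) = D.map01 φ a • g m :=
    fun a m => gl0.map_smul a m
  have hgincl : ∀ l, g (D.overlapIncl R L0 l) = (g0 l : B'.M) := fun l => by
    change gl0 ((1 : D.R01 R) ⊗ₜ[D.R0 R] l) = _
    rw [LinearMap.liftBaseChange_tmul, one_smul]
    rfl
  have hxy : ∀ (N : ℕ) (m : D.OverlapM R L0),
      D.r1 R (D.yR R) ^ N • D.r0 R (D.xR R) ^ N • m = m := fun N m => by
    rw [smul_smul, ← mul_pow, mul_comm, D.r0_x_mul_r1_y, one_pow, one_smul]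
  have hxy' : ∀ (N : ℕ) (m : D.OverlapM R L0),
      D.r0 R (D.xR R) ^ N • D.r1 R (D.yR R) ^ N • m = m := fun N m => by
    rw [smul_smul, ← mul_pow, D.r0_x_mul_r1_y, one_pow, one_smul]
  have hgsurj : Function.Surjective g := by
    intro m'
    obtain ⟨N, hN⟩ := B'.exists_mem0 m'
    obtain ⟨l, hl⟩ := hg0s ⟨_, hN⟩
    refine ⟨D.r1 R (D.yR R) ^ N • D.overlapIncl R L0 l, ?_⟩
    rw [hg, hgincl, hl, map_pow, map01_r1, map1_yR, ← map_pow, B'.smul1,
      B'.yR_pow_smul_xR_pow_smul]
  let IM : Submodule R (D.OverlapM R L0) := RingHom.ker φ • ⊤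
  have hIsmul : ∀ (a : D.R01 R), ∀ z ∈ IM, a • z ∈ IM := fun a z hz => by
    refine Submodule.smul_induction_on hz (fun c hc m _ => ?_) fun z w hz hw => ?_
    · rw [smul_comm]; exact Submodule.smul_mem_smul hc Submodule.mem_top
    · rw [smul_add]; exact Submodule.add_mem _ hz hw
  have hker : ∀ m, g m = 0 → m ∈ IM := by
    intro m hm
    obtain ⟨N, l, hl⟩ := D.exists_overlap_form R L0 m
    have h0 : g0 l = 0 := Subtype.ext <| by
      rw [← hgincl, ← hl, hg, hm, smul_zero]; rfl
    have hmem := hg0k l h0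
    rw [ker_map0 hφ] at hmem
    have key : ∀ w ∈ ((RingHom.ker φ).map (algebraMap R (D.R0 R))) • (⊤ : Submodule (D.R0 R) L0),
        D.overlapIncl R L0 w ∈ IM := by
      intro w hw
      refine Submodule.smul_induction_on hw (fun c hc v _ => ?_) fun v w hv hw => ?_
      · refine Submodule.span_induction ?_ ?_ ?_ ?_ hc
        · rintro _ ⟨r, hr, rfl⟩
          rw [map_smul, algebraMap_smul]
          exact Submodule.smul_mem_smul hr Submodule.mem_top
        · rw [zero_smul, map_zero]; exact IM.zero_mem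
        · intro a b _ _ ha hb; rw [add_smul, map_add]; exact IM.add_mem ha hb
        · intro a b _ hb
          rw [smul_eq_mul, mul_smul, map_smul]
          exact hIsmul (D.r0 R a) _ hb
      · rw [map_add]; exact IM.add_mem hv hw
    rw [← hxy N m, hl]
    exact hIsmul _ _ (key l hmem)
  let : Module (D.R1 R) B'.M := Module.compHom _ ((D.map01 φ).toRingHom.comp (D.r1 R).toRingHom)
  let gM : D.OverlapM R L0 →ₗ[D.R1 R] B'.M :=
    { toFun := g
      map_add' := map_add g
      map_smul' := fun a m => hg (D.r1 R a) m }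
  let g1' : L1 →ₗ[D.R1 R] B'.M :=
    { toFun := fun l => (g1 l : B'.M)
      map_add' := fun a b => by simp
      map_smul' := fun a l => by
        change ((g1 (a • l) : B'.L1) : B'.M) = D.map01 φ (D.r1 R a) • (g1 l : B'.M)
        rw [hg1, map01_r1, B'.smul1]
        rfl }
  obtain ⟨h, hh⟩ := Module.projective_lifting_property gM g1' hgsurj
  have hgh : ∀ l, g (h l) = (g1 l : B'.M) := fun l => LinearMap.congr_fun hh l
  have hcover : ∀ m : D.OverlapM R L0, ∃ (N : ℕ) (l : L1), D.r1 R (D.yR R) ^ N • m = h l := by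
    have step : ∀ m : D.OverlapM R L0, ∃ (N : ℕ) (l : L1),
        D.r1 R (D.yR R) ^ N • m - h l ∈ IM := by
      intro m
      obtain ⟨N, hN⟩ := B'.exists_mem1 (g m)
      obtain ⟨l, hl⟩ := hg1s ⟨_, hN⟩
      refine ⟨N, l, hker _ ?_⟩
      rw [map_sub, hgh, hl, hg, map_pow, map01_r1, map1_yR, ← map_pow, B'.smul1, sub_self]
    have hz : ∀ z ∈ IM, ∃ (N : ℕ) (l : L1), D.r1 R (D.yR R) ^ N • z = h l := by
      intro z hz
      refine Submodule.smul_induction_on hz (fun c hc m _ => ?_) fun z w hz hw => ?_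
      · obtain ⟨N, l, hl⟩ := step m
        refine ⟨N, algebraMap R (D.R1 R) c • l, ?_⟩
        have h0 : c • (D.r1 R (D.yR R) ^ N • m - h l) = 0 := by
          refine Submodule.smul_induction_on hl (fun d hd v _ => ?_) fun v w hv hw => ?_
          · rw [smul_smul, show c * d = 0 from ?_, zero_smul]
            rw [← Ideal.mem_bot, ← hsq, pow_two]
            exact Ideal.mul_mem_mul hc hd
          · rw [smul_add, hv, hw, add_zero]
        rw [smul_sub, sub_eq_zero] at h0
        rw [map_smul, algebraMap_smul, ← h0, smul_comm]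
      · obtain ⟨N, l, hl⟩ := hz
        obtain ⟨N', l', hl'⟩ := hw
        refine ⟨N + N', D.yR R ^ N' • l + D.yR R ^ N • l', ?_⟩
        rw [map_add, map_smul, map_smul, ← hl, ← hl', smul_add]
        show D.r1 R (D.yR R) ^ (N + N') • z + D.r1 R (D.yR R) ^ (N + N') • w =
          D.r1 R (D.yR R ^ N') • D.r1 R (D.yR R) ^ N • z +
            D.r1 R (D.yR R ^ N) • D.r1 R (D.yR R) ^ N' • w
        rw [smul_smul, smul_smul, map_pow, map_pow, ← pow_add, ← pow_add, add_comm N' N]
    intro m
    obtain ⟨N, l, hl⟩ := step m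
    obtain ⟨N', l', hl'⟩ := hz _ hl
    refine ⟨N' + N, l' + D.yR R ^ N' • l, ?_⟩
    rw [map_add, map_smul, ← hl', pow_add, mul_smul]
    show _ = _ + D.r1 R (D.yR R ^ N') • h l
    rw [map_pow, smul_sub, sub_add_cancel]
  have hinj : Function.Injective h := by
    let : Algebra (D.R1 R) (D.R01 R) := (D.r1 R).toRingHom.toAlgebra
    have : IsScalarTower (D.R1 R) (D.R01 R) (D.OverlapM R L0) :=
      IsScalarTower.of_algebraMap_smul fun _ _ => rfl
    have : Module.Invertible (D.R01 R) (D.OverlapM R L0) :=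
      (inferInstance : Module.Invertible (D.R01 R) (D.R01 R ⊗[D.R0 R] L0))
    let H : D.R01 R ⊗[D.R1 R] L1 →ₗ[D.R01 R] D.OverlapM R L0 := LinearMap.liftBaseChange _ h
    have hH : Function.Surjective H := fun m => by
      obtain ⟨N, l, hl⟩ := hcover m
      refine ⟨(D.r0 R (D.xR R) ^ N) ⊗ₜ[D.R1 R] l, ?_⟩
      rw [LinearMap.liftBaseChange_tmul, ← hl, hxy']
    have h1 := Module.Flat.rTensor_preserves_injective_linearMap (M := L1)
      (Algebra.linearMap (D.R1 R) (D.R01 R)) D.r1_injective
    intro a b hab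
    apply (TensorProduct.lid (D.R1 R) L1).symm.injective
    apply h1
    apply (Module.Invertible.bijective_of_surjective hH).1
    simpa [H, TensorProduct.lid_symm_apply] using hab
  let B : D.Bundle R :=
    { M := D.OverlapM R L0
      smul0 := fun _ _ => rfl
      smul1 := fun _ _ => rfl
      L0 := LinearMap.range (D.overlapIncl R L0)
      L1 := LinearMap.range h
      invertible0 := Module.Invertible.congr
        (LinearEquiv.ofInjective _ (D.overlapIncl_injective R L0))
      invertible1 := Module.Invertible.congr (LinearEquiv.ofInjective _ hinj)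
      exists_mem0 := fun m => by
        obtain ⟨N, l, hl⟩ := D.exists_overlap_form R L0 m
        refine ⟨N, l, hl.symm.trans ?_⟩
        show _ = D.r0 R (D.xR R ^ N) • m
        rw [map_pow]
      exists_mem1 := fun m => by
        obtain ⟨N, l, hl⟩ := hcover m
        refine ⟨N, l, hl.symm.trans ?_⟩
        show _ = D.r1 R (D.yR R ^ N) • m
        rw [map_pow] }
  refine ⟨B, Bundle.IsPullback.isom_map (g := g) ⟨hg, ?_, ?_⟩⟩
  · refine le_antisymm (Submodule.span_le.2 ?_) fun m hm => ?_
    · rintro _ ⟨_, ⟨l, rfl⟩, rfl⟩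
      rw [hgincl]; exact (g0 l).2
    · obtain ⟨l, hl⟩ := hg0s ⟨m, hm⟩
      exact Submodule.subset_span ⟨_, ⟨l, rfl⟩, by rw [hgincl, hl]⟩
  · refine le_antisymm (Submodule.span_le.2 ?_) fun m hm => ?_
    · rintro _ ⟨_, ⟨l, rfl⟩, rfl⟩
      rw [hgh]; exact (g1 l).2
    · obtain ⟨l, hl⟩ := hg1s ⟨m, hm⟩
      exact Submodule.subset_span ⟨_, ⟨l, rfl⟩, by rw [hgh, hl]⟩

variable {D R}

/-- A bundle lifting a rigidifiable bundle along a nilpotent thickening is rigidifiable. -/
theorem Bundle.isRigidifiable_of_lift (hφ : Function.Surjective φ) (hsq : RingHom.ker φ ^ 2 = ⊥)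
    (B : D.Bundle R) (h : (B.map φ).IsRigidifiable) : B.IsRigidifiable := by
  classical
  obtain ⟨e⟩ := h
  let A := D.R0 R
  let J : Ideal A := RingHom.ker (D.εR R)
  let g : B.L0 →+ (B.map φ).L0 := AddMonoidHom.mk'
    (fun l => ⟨B.mapHom φ l, Submodule.subset_span ⟨l, l.2, rfl⟩⟩) fun a b => Subtype.ext (by simp)
  have hgsmul : ∀ (a : A) (l : B.L0), g (a • l) = D.map0 φ a • g l := fun a l =>
    Subtype.ext (B.mapHom_smul0 φ a l)
  have hgsurj : Function.Surjective g := by
    rintro ⟨z, hz⟩
    suffices ∃ l : B.L0, B.mapHom φ (l : B.M) = z from this.imp fun l hl => Subtype.ext hl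
    refine Submodule.span_induction ?_ ?_ ?_ ?_ hz
    · rintro _ ⟨m, hm, rfl⟩; exact ⟨⟨m, hm⟩, rfl⟩
    · exact ⟨0, map_zero _⟩
    · rintro a b - - ⟨la, ha⟩ ⟨lb, hb⟩; exact ⟨la + lb, by rw [← ha, ← hb, ← map_add]; rfl⟩
    · rintro a b - ⟨lb, hb⟩
      obtain ⟨a, rfl⟩ := map0_surjective hφ a
      exact ⟨a • lb, by rw [← hb, ← B.mapHom_smul0]; rfl⟩
  let Q := B.L0 ⧸ B.epsSubmodule
  let Q' := (B.map φ).L0 ⧸ (B.map φ).epsSubmodule
  obtain ⟨n', hn'⟩ := Submodule.Quotient.mk_surjective _ (e.symm 1)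
  obtain ⟨n, rfl⟩ := hgsurj n'
  have hJ : ∀ a ∈ J, D.map0 φ a ∈ RingHom.ker (D.εR S) := fun a ha => by
    rw [RingHom.mem_ker, εR_map0, RingHom.mem_ker.1 ha, map_zero]
  -- kernel of the reduction on the fibres
  let T : Submodule R Q := RingHom.ker φ • ⊤
  let N : Submodule R Q := Submodule.span R {Submodule.Quotient.mk n}
  have hker : ∀ l : B.L0, g l = 0 → (Submodule.Quotient.mk l : Q) ∈ T := by
    intro l hl
    let : Algebra R S := φ.toRingHom.toAlgebra
    have : IsScalarTower k R S := IsScalarTower.of_algebraMap_eq fun r => (φ.commutes r).symm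
    obtain ⟨e', he'⟩ := B.exists_tensorEquiv S
    have h0 : (1 : S) ⊗ₜ[R] (l : B.M) = 0 := by
      apply e'.injective
      rw [he', map_zero]
      exact congrArg Subtype.val hl
    obtain ⟨s, hs⟩ := B.projective_M.out
    obtain ⟨ρ, hρ⟩ := B.exists_retraction_L0
    have hs0 : ∀ i, s (l : B.M) i ∈ RingHom.ker φ := fun i => by
      have := congrArg (fun z : S ⊗[R] B.M =>
        TensorProduct.rid R S ((((Finsupp.lapply i).comp s : B.M →ₗ[R] R)).lTensor S z)) h0
      simpa [Algebra.smul_def, RingHom.algebraMap_toAlgebra] using this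
    let ρ0 : B.M → B.L0 := fun i => ⟨(ρ i : B.M), (ρ i).2⟩
    have hl' : l = ∑ i ∈ (s (l : B.M)).support, s (l : B.M) i • ρ0 i := by
      apply Subtype.ext
      have h1 := congrArg (fun z => (ρ z : B.M)) (hs (l : B.M)).symm
      simp only [hρ ⟨l.1, l.2⟩, Finsupp.linearCombination_apply, Finsupp.sum, id_eq, map_sum,
        map_smul, Submodule.coe_sum] at h1
      conv_lhs => rw [h1]
      rw [Submodule.coe_sum]
      rfl
    have : (Submodule.Quotient.mk l : Q) =
        ∑ i ∈ (s (l : B.M)).support, s (l : B.M) i • Submodule.Quotient.mk (ρ0 i) := by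
      conv_lhs => rw [hl']
      exact map_sum B.epsSubmodule.mkQ _ _
    rw [this]
    exact Submodule.sum_mem _ fun i _ => Submodule.smul_mem_smul (hs0 i) Submodule.mem_top
  have hgen : ∀ l : B.L0, (Submodule.Quotient.mk l : Q) ∈ N ⊔ T := by
    intro l
    obtain ⟨a, ha⟩ := hφ (e (Submodule.Quotient.mk (g l)))
    have h0 : g l - g (algebraMap R A a • n) ∈ (B.map φ).epsSubmodule := by
      rw [← Submodule.Quotient.eq, hgsmul, map0_algebraMap, algebraMap_smul,
        Submodule.Quotient.mk_smul, hn']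
      apply e.injective
      rw [map_smul, LinearEquiv.apply_symm_apply, smul_eq_mul, mul_one, ha]
    obtain ⟨j, hj, hgj⟩ : ∃ j ∈ B.epsSubmodule, g j = g l - g (algebraMap R A a • n) := by
      refine Submodule.smul_induction_on h0 (fun c hc v _ => ?_) fun v w hv hw => ?_
      · obtain ⟨c, rfl⟩ := map0_surjective hφ c
        obtain ⟨v, rfl⟩ := hgsurj v
        refine ⟨(c - algebraMap R A (D.εR R c)) • v,
          Submodule.smul_mem_smul (by
            rw [RingHom.mem_ker, map_sub, AlgHom.commutes, Algebra.algebraMap_self_apply, sub_self])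
            Submodule.mem_top, ?_⟩
        rw [hgsmul, map_sub, map0_algebraMap, ← εR_map0, RingHom.mem_ker.1 hc, map_zero, sub_zero]
      · obtain ⟨j, hj, rfl⟩ := hv
        obtain ⟨j', hj', rfl⟩ := hw
        exact ⟨j + j', add_mem hj hj', map_add g j j'⟩
    have h2 := hker (l - algebraMap R A a • n - j) (by rw [map_sub, map_sub, hgj, sub_self])
    rw [Submodule.Quotient.mk_sub, Submodule.Quotient.mk_sub, (Submodule.Quotient.mk_eq_zero _).2 hj,
      sub_zero] at h2
    rw [show (Submodule.Quotient.mk l : Q) = Submodule.Quotient.mk (algebraMap R A a • n) +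
        (Submodule.Quotient.mk l - Submodule.Quotient.mk (algebraMap R A a • n)) by abel]
    refine Submodule.add_mem_sup ?_ h2
    rw [algebraMap_smul, Submodule.Quotient.mk_smul]
    exact N.smul_mem _ (Submodule.mem_span_singleton_self _)
  have htop : ∀ q : Q, q ∈ N := by
    have hsup : (⊤ : Submodule R Q) ≤ N ⊔ T := fun q _ => by
      obtain ⟨l, rfl⟩ := Submodule.Quotient.mk_surjective _ q
      exact hgen l
    have hT : T ≤ N := by
      refine (Submodule.smul_mono le_rfl hsup).trans ?_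
      rw [Submodule.smul_sup]
      refine sup_le Submodule.smul_le_right ?_
      rw [← Submodule.mul_smul, ← pow_two, hsq, Submodule.bot_smul]
      exact bot_le
    exact fun q => (hsup.trans (sup_le le_rfl hT)) Submodule.mem_top
  let f : R →ₗ[R] Q := LinearMap.toSpanSingleton R Q (Submodule.Quotient.mk n)
  have hsurj : Function.Surjective f := fun q => Submodule.mem_span_singleton.1 (htop q)
  let eQ : (A ⧸ J) ⊗[A] B.L0 ≃ₗ[A] Q := TensorProduct.quotTensorEquivQuotSMul B.L0 J
  have hinj : Function.Injective f := by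
    intro a b hab
    let F : (A ⧸ J) →ₗ[A ⧸ J] (A ⧸ J) ⊗[A] B.L0 :=
      LinearMap.toSpanSingleton _ _ ((1 : A ⧸ J) ⊗ₜ[A] n)
    have hF : ∀ r : R, eQ (F (Ideal.Quotient.mk J (algebraMap R A r))) = f r := fun r => by
      show eQ (Ideal.Quotient.mk J (algebraMap R A r) • ((1 : A ⧸ J) ⊗ₜ[A] n)) =
        r • (Submodule.Quotient.mk n : Q)
      rw [TensorProduct.smul_tmul', smul_eq_mul, mul_one]
      exact (TensorProduct.quotTensorEquivQuotSMul_mk_tmul _ _ _).trans (by
        rw [algebraMap_smul, Submodule.Quotient.mk_smul]; rfl)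
    have hFs : Function.Surjective F := fun q => by
      obtain ⟨r, hr⟩ := hsurj (eQ q)
      exact ⟨_, eQ.injective ((hF r).trans hr)⟩
    rw [← hF, ← hF] at hab
    have h := Ideal.Quotient.eq.1 ((Module.Invertible.bijective_of_surjective hFs).1 (eQ.injective hab))
    rw [RingHom.mem_ker, map_sub, AlgHom.commutes, AlgHom.commutes, sub_eq_zero] at h
    exact h
  exact ⟨(LinearEquiv.ofBijective f ⟨hinj, hsurj⟩).symm⟩

end ChartData

end FermatLib.AV
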