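import Fermat.Agent.AV.Jac.DegreeCut
import Fermat.Agent.AV.Jac.Criterion
import Fermat.Agent.AV.Jac.PropsLift

/-!
The representing scheme of the degree zero part is smooth and locally of finite type.
-/

set_option autoImplicit false

universe u

open CategoryTheory CategoryTheory.Limits AlgebraicGeometry NeronModelInfra AlgebraicGeometry.RelPicard
  GoodReductionJacobian
open scoped TensorProduct

noncomputable section

namespace FermatLib.AV.CurveCharts

variable {k : Type u} [Field k] {C : Scheme.{u}} {c : C ⟶ Spec (CommRingCat.of k)}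
  {ε : SchemeHomOver (𝟙 (Spec (CommRingCat.of k))) c} {P : CurveCharts k c ε}
  (F : Glue.ChartFamily P.degZeroCut) (D : RelativePic0Designation k c)
  (e : ∀ i, SchemeHomOver (Glue.affStr k (F.A i)) D.toBase)

/-- The sheaf of a rigidifiable bundle as a rigidified line bundle. -/
def rigBundle (P : CurveCharts k c ε) {R : Type u} [CommRing R] [Algebra k R]
    (B : P.toChartData.Bundle R) (hB : B.IsRigidifiable) :
    RigidifiedLineBundle c ε (specStr k R) :=
  ⟨P.toModules B, P.isInvertible_toModules B, (P.isRigidifiable_iff B).1 hB⟩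

lemma isRigidifiable_of_iso (P : CurveCharts k c ε) {R : Type u} [CommRing R] [Algebra k R]
    (B : P.toChartData.Bundle R) (M : RigidifiedLineBundle c ε (specStr k R))
    (e : P.toModules B ≅ M.L) : B.IsRigidifiable := by
  obtain ⟨r⟩ := M.rigidified
  exact (P.isRigidifiable_iff B).2 ⟨(Scheme.Modules.pullback _).mapIso e ≪≫ r⟩

/-- A degree zero rigidified bundle on a quotient by a square zero ideal lifts. -/
theorem exists_lift_degZero (P : CurveCharts k c ε) {R S : Type u} [CommRing R] [Algebra k R]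
    [CommRing S] [Algebra k S] (φ : R →ₐ[k] S) (hφ : Function.Surjective φ)
    (hsq : RingHom.ker φ ^ 2 = ⊥) (M' : RigidifiedLineBundle c ε (Glue.affStr k S))
    (hM' : P.degZeroCut.P (Glue.affStr k S) M') :
    ∃ M : RigidifiedLineBundle c ε (Glue.affStr k R), P.degZeroCut.P (Glue.affStr k R) M ∧
      Glue.BunIso (M.pullbackAlong (Glue.affHom φ)) M' := by
  obtain ⟨B', ⟨e'⟩⟩ := P.exists_bundle M'.L M'.isInvertible
  have hB' : B'.IsFibrewiseDegZero := (P.degZeroCut_affine_iff M' B' ⟨e'⟩).1 hM'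
  obtain ⟨B, hB⟩ := ChartData.exists_bundle_lift P.toChartData R hφ hsq B'
  obtain ⟨eB⟩ := (P.isom_iff _ _).1 hB
  obtain ⟨r'⟩ := M'.rigidified
  have hrig : B.IsRigidifiable := ChartData.Bundle.isRigidifiable_of_lift hφ hsq B
    (P.isRigidifiable_of_iso (B.map φ) M' (eB ≪≫ e'))
  obtain ⟨ep⟩ := P.toModules_pullback φ B (B.map φ) (B.mapHom φ) (B.isPullback_map φ)
  refine ⟨P.rigBundle B hrig, ?_, ⟨ep ≪≫ eB ≪≫ e'⟩⟩
  refine (P.degZeroCut_affine_iff (P.rigBundle B hrig) B ⟨Iso.refl _⟩).2 fun p => ?_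
  let θ := IsScalarTower.toAlgHom k R p.asIdeal.ResidueField
  have hker : RingHom.ker φ.toRingHom ≤ RingHom.ker θ.toRingHom := by
    intro a ha
    have hnil : IsNilpotent a := ⟨2, by
      have : a ^ 2 ∈ RingHom.ker φ ^ 2 := Ideal.pow_mem_pow ha 2
      rwa [hsq, Ideal.mem_bot] at this⟩
    exact (hnil.map θ).eq_zero
  let χ : S →ₐ[k] p.asIdeal.ResidueField := AlgHom.liftOfSurjective φ hφ θ hker
  have hχ : χ.comp φ = θ := AlgHom.liftOfSurjective_comp _ _ _ _
  show (B.map θ).IsDegZero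
  rw [← hχ]
  exact (((B.isom_map_map φ χ).symm.trans (hB.map χ)).chi_eq).trans (P.map_isDegZero hB' _ χ)

lemma affHom_comp {R S T : Type u} [CommRing R] [Algebra k R] [CommRing S] [Algebra k S]
    [CommRing T] [Algebra k T] (φ : R →ₐ[k] S) (ψ : S →ₐ[k] T) :
    (Glue.affHom ψ).1 ≫ (Glue.affHom φ).1 = (Glue.affHom (ψ.comp φ)).1 := by
  simp only [Glue.affHom, ← Spec.map_comp, ← CommRingCat.ofHom_comp]
  rfl

theorem formallySmooth_chart (i : F.ι) : Algebra.FormallySmooth k (F.A i) := by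
  refine Algebra.FormallySmooth.of_comp_surjective fun R _ _ I hI f => ?_
  let q := Ideal.Quotient.mkₐ k I
  have hq : Function.Surjective q := Ideal.Quotient.mkₐ_surjective k I
  have hk : RingHom.ker q = I := Ideal.Quotient.mkₐ_ker k I
  obtain ⟨M, hM, eM⟩ := P.exists_lift_degZero q hq (by rw [hk]; exact hI)
    ((F.bun i).pullbackAlong (Glue.affHom f)) (P.degZeroCut.pullback_mem _ _ _ _ (F.mem i))
  obtain ⟨U, hU⟩ := F.isOpen i R M hM
  have hr : Set.range (Glue.affHom q).1 = Set.univ := by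
    show Set.range (PrimeSpectrum.comap q.toRingHom) = Set.univ
    rw [range_comap_of_surjective _ _ hq, PrimeSpectrum.zeroLocus_eq_univ_iff]
    intro a ha
    refine (mem_nilradical (R := R)).2 ⟨2, ?_⟩
    have : a ^ 2 ∈ I ^ 2 := Ideal.pow_mem_pow (hk ▸ ha) 2
    rwa [hI, Ideal.mem_bot] at this
  have hUtop := (hU _ q).2 ⟨f, eM.symm⟩
  obtain ⟨ψ, hψ⟩ := (hU R (AlgHom.id k R)).1 (fun x _ => hUtop (hr ▸ Set.mem_univ x))
  refine ⟨ψ, F.mono i _ (q.comp ψ) f ?_⟩
  exact (Glue.bunIso_pull_pull _ _ _ _ (affHom_comp ψ q)).symm.trans ((hψ.pull (Glue.affHom q)).trans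
    ((Glue.bunIso_pull_pull M _ _ (Glue.affHom q) (affHom_comp (AlgHom.id k R) q)).trans eM))

theorem locallyOfFiniteType_toBase (hfin : ∀ i, Algebra.FiniteType k (F.A i))
    (he : ∀ i, IsOpenImmersion (e i).1) (hcov : ∀ x : D.P, ∃ i, x ∈ Set.range (e i).1) :
    LocallyOfFiniteType D.toBase := by
  let 𝒰 := Scheme.Cover.mkOfCovers (P := @IsOpenImmersion) F.ι
    (fun i => Spec (CommRingCat.of (F.A i))) (fun i => (e i).1) hcov he
  have : IsZariskiLocalAtSource @LocallyOfFiniteType.{u} :=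
    HasRingHomProperty.instIsZariskiLocalAtSource (Q := RingHom.FiniteType)
  refine IsZariskiLocalAtSource.of_openCover (P := @LocallyOfFiniteType.{u}) 𝒰 fun (i : F.ι) => ?_
  show LocallyOfFiniteType ((e i).1 ≫ D.toBase)
  rw [(e i).2, HasRingHomProperty.Spec_iff (P := @LocallyOfFiniteType), CommRingCat.hom_ofHom,
    RingHom.finiteType_algebraMap]
  exact hfin i

theorem smooth_toBase (hfin : ∀ i, Algebra.FiniteType k (F.A i))
    (he : ∀ i, IsOpenImmersion (e i).1) (hcov : ∀ x : D.P, ∃ i, x ∈ Set.range (e i).1) :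
    Smooth D.toBase := by
  let 𝒰 := Scheme.Cover.mkOfCovers (P := @IsOpenImmersion) F.ι
    (fun i => Spec (CommRingCat.of (F.A i))) (fun i => (e i).1) hcov he
  have : IsZariskiLocalAtSource @Smooth.{u} :=
    HasRingHomProperty.instIsZariskiLocalAtSource (Q := RingHom.Smooth)
  refine IsZariskiLocalAtSource.of_openCover (P := @Smooth.{u}) 𝒰 fun (i : F.ι) => ?_
  show Smooth ((e i).1 ≫ D.toBase)
  rw [(e i).2, HasRingHomProperty.Spec_iff (P := @Smooth), CommRingCat.hom_ofHom,
    RingHom.smooth_algebraMap]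
  have := hfin i
  exact ⟨formallySmooth_chart F i, Algebra.FinitePresentation.of_finiteType.1 this⟩

end FermatLib.AV.CurveCharts
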