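import Fermat.Agent.AV.Jac.Assembly
import Fermat.Agent.AV.Jac.Points.Twist
import Fermat.Agent.AV.Jac.PropsSmooth
import Fermat.Agent.AV.Jac.PropsSeparated

/-!
The twist system of the rational points and the properties of the glued scheme.
-/

set_option autoImplicit false

universe u

open CategoryTheory CategoryTheory.Limits AlgebraicGeometry NeronModelInfra AlgebraicGeometry.RelPicard
  GoodReductionJacobian
open scoped TensorProduct

noncomputable section

namespace FermatLib.AV

variable {k : Type u} [Field k] [IsAlgClosed k]

/-- Twisting by multiples of the fibre at infinity and rational points. -/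
def ChartData.pointTwistSystem (D : ChartData k) : D.TwistSystem where
  ι := D.TwistIndex
  twist i := fun {_} _ _ B => ChartData.twistBy i B
  untwist i := fun {_} _ _ B => ChartData.untwistBy i B
  shift i := ChartData.twistShift i
  untwist_twist i := fun {_} _ _ B => ChartData.untwistBy_twistBy i B
  twist_untwist i := fun {_} _ _ B => ChartData.twistBy_untwistBy i B
  twist_congr i := fun {_} _ _ {_ _} h => ChartData.isom_twistBy i h
  untwist_congr i := fun {_} _ _ {_ _} h => ChartData.isom_untwistBy i h
  map_twist i := fun {_ _} _ _ _ _ φ B => ChartData.map_twistBy i φ B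
  map_untwist i := fun {_ _} _ _ _ _ φ B => ChartData.map_untwistBy i φ B
  rig_twist i := fun {_} _ _ _ hB => ChartData.isRigidifiable_twistBy i hB
  rig_untwist i := fun {_} _ _ _ hB => ChartData.isRigidifiable_untwistBy i hB
  chi_twist i := fun {_} _ _ B => ChartData.chi_twistBy i B
  cover := fun {_} _ _ B hB _ => ChartData.exists_twistBy_isAcyclic B hB

namespace CurveCharts

variable {C : Scheme.{u}} {c : C ⟶ Spec (CommRingCat.of k)}
  {ε : SchemeHomOver (𝟙 (Spec (CommRingCat.of k))) c} (P : CurveCharts k c ε)

include P in
/-- The Jacobian exists, given the Abel map. -/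
theorem exists_jacobian_of_abel
    (habel : ∀ (D : RelativePic0Designation k c) (_ : RepresentsRelSubPic c ε P.degZeroCut D),
      LocallyOfFiniteType D.toBase → IsSeparated D.toBase →
      UniversallyClosed D.toBase ∧ GeometricallyConnected D.toBase ∧
        ∀ (K : Type u) [Field K] [IsAlgClosed K] [Algebra k K] (B : P.toChartData.Bundle K),
          B.IsDegZero → P.IsRigidified B →
            IsAlgEquivZero (pullback.snd c (specStr k K)) (P.toModules B)) :
    ∃ D : RelativePic0Designation k c,
      Nonempty (RepresentsRelSubPic c ε (algEquivZeroCut c ε) D) ∧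
        Smooth D.toBase ∧ IsProper D.toBase ∧ GeometricallyConnected D.toBase := by
  refine P.exists_jacobian P.toChartData.pointTwistSystem (fun D h e he hcov hpoinc => ?_) habel
  have hfin := P.finiteType_chartFamily P.toChartData.pointTwistSystem
  have hlft := CurveCharts.locallyOfFiniteType_toBase _ D e hfin he hcov
  exact ⟨CurveCharts.smooth_toBase _ D e hfin he hcov, P.isSeparated_toBase h, hlft⟩

end CurveCharts

end FermatLib.AV
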