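import Fermat.Agent.AV.Jac.Bridge.Trivial
import Fermat.Agent.AV.Jac.Bridge.Pullback
import Fermat.Agent.AV.Jac.Bridge.Rig

/-!
Bundles of the algebraic model versus invertible sheaves on the curve over an affine base.

`specStr`, `specHom`: `Bridge.CurveCover`.
`CurveCharts.toModules`, `isInvertible_toModules`, `exists_bundle`, `isom_iff`: `Bridge.Realize`.
`CurveCharts.isTrivial_iff`: `Bridge.Trivial`.
`CurveCharts.toModules_pullback`: `Bridge.Pullback`.
`CurveCharts.isRigidifiable_iff`: `Bridge.Rig`.
-/
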