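import Fermat.Agent.AV.Jac.ChartData
import Fermat.Prelude.Def_AlgebraicGeometry_NeronModelPropertyBundleCarrier

/-!
A two-chart presentation of a concrete curve.
-/

set_option autoImplicit false

universe u

open CategoryTheory CategoryTheory.Limits AlgebraicGeometry NeronModelInfra
open scoped TensorProduct

namespace FermatLib.AV

/-- A two-chart presentation of the pointed curve `(C, ε)`. -/
structure CurveCharts (k : Type u) [Field k] {C : Scheme.{u}}
    (c : C ⟶ Spec (CommRingCat.of k))
    (ε : SchemeHomOver (𝟙 (Spec (CommRingCat.of k))) c) extends ChartData k where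
  i0 : Spec (CommRingCat.of A0) ⟶ C
  i1 : Spec (CommRingCat.of A1) ⟶ C
  [open0 : IsOpenImmersion i0]
  [open1 : IsOpenImmersion i1]
  i0_base : i0 ≫ c = Spec.map (CommRingCat.ofHom (algebraMap k A0))
  i1_base : i1 ≫ c = Spec.map (CommRingCat.ofHom (algebraMap k A1))
  cover : i0.opensRange ⊔ i1.opensRange = ⊤
  overlap : IsPullback (Spec.map (CommRingCat.ofHom j0.toRingHom))
    (Spec.map (CommRingCat.ofHom j1.toRingHom)) i0 i1
  i0_ε : Spec.map (CommRingCat.ofHom ε0.toRingHom) ≫ i0 = ε.1

attribute [instance] CurveCharts.open0 CurveCharts.open1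

end FermatLib.AV
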