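import Fermat.Agent.AV.Jac.ChartData

/-!
Line bundles on the constant family of a two-chart curve over an affine base, as a module over the
overlap with two lattices.
-/

set_option autoImplicit false

universe u

open scoped TensorProduct

namespace FermatLib.AV

namespace ChartData

variable {k : Type u} [Field k] (D : ChartData k) (R : Type u) [CommRing R] [Algebra k R]

/-- A line bundle on the curve over `Spec R`: its sections over the overlap, and the two
submodules of sections extending to either chart. -/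
structure Bundle : Type (u + 1) where
  M : Type u
  [addCommGroup : AddCommGroup M]
  [moduleR : Module R M]
  [module0 : Module (D.R0 R) M]
  [module1 : Module (D.R1 R) M]
  [module01 : Module (D.R01 R) M]
  [tower0 : IsScalarTower R (D.R0 R) M]
  [tower1 : IsScalarTower R (D.R1 R) M]
  [tower01 : IsScalarTower R (D.R01 R) M]
  smul0 : ∀ (a : D.R0 R) (m : M), D.r0 R a • m = a • m
  smul1 : ∀ (a : D.R1 R) (m : M), D.r1 R a • m = a • m
  L0 : Submodule (D.R0 R) M
  L1 : Submodule (D.R1 R) M
  invertible0 : Module.Invertible (D.R0 R) L0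
  invertible1 : Module.Invertible (D.R1 R) L1
  exists_mem0 : ∀ m : M, ∃ N : ℕ, ((1 : R) ⊗ₜ[k] D.x : D.R0 R) ^ N • m ∈ L0
  exists_mem1 : ∀ m : M, ∃ N : ℕ, ((1 : R) ⊗ₜ[k] D.y : D.R1 R) ^ N • m ∈ L1

attribute [instance] Bundle.addCommGroup Bundle.moduleR Bundle.module0 Bundle.module1
  Bundle.module01 Bundle.tower0 Bundle.tower1 Bundle.tower01 Bundle.invertible0 Bundle.invertible1

variable {D R}

namespace Bundle

/-- Isomorphism of bundles. -/
structure Iso (B B' : D.Bundle R) : Type u where
  toEquiv : B.M ≃ₗ[D.R01 R] B'.M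
  mem0 : ∀ m : B.M, toEquiv m ∈ B'.L0 ↔ m ∈ B.L0
  mem1 : ∀ m : B.M, toEquiv m ∈ B'.L1 ↔ m ∈ B.L1

/-- Isomorphic bundles. -/
def Isom (B B' : D.Bundle R) : Prop := Nonempty (B.Iso B')

/-- The structure bundle. -/
def IsTrivial (B : D.Bundle R) : Prop :=
  ∃ e : B.M, e ∈ B.L0 ∧ e ∈ B.L1 ∧
    (Function.Bijective fun a : D.R01 R => a • e) ∧
    (∀ m ∈ B.L0, ∃ a : D.R0 R, m = a • e) ∧ ∀ m ∈ B.L1, ∃ a : D.R1 R, m = a • e

variable {S : Type u} [CommRing S] [Algebra k S]

/-- `g` exhibits `B'` as the change of coefficients of `B` along `φ`. -/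
structure IsPullback (φ : R →ₐ[k] S) (B : D.Bundle R) (B' : D.Bundle S) (g : B.M →+ B'.M) :
    Prop where
  map_smul : ∀ (a : D.R01 R) (m : B.M), g (a • m) = D.map01 φ a • g m
  span0 : Submodule.span (D.R0 S) (g '' (B.L0 : Set B.M)) = B'.L0
  span1 : Submodule.span (D.R1 S) (g '' (B.L1 : Set B.M)) = B'.L1

/-- Sections on the whole curve. -/
def H0 (B : D.Bundle R) : Submodule R B.M := B.L0.restrictScalars R ⊓ B.L1.restrictScalars R

/-- The first cohomology by the two-term Cech complex. -/
abbrev H1 (B : D.Bundle R) : Type u :=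
  B.M ⧸ (B.L0.restrictScalars R ⊔ B.L1.restrictScalars R)

/-- The kernel of evaluation at the marked point: `L0 / epsFibreKer` is the fibre at the marked
point. -/
noncomputable def epsSubmodule (B : D.Bundle R) : Submodule (D.R0 R) B.L0 :=
  RingHom.ker (D.εR R) • (⊤ : Submodule (D.R0 R) B.L0)

/-- A rigidification: an isomorphism of the fibre at the marked point with `R`. -/
def IsRigidifiable (B : D.Bundle R) : Prop :=
  Nonempty ((B.L0 ⧸ B.epsSubmodule) ≃ₗ[R] R)

end Bundle

end ChartData

end FermatLib.AV
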