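import Mathlib

/-!
Algebraic model of a curve as the union of two affine charts, finite free over the two
standard charts of the projective line.
-/

set_option autoImplicit false

universe u

open scoped TensorProduct

namespace FermatLib.AV

/-- A proper smooth connected curve over `k`, given by two affine charts lying over the two
standard charts of the projective line by a finite map of degree `n`, with a marked point over `0`. -/
structure ChartData (k : Type u) [Field k] : Type (u + 1) where
  A0 : Type u
  A1 : Type u
  A01 : Type u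
  [commRing0 : CommRing A0]
  [commRing1 : CommRing A1]
  [commRing01 : CommRing A01]
  [algebra0 : Algebra k A0]
  [algebra1 : Algebra k A1]
  [algebra01 : Algebra k A01]
  x : A0
  y : A1
  j0 : A0 →ₐ[k] A01
  j1 : A1 →ₐ[k] A01
  isLoc0 : @IsLocalization.Away A0 _ x A01 _ j0.toRingHom.toAlgebra
  isLoc1 : @IsLocalization.Away A1 _ y A01 _ j1.toRingHom.toAlgebra
  x_mul_y : j0 x * j1 y = 1
  n : ℕ
  b0 : Fin n → A0
  b1 : Fin n → A1
  basis0 : Function.Bijective
    fun p : Fin n → Polynomial k => ∑ i, Polynomial.aeval x (p i) * b0 i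
  basis1 : Function.Bijective
    fun p : Fin n → Polynomial k => ∑ i, Polynomial.aeval y (p i) * b1 i
  ε0 : A0 →ₐ[k] k
  ε0_x : ε0 x = 0
  isDomain0 : ∀ (K : Type u) [Field K] [Algebra k K], IsDomain (K ⊗[k] A0)
  isDomain1 : ∀ (K : Type u) [Field K] [Algebra k K], IsDomain (K ⊗[k] A1)
  isDedekind0 : ∀ (K : Type u) [Field K] [Algebra k K], IsDedekindRing (K ⊗[k] A0)
  isDedekind1 : ∀ (K : Type u) [Field K] [Algebra k K], IsDedekindRing (K ⊗[k] A1)
  const : ∀ (a0 : A0) (a1 : A1), j0 a0 = j1 a1 → ∃ r : k, a0 = algebraMap k A0 r

attribute [instance] ChartData.commRing0 ChartData.commRing1 ChartData.commRing01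
  ChartData.algebra0 ChartData.algebra1 ChartData.algebra01

namespace ChartData

variable {k : Type u} [Field k] (D : ChartData k) (R : Type u) [CommRing R] [Algebra k R]

/-- The first chart with coefficients in `R`. -/
abbrev R0 : Type u := R ⊗[k] D.A0
/-- The second chart with coefficients in `R`. -/
abbrev R1 : Type u := R ⊗[k] D.A1
/-- The overlap with coefficients in `R`. -/
abbrev R01 : Type u := R ⊗[k] D.A01

/-- Restriction from the first chart to the overlap. -/
noncomputable def r0 : D.R0 R →ₐ[R] D.R01 R := Algebra.TensorProduct.map (AlgHom.id R R) D.j0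
/-- Restriction from the second chart to the overlap. -/
noncomputable def r1 : D.R1 R →ₐ[R] D.R01 R := Algebra.TensorProduct.map (AlgHom.id R R) D.j1

/-- The marked section with coefficients in `R`. -/
noncomputable def εR : D.R0 R →ₐ[R] R :=
  Algebra.TensorProduct.lift (AlgHom.id R R) ((Algebra.ofId k R).comp D.ε0) fun _ _ => Commute.all _ _

/-- Change of coefficients on the first chart. -/
noncomputable def map0 {R S : Type u} [CommRing R] [Algebra k R] [CommRing S] [Algebra k S]
    (φ : R →ₐ[k] S) : D.R0 R →ₐ[k] D.R0 S := Algebra.TensorProduct.map φ (AlgHom.id k _)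
/-- Change of coefficients on the second chart. -/
noncomputable def map1 {R S : Type u} [CommRing R] [Algebra k R] [CommRing S] [Algebra k S]
    (φ : R →ₐ[k] S) : D.R1 R →ₐ[k] D.R1 S := Algebra.TensorProduct.map φ (AlgHom.id k _)
/-- Change of coefficients on the overlap. -/
noncomputable def map01 {R S : Type u} [CommRing R] [Algebra k R] [CommRing S] [Algebra k S]
    (φ : R →ₐ[k] S) : D.R01 R →ₐ[k] D.R01 S := Algebra.TensorProduct.map φ (AlgHom.id k _)

end ChartData

end FermatLib.AV
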