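import Fermat.Agent.AV.Jac.DegreeEquiv
import Fermat.Agent.AV.Jac.Chart.Framed

/-!
The affine charts of the degree zero relative Picard functor: twists of framed bundles.
-/

set_option autoImplicit false
set_option linter.style.haveILetI false

universe u

open CategoryTheory CategoryTheory.Limits AlgebraicGeometry NeronModelInfra AlgebraicGeometry.RelPicard
open scoped TensorProduct

noncomputable section

namespace FermatLib.AV

namespace ChartData

variable {k : Type u} [Field k] (D : ChartData k)

/-- The operations of twisting by fixed divisors, with the property that every degree zero bundle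
over a field becomes acyclic after some twist. -/
structure TwistSystem : Type (u + 1) where
  ι : Type u
  twist : ι → ∀ {R : Type u} [CommRing R] [Algebra k R], D.Bundle R → D.Bundle R
  untwist : ι → ∀ {R : Type u} [CommRing R] [Algebra k R], D.Bundle R → D.Bundle R
  shift : ι → ℤ
  untwist_twist : ∀ (i : ι) {R : Type u} [CommRing R] [Algebra k R] (B : D.Bundle R),
    (untwist i (twist i B)).Isom B
  twist_untwist : ∀ (i : ι) {R : Type u} [CommRing R] [Algebra k R] (B : D.Bundle R),
    (twist i (untwist i B)).Isom B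
  twist_congr : ∀ (i : ι) {R : Type u} [CommRing R] [Algebra k R] {B B' : D.Bundle R},
    B.Isom B' → (twist i B).Isom (twist i B')
  untwist_congr : ∀ (i : ι) {R : Type u} [CommRing R] [Algebra k R] {B B' : D.Bundle R},
    B.Isom B' → (untwist i B).Isom (untwist i B')
  map_twist : ∀ (i : ι) {R S : Type u} [CommRing R] [Algebra k R] [CommRing S] [Algebra k S]
    (φ : R →ₐ[k] S) (B : D.Bundle R), ((twist i B).map φ).Isom (twist i (B.map φ))
  map_untwist : ∀ (i : ι) {R S : Type u} [CommRing R] [Algebra k R] [CommRing S] [Algebra k S]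
    (φ : R →ₐ[k] S) (B : D.Bundle R), ((untwist i B).map φ).Isom (untwist i (B.map φ))
  rig_twist : ∀ (i : ι) {R : Type u} [CommRing R] [Algebra k R] (B : D.Bundle R),
    B.IsRigidifiable → (twist i B).IsRigidifiable
  rig_untwist : ∀ (i : ι) {R : Type u} [CommRing R] [Algebra k R] (B : D.Bundle R),
    B.IsRigidifiable → (untwist i B).IsRigidifiable
  chi_twist : ∀ (i : ι) {K : Type u} [Field K] [Algebra k K] (B : D.Bundle K),
    (twist i B).chi = B.chi + shift i
  cover : ∀ {K : Type u} [Field K] [Algebra k K] (B : D.Bundle K),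
    B.IsDegZero → B.IsRigidifiable → ∃ i, (twist i B).IsAcyclic

/-- The Euler characteristic of the structure bundle does not depend on the field. -/
theorem chi_structBundle (K : Type u) [Field K] [Algebra k K] :
    (D.structBundle K).chi = (D.structBundle k).chi := by
  rw [← (D.structBundle k).chi_mapTo K]
  exact (Bundle.isom_map_structBundle _).chi_eq.symm

namespace Bundle

variable {D} {R : Type u} [CommRing R] [Algebra k R]

/-- A field-valued fibre is a field extension of the fibre at its point. -/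
theorem exists_residue_factor (B : D.Bundle R) (L : Type u) [Field L] [Algebra k L] (φ : R →ₐ[k] L)
    (p : PrimeSpectrum R) (hp : RingHom.ker φ.toRingHom = p.asIdeal) :
    ∃ (_ : Algebra p.asIdeal.ResidueField L) (_ : IsScalarTower k p.asIdeal.ResidueField L),
      ((B.mapTo p.asIdeal.ResidueField).mapTo L).Isom (B.map φ) := by
  have h1 : p.asIdeal ≤ RingHom.ker φ := hp.ge
  have h2 : p.asIdeal.primeCompl ≤ (IsUnit.submonoid L).comap φ := fun a ha =>
    isUnit_iff_ne_zero.2 fun h => ha (hp ▸ h)
  let ψ := Ideal.ResidueField.liftₐ p.asIdeal φ h1 h2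
  let alg : Algebra p.asIdeal.ResidueField L := ψ.toRingHom.toAlgebra
  haveI hT : IsScalarTower k p.asIdeal.ResidueField L :=
    IsScalarTower.of_algebraMap_eq fun r => (ψ.commutes r).symm
  have hψ : IsScalarTower.toAlgHom k p.asIdeal.ResidueField L = ψ := AlgHom.ext fun _ => rfl
  have hφ : ψ.comp (IsScalarTower.toAlgHom k R p.asIdeal.ResidueField) = φ :=
    AlgHom.ext fun r => Ideal.ResidueField.liftₐ_algebraMap _ _ h1 h2 r
  refine ⟨alg, hT, ?_⟩
  unfold mapTo
  rw [hψ]
  exact (B.isom_map_map _ ψ).trans (hφ ▸ Isom.refl _)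

/-- Being framed at a field-valued point only depends on the point. -/
theorem isFramed_map_field_iff {w : Fin D.n → List (Fin D.n × ℕ)} (B : D.Bundle R)
    (L : Type u) [Field L] [Algebra k L] (φ : R →ₐ[k] L) (p : PrimeSpectrum R)
    (hp : RingHom.ker φ.toRingHom = p.asIdeal)
    (hrig : (B.mapTo p.asIdeal.ResidueField).IsRigidifiable) :
    (B.map φ).IsFramed w ↔ (B.mapTo p.asIdeal.ResidueField).IsFramed w := by
  obtain ⟨alg, hT, h⟩ := B.exists_residue_factor L φ p hp
  rw [← isFramed_mapTo_iff (B.mapTo p.asIdeal.ResidueField) hrig L]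
  exact ⟨fun hf => h.symm.isFramed hf, fun hf => h.isFramed hf⟩

end Bundle

end ChartData

namespace CurveCharts

open Glue

variable {k : Type u} [Field k] {C : Scheme.{u}} {c : C ⟶ Spec (CommRingCat.of k)}
  {ε : SchemeHomOver (𝟙 (Spec (CommRingCat.of k))) c} (P : CurveCharts k c ε)

section Bridge

variable {R : Type u} [CommRing R] [Algebra k R]

/-- The rigidified sheaf of a rigidifiable bundle. -/
def chartRigBundle (B : P.toChartData.Bundle R) (h : B.IsRigidifiable) :
    RigidifiedLineBundle c ε (specStr k R) where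
  L := P.toModules B
  isInvertible := P.isInvertible_toModules B
  rigidified := (P.isRigidifiable_iff B).1 h

lemma isRigidifiable_of_bundle_iso (B : P.toChartData.Bundle R)
    (M : RigidifiedLineBundle c ε (specStr k R)) (e : P.toModules B ≅ M.L) : B.IsRigidifiable :=
  (P.isRigidifiable_iff B).2
    ⟨(Scheme.Modules.pullback _).mapIso e ≪≫ M.rigidified.some⟩

lemma nonempty_toModules_map_iso {S : Type u} [CommRing S] [Algebra k S] (φ : R →ₐ[k] S)
    (B : P.toChartData.Bundle R) (M : RigidifiedLineBundle c ε (specStr k R))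
    (h : Nonempty (P.toModules B ≅ M.L)) :
    Nonempty (P.toModules (B.map φ) ≅ (M.pullbackAlong (specHom φ)).L) := by
  obtain ⟨e⟩ := h
  obtain ⟨e'⟩ := P.toModules_pullback φ B (B.map φ) (B.mapHom φ) (B.isPullback_map φ)
  exact ⟨e'.symm ≪≫ (Scheme.Modules.pullback _).mapIso e⟩

include P in
lemma isRigidifiable_map {S : Type u} [CommRing S] [Algebra k S] (φ : R →ₐ[k] S)
    {B : P.toChartData.Bundle R} (h : B.IsRigidifiable) : (B.map φ).IsRigidifiable := by
  obtain ⟨e⟩ := P.nonempty_toModules_map_iso φ B (P.chartRigBundle B h) ⟨Iso.refl _⟩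
  exact P.isRigidifiable_of_bundle_iso _ _ e

lemma isom_map_of_bunIso {S S' : Type u} [CommRing S] [Algebra k S] [CommRing S'] [Algebra k S']
    (φ : R →ₐ[k] S') (φ' : S →ₐ[k] S') (B : P.toChartData.Bundle R) (B' : P.toChartData.Bundle S)
    (M : RigidifiedLineBundle c ε (specStr k R)) (M' : RigidifiedLineBundle c ε (specStr k S))
    (h : Nonempty (P.toModules B ≅ M.L)) (h' : Nonempty (P.toModules B' ≅ M'.L))
    (hb : BunIso (M.pullbackAlong (specHom φ)) (M'.pullbackAlong (specHom φ'))) :
    (B.map φ).Isom (B'.map φ') := by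
  obtain ⟨e⟩ := P.nonempty_toModules_map_iso φ B M h
  obtain ⟨e'⟩ := P.nonempty_toModules_map_iso φ' B' M' h'
  exact (P.isom_iff _ _).2 ⟨e ≪≫ hb.some ≪≫ e'.symm⟩

lemma bunIso_of_isom_map {S S' : Type u} [CommRing S] [Algebra k S] [CommRing S'] [Algebra k S']
    (φ : R →ₐ[k] S') (φ' : S →ₐ[k] S') (B : P.toChartData.Bundle R) (B' : P.toChartData.Bundle S)
    (M : RigidifiedLineBundle c ε (specStr k R)) (M' : RigidifiedLineBundle c ε (specStr k S))
    (h : Nonempty (P.toModules B ≅ M.L)) (h' : Nonempty (P.toModules B' ≅ M'.L))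
    (hi : (B.map φ).Isom (B'.map φ')) :
    BunIso (M.pullbackAlong (specHom φ)) (M'.pullbackAlong (specHom φ')) := by
  obtain ⟨e⟩ := P.nonempty_toModules_map_iso φ B M h
  obtain ⟨e'⟩ := P.nonempty_toModules_map_iso φ' B' M' h'
  obtain ⟨e''⟩ := (P.isom_iff _ _).1 hi
  exact ⟨e.symm ≪≫ e'' ≪≫ e'⟩

end Bridge

variable (S : P.toChartData.TwistSystem)

/-- The index of a chart: a twist of the right shift and a family of words. -/
abbrev FamilyIndex : Type u :=
  {i : S.ι × (Fin P.n → List (Fin P.n × ℕ)) //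
    i.2 P.toChartData.i₀ = [] ∧ (P.toChartData.structBundle k).chi + S.shift i.1 = 0}

/-- The universal bundle of a chart. -/
def familyBundle (i : P.FamilyIndex S) :
    P.toChartData.Bundle (P.toChartData.FrameRing i.1.2) :=
  S.untwist i.1.1 (P.toChartData.univFrame i.1.2).bundle

lemma isRigidifiable_familyBundle (i : P.FamilyIndex S) :
    (P.familyBundle S i).IsRigidifiable :=
  S.rig_untwist _ _
    (ChartData.Frame.isFramed_bundle i.2.1 (P.toChartData.univFrame i.1.2)).isRigidifiable

lemma isFibrewiseDegZero_familyBundle (i : P.FamilyIndex S) :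
    (P.familyBundle S i).IsFibrewiseDegZero := by
  intro p
  let φ := IsScalarTower.toAlgHom k (P.toChartData.FrameRing i.1.2) p.asIdeal.ResidueField
  let U := (P.toChartData.univFrame i.1.2).bundle
  obtain ⟨hac, -, -⟩ := (ChartData.Frame.isFramed_bundle i.2.1
    (P.toChartData.univFrame i.1.2)).map φ
  have h0 : (U.map φ).chi = 0 := (ChartData.Bundle.isAcyclic_iff_chi_sup.1 hac).1
  have h1 := S.chi_twist i.1.1 (S.untwist i.1.1 (U.map φ))
  rw [(S.twist_untwist i.1.1 (U.map φ)).chi_eq, h0] at h1
  have h2 : ((S.untwist i.1.1 U).map φ).chi = (S.untwist i.1.1 (U.map φ)).chi :=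
    (S.map_untwist i.1.1 φ U).chi_eq
  change ((S.untwist i.1.1 U).map φ).chi = _
  rw [h2, P.toChartData.chi_structBundle p.asIdeal.ResidueField]
  linarith [i.2.2]

lemma map_familyBundle_isom_iff (i : P.FamilyIndex S) {R : Type u} [CommRing R] [Algebra k R]
    (ψ : P.toChartData.FrameRing i.1.2 →ₐ[k] R) (B : P.toChartData.Bundle R) :
    ((P.familyBundle S i).map ψ).Isom B ↔
      ((P.toChartData.univFrame i.1.2).map ψ).bundle.Isom (S.twist i.1.1 B) := by
  have h1 : ((P.familyBundle S i).map ψ).Isom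
      (S.untwist i.1.1 ((P.toChartData.univFrame i.1.2).map ψ).bundle) :=
    (S.map_untwist _ _ _).trans (S.untwist_congr _ (ChartData.Frame.isom_map_bundle _ _))
  constructor
  · intro h
    exact (S.twist_untwist _ _).symm.trans (S.twist_congr _ (h1.symm.trans h))
  · intro h
    exact h1.trans ((S.untwist_congr _ h).trans (S.untwist_twist _ _))

lemma family_isOpen (i : P.FamilyIndex S) (R : Type u) [CommRing R] [Algebra k R]
    (M : RigidifiedLineBundle c ε (specStr k R)) (hM : P.degZeroCut.P (specStr k R) M) :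
    ∃ U : (Spec (CommRingCat.of R)).Opens,
      ∀ (R' : Type u) [CommRing R'] [Algebra k R'] (φ : R →ₐ[k] R'),
        (Set.range (affHom φ).1 ⊆ (U : Set (Spec (CommRingCat.of R)))) ↔
          ∃ ψ : P.toChartData.FrameRing i.1.2 →ₐ[k] R',
            BunIso ((P.chartRigBundle _ (P.isRigidifiable_familyBundle S i)).pullbackAlong (affHom ψ))
              (M.pullbackAlong (affHom φ)) := by
  obtain ⟨B, hB⟩ := P.exists_bundle M.L M.isInvertible
  have hdeg := (P.degZeroCut_affine_iff M B hB).1 hM
  have hrig : B.IsRigidifiable := P.isRigidifiable_of_bundle_iso B M hB.some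
  let B' := S.twist i.1.1 B
  have hrig' : B'.IsRigidifiable := S.rig_twist _ _ hrig
  have hchi : ∀ p : PrimeSpectrum R, (B'.mapTo p.asIdeal.ResidueField).chi = 0 := fun p => by
    have h1 : (B'.mapTo p.asIdeal.ResidueField).chi =
        (S.twist i.1.1 (B.mapTo p.asIdeal.ResidueField)).chi := (S.map_twist _ _ _).chi_eq
    rw [h1, S.chi_twist, show (B.mapTo p.asIdeal.ResidueField).chi = _ from hdeg p,
      P.toChartData.chi_structBundle p.asIdeal.ResidueField]
    exact i.2.2
  refine ⟨⟨{p : PrimeSpectrum R | (B'.mapTo p.asIdeal.ResidueField).IsFramed i.1.2},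
    ChartData.Bundle.isOpen_setOf_isFramed hchi hrig'⟩, fun R' _ _ φ => ?_⟩
  have hker : ∀ q : PrimeSpectrum R',
      RingHom.ker ((IsScalarTower.toAlgHom k R' q.asIdeal.ResidueField).comp φ).toRingHom =
        (PrimeSpectrum.comap φ.toRingHom q).asIdeal := fun q => by
    rw [PrimeSpectrum.comap_asIdeal]
    ext r
    simp [RingHom.mem_ker, Ideal.algebraMap_residueField_eq_zero]
  have hpt : ∀ q : PrimeSpectrum R', ((B'.map φ).mapTo q.asIdeal.ResidueField).IsFramed i.1.2 ↔
      (B'.mapTo (PrimeSpectrum.comap φ.toRingHom q).asIdeal.ResidueField).IsFramed i.1.2 := fun q => by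
    have h := B'.isFramed_map_field_iff (w := i.1.2) _ _ _ (hker q) (P.isRigidifiable_map _ hrig')
    rw [← h]
    exact ⟨fun hf => (B'.isom_map_map _ _).isFramed hf,
      fun hf => (B'.isom_map_map _ _).symm.isFramed hf⟩
  have hrange : Set.range (affHom φ).1 = Set.range (PrimeSpectrum.comap φ.toRingHom) := rfl
  constructor
  · intro hsub
    have hfr : (B'.map φ).IsFramed i.1.2 := by
      refine ChartData.Bundle.isFramed_of_forall (fun q => ?_) (P.isRigidifiable_map _ hrig')
        fun q => (hpt q).2 ?_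
      · rw [ChartData.Bundle.chi_mapTo_map, hchi]
      · have hq : PrimeSpectrum.comap φ.toRingHom q ∈ Set.range (affHom φ).1 := by
          rw [hrange]; exact ⟨q, rfl⟩
        exact hsub hq
    obtain ⟨T, hT⟩ := hfr.exists_frame i.2.1
    obtain ⟨ψ, hψ, -⟩ := ChartData.frame_existsUnique T
    refine ⟨ψ, P.bunIso_of_isom_map ψ φ _ B _ M ⟨Iso.refl _⟩ hB
      ((P.map_familyBundle_isom_iff S i ψ (B.map φ)).2 ?_)⟩
    rw [hψ]
    exact hT.trans (S.map_twist _ _ _)
  · rintro ⟨ψ, hψ⟩
    have h1 := (P.map_familyBundle_isom_iff S i ψ (B.map φ)).1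
      (P.isom_map_of_bunIso ψ φ _ B _ M ⟨Iso.refl _⟩ hB hψ)
    have hfr : (B'.map φ).IsFramed i.1.2 :=
      (h1.trans (S.map_twist i.1.1 φ B).symm).isFramed
        (ChartData.Frame.isFramed_bundle i.2.1 ((P.toChartData.univFrame i.1.2).map ψ))
    rw [hrange]
    rintro _ ⟨q, rfl⟩
    exact (hpt q).1 (hfr.map _)

/-- The charts of the degree zero functor. -/
def chartFamily : ChartFamily P.degZeroCut where
  ι := P.FamilyIndex S
  A i := P.toChartData.FrameRing i.1.2
  bun i := P.chartRigBundle _ (P.isRigidifiable_familyBundle S i)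
  mem i := (P.degZeroCut_affine_iff _ (P.familyBundle S i) ⟨Iso.refl _⟩).2
    (P.isFibrewiseDegZero_familyBundle S i)
  mono i R _ _ φ ψ h := by
    have h1 := P.isom_map_of_bunIso φ ψ (P.familyBundle S i) (P.familyBundle S i) _ _
      ⟨Iso.refl _⟩ ⟨Iso.refl _⟩ h
    have h2 := (P.map_familyBundle_isom_iff S i φ _).1 h1
    have h3 := (P.map_familyBundle_isom_iff S i ψ _).1 (ChartData.Bundle.Isom.refl _)
    have h4 := ChartData.Frame.eq_of_isom i.2.1 (h2.trans h3.symm)
    exact (ChartData.frame_existsUnique ((P.toChartData.univFrame i.1.2).map ψ)).unique h4 rfl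
  isOpen i R _ _ M hM := P.family_isOpen S i R M hM
  covers K _ _ M hM := by
    obtain ⟨B, hB⟩ := P.exists_bundle M.L M.isInvertible
    have hdeg : B.IsDegZero := by
      have h := P.map_isDegZero ((P.degZeroCut_affine_iff M B hB).1 hM) K (AlgHom.id k K)
      exact (B.isom_map_id.chi_eq).symm.trans h
    have hrig : B.IsRigidifiable := P.isRigidifiable_of_bundle_iso B M hB.some
    obtain ⟨i, hac⟩ := S.cover B hdeg hrig
    have hshift : (P.toChartData.structBundle k).chi + S.shift i = 0 := by
      rw [← P.toChartData.chi_structBundle K, ← hdeg, ← S.chi_twist i B]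
      exact (ChartData.Bundle.isAcyclic_iff_chi_sup.1 hac).1
    obtain ⟨w, hw, hfr⟩ := ChartData.Bundle.exists_isFramed hac (S.rig_twist i B hrig)
    obtain ⟨T, hT⟩ := hfr.exists_frame hw
    obtain ⟨ψ, hψ, -⟩ := ChartData.frame_existsUnique T
    let j : P.FamilyIndex S := ⟨(i, w), hw, hshift⟩
    refine ⟨j, ψ, ?_⟩
    have h1 : ((P.familyBundle S j).map ψ).Isom B :=
      (P.map_familyBundle_isom_iff S j ψ B).2 (hψ ▸ hT)
    obtain ⟨e⟩ := P.nonempty_toModules_map_iso ψ (P.familyBundle S j)
      (P.chartRigBundle _ (P.isRigidifiable_familyBundle S j)) ⟨Iso.refl _⟩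
    obtain ⟨e1⟩ := (P.isom_iff _ _).1 h1
    exact ⟨e.symm ≪≫ e1 ≪≫ hB.some⟩

theorem finiteType_chartFamily (i : (P.chartFamily S).ι) :
    Algebra.FiniteType k ((P.chartFamily S).A i) :=
  P.toChartData.finiteType_frameRing i.1.2

end CurveCharts

end FermatLib.AV
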