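import Mathlib

/-!
Commutative algebra for the chart presentation of a smooth curve.
-/

set_option autoImplicit false
set_option linter.style.haveILetI false

universe u

open scoped TensorProduct Polynomial

namespace FermatLib.AV.ChartsAlg

section Domain

variable {k : Type u} [Field k] [IsAlgClosed k]

lemma exists_algHom_ker_eq {A : Type u} [CommRing A] [Algebra k A] [Algebra.FiniteType k A]
    (m : Ideal A) [m.IsMaximal] : ∃ φ : A →ₐ[k] k, RingHom.ker φ = m := by
  letI := Ideal.Quotient.field m
  haveI : Module.Finite k (A ⧸ m) := finite_of_finite_type_of_isJacobsonRing k (A ⧸ m)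
  let e : k ≃ₐ[k] A ⧸ m := AlgEquiv.ofBijective (Algebra.ofId k (A ⧸ m))
    (IsAlgClosed.algebraMap_bijective_of_isIntegral (k := k) (K := A ⧸ m))
  refine ⟨e.symm.toAlgHom.comp (Ideal.Quotient.mkₐ k m), ?_⟩
  ext a
  simp [RingHom.mem_ker, Ideal.Quotient.eq_zero_iff_mem]

lemma eq_zero_of_forall_algHom {A : Type u} [CommRing A] [Algebra k A] [Algebra.FiniteType k A]
    [IsDomain A] (a : A) (h : ∀ φ : A →ₐ[k] k, φ a = 0) : a = 0 := by
  haveI : IsJacobsonRing A := isJacobsonRing_of_finiteType (A := k) (B := A)
  have h' : a ∈ (⊥ : Ideal A).jacobson := by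
    rw [Ideal.jacobson, Submodule.mem_sInf]
    rintro m ⟨-, hm⟩
    haveI := hm
    obtain ⟨φ, hφ⟩ := exists_algHom_ker_eq (k := k) m
    rw [← hφ]
    exact h φ
  rw [← Ideal.radical_eq_jacobson,
    (Ideal.isPrime_bot (α := A)).radical] at h'
  exact h'

/-- Over an algebraically closed field, finite type domains stay domains after a field extension. -/
theorem tensor_isDomain (A : Type u) [CommRing A] [Algebra k A] [Algebra.FiniteType k A]
    [IsDomain A] (K : Type u) [Field K] [Algebra k K] : IsDomain (K ⊗[k] A) := by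
  classical
  obtain ⟨⟨ι, b⟩⟩ := Module.Free.exists_basis (R := k) (M := K)
  let e := TensorProduct.equivFinsuppOfBasisLeft (N := A) b
  let Φ : (A →ₐ[k] k) → (K ⊗[k] A →ₐ[k] K) := fun φ =>
    Algebra.TensorProduct.lift (AlgHom.id k K) ((Algebra.ofId k K).comp φ) fun _ _ => Commute.all _ _
  have hΦ : ∀ φ z i, b.repr (Φ φ z) i = φ (e z i) := by
    intro φ z i
    induction z using TensorProduct.induction_on with
    | zero => simp
    | tmul x a =>
      have : Φ φ (x ⊗ₜ[k] a) = φ a • x := by
        simp [Φ, Algebra.ofId_apply, Algebra.smul_def, mul_comm]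
      simp [this, e, mul_comm]
    | add p q hp hq => simp [hp, hq]
  obtain ⟨m, hm⟩ := Ideal.exists_maximal A
  obtain ⟨φ₀, -⟩ := exists_algHom_ker_eq (k := k) m
  haveI : Nontrivial (K ⊗[k] A) := (Φ φ₀).toRingHom.domain_nontrivial
  haveI : NoZeroDivisors (K ⊗[k] A) := by
    refine ⟨fun {f g} hfg => ?_⟩
    have key : ∀ i j, e f i * e g j = 0 := fun i j => eq_zero_of_forall_algHom (k := k) _ fun φ => by
      have h0 : Φ φ f * Φ φ g = 0 := by rw [← map_mul, hfg, map_zero]
      rcases mul_eq_zero.mp h0 with h | h
      · simp [map_mul, ← hΦ φ f i, h]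
      · simp [map_mul, ← hΦ φ g j, h]
    by_contra! hne
    obtain ⟨hf, hg⟩ := hne
    obtain ⟨i, hi⟩ := Finsupp.ne_iff.mp ((map_ne_zero_iff _ e.injective).mpr hf)
    obtain ⟨j, hj⟩ := Finsupp.ne_iff.mp ((map_ne_zero_iff _ e.injective).mpr hg)
    exact mul_ne_zero hi hj (key i j)
  exact NoZeroDivisors.to_isDomain _

end Domain

section Dedekind

variable {K : Type u} [Field K]

lemma exists_span_D_singleton {R : Type u} [CommRing R] [Nontrivial R] [Algebra K R]
    [Algebra.IsStandardSmoothOfRelativeDimension 1 K R] :
    ∃ (s : R), Submodule.span R {KaehlerDifferential.D K R s} = ⊤ ∧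
      KaehlerDifferential.D K R s ≠ 0 := by
  classical
  obtain ⟨ι, σ, _, _, ⟨P, hP⟩⟩ := Algebra.IsStandardSmoothOfRelativeDimension.out
    (n := 1) (R := K) (S := R)
  haveI := Fintype.ofFinite ι
  have hr := P.rank_kaehlerDifferential
  rw [hP, rank_eq_card_basis P.basisKaehler, Nat.cast_inj, Fintype.card_eq_one_iff_nonempty_unique] at hr
  obtain ⟨hu⟩ := hr
  let k0 := (default : ((Set.range P.map)ᶜ : Set _))
  refine ⟨P.val k0, ?_, ?_⟩
  · rw [eq_top_iff, ← P.basisKaehler.span_eq, Submodule.span_le]
    rintro _ ⟨i, rfl⟩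
    rw [Subsingleton.elim i k0, P.basisKaehler_apply]
    exact Submodule.subset_span rfl
  · rw [← P.basisKaehler_apply]
    exact P.basisKaehler.ne_zero k0

/-- A standard smooth algebra of relative dimension one is unramified over a polynomial ring. -/
lemma exists_aeval_formallyUnramified {R : Type u} [CommRing R] [Nontrivial R] [Algebra K R]
    [Algebra.IsStandardSmoothOfRelativeDimension 1 K R] :
    ∃ s : R, (∀ r : K, algebraMap K R r ≠ s) ∧
      @Algebra.FormallyUnramified K[X] R _ _ (Polynomial.aeval s).toRingHom.toAlgebra := by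
  obtain ⟨s, hs, hs0⟩ := exists_span_D_singleton (K := K) (R := R)
  refine ⟨s, fun r h => hs0 (h ▸ Derivation.map_algebraMap _ r), ?_⟩
  let _ : Algebra K[X] R := (Polynomial.aeval s).toRingHom.toAlgebra
  have : IsScalarTower K K[X] R := IsScalarTower.of_algebraMap_eq fun r => by
    simp [RingHom.algebraMap_toAlgebra]
  refine ⟨?_⟩
  have hsurj := KaehlerDifferential.map_surjective K K[X] R
  refine subsingleton_of_forall_eq 0 fun y => ?_
  obtain ⟨z, rfl⟩ := hsurj y
  have hz : z ∈ Submodule.span R {KaehlerDifferential.D K R s} := hs ▸ Submodule.mem_top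
  obtain ⟨r, rfl⟩ := Submodule.mem_span_singleton.mp hz
  rw [map_smul, KaehlerDifferential.map_D]
  have : algebraMap R R s = algebraMap K[X] R Polynomial.X := by
    simp [RingHom.algebraMap_toAlgebra]
  rw [this, Derivation.map_algebraMap, smul_zero]

lemma transcendental_of_not_algebraMap {k R : Type u} [Field k] [IsAlgClosed k] [CommRing R]
    [IsDomain R] [Algebra k R] (s : R) (hs : ∀ r : k, algebraMap k R r ≠ s) :
    Transcendental k s := by
  intro halg
  let S := Algebra.adjoin k ({s} : Set R)
  haveI : Algebra.IsIntegral k S := Algebra.IsIntegral.adjoin fun x hx => by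
    rw [Set.mem_singleton_iff.mp hx]; exact halg.isIntegral
  obtain ⟨r, hr⟩ := (IsAlgClosed.algebraMap_bijective_of_isIntegral (k := k) (K := S)).2
    ⟨s, Algebra.self_mem_adjoin_singleton k s⟩
  exact hs r (congrArg Subtype.val hr)

lemma maximalIdeal_isPrincipal_of_standardSmooth {R : Type u} [CommRing R] [Algebra K R]
    [Algebra.IsStandardSmoothOfRelativeDimension 1 K R] (q : Ideal R) [q.IsPrime] :
    (IsLocalRing.maximalIdeal (Localization.AtPrime q)).IsPrincipal := by
  have : Nontrivial R := by
    by_contra h
    haveI := not_nontrivial_iff_subsingleton.mp h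
    exact Ideal.IsPrime.ne_top ‹_› (Subsingleton.elim _ _)
  haveI : Algebra.IsStandardSmooth K R :=
    Algebra.IsStandardSmoothOfRelativeDimension.isStandardSmooth 1
  obtain ⟨s, -, hun⟩ := exists_aeval_formallyUnramified (K := K) (R := R)
  let _ : Algebra K[X] R := (Polynomial.aeval s).toRingHom.toAlgebra
  haveI := hun
  have : IsScalarTower K K[X] R := IsScalarTower.of_algebraMap_eq fun r => by
    simp [RingHom.algebraMap_toAlgebra]
  haveI : Algebra.FiniteType K[X] R := Algebra.FiniteType.of_restrictScalars_finiteType K _ _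
  let p := q.under K[X]
  let _ := Localization.AtPrime.algebraOfLiesOver p q
  haveI : Algebra.IsUnramifiedAt K[X] q :=
    Algebra.FormallyUnramified.comp _ R _
  obtain ⟨-, hp⟩ := (Algebra.isUnramifiedAt_iff_map_eq K[X] p q).mp inferInstance
  obtain ⟨f, hf⟩ := (IsPrincipalIdealRing.principal p).principal
  rw [← hp]
  refine ⟨⟨algebraMap K[X] (Localization.AtPrime q) f, ?_⟩⟩
  change Ideal.map _ p = Ideal.span _
  rw [show p = Ideal.span {f} from hf, Ideal.map_span, Set.image_singleton]

/-- A domain which is locally standard smooth of relative dimension one over a field is Dedekind. -/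
theorem isDedekindDomain_of_locally {R : Type u} [CommRing R] [IsDomain R] [Algebra K R]
    [Algebra.FiniteType K R]
    (h : RingHom.Locally (RingHom.IsStandardSmoothOfRelativeDimension 1) (algebraMap K R)) :
    IsDedekindDomain R := by
  haveI : IsNoetherianRing R := Algebra.FiniteType.isNoetherianRing K R
  suffices IsDedekindDomainDvr R from inferInstance
  refine { is_dvr_at_nonzero_prime := fun q hq hqp => ?_ }
  obtain ⟨s, hs, hst⟩ := h
  obtain ⟨t, hts, htq⟩ : ∃ t ∈ s, t ∉ q := by
    by_contra! hcon
    exact hqp.ne_top (top_le_iff.mp (hs ▸ Ideal.span_le.mpr hcon))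
  let R' := Localization.Away t
  have hsm := hst t hts
  rw [← IsScalarTower.algebraMap_eq, RingHom.isStandardSmoothOfRelativeDimension_algebraMap] at hsm
  have hdis : Disjoint (Submonoid.powers t : Set R) (q : Set R) :=
    Set.disjoint_left.mpr fun x ⟨n, hn⟩ hx => by subst hn; exact htq (hqp.mem_of_pow_mem n hx)
  let q' : Ideal R' := q.map (algebraMap R R')
  haveI hq' : q'.IsPrime :=
    IsLocalization.isPrime_of_isPrime_disjoint (Submonoid.powers t) R' q hqp hdis
  have hc : q'.comap (algebraMap R R') = q :=
    IsLocalization.under_map_of_isPrime_disjoint (Submonoid.powers t) R' hqp hdis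
  have hloc := IsLocalization.isLocalization_isLocalization_atPrime_isLocalization
    (Submonoid.powers t) (Localization.AtPrime q') q'
  have hloc' : IsLocalization q.primeCompl (Localization.AtPrime q') := by
    convert hloc using 2
    rw [hc]
  have e : Localization.AtPrime q ≃+* Localization.AtPrime q' :=
    (IsLocalization.algEquiv q.primeCompl (Localization.AtPrime q)
      (Localization.AtPrime q')).toRingEquiv
  haveI := hsm
  have hprin := maximalIdeal_isPrincipal_of_standardSmooth (K := K) q'
  have : (IsLocalRing.maximalIdeal (Localization.AtPrime q)).IsPrincipal := by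
    obtain ⟨g, hg⟩ := hprin.principal
    refine ⟨⟨e.symm g, ?_⟩⟩
    rw [← IsLocalRing.map_ringEquiv_maximalIdeal e.symm, hg]
    change Ideal.map _ (Ideal.span {g}) = Ideal.span _
    rw [Ideal.map_span, Set.image_singleton]
  exact ((IsDiscreteValuationRing.TFAE (Localization.AtPrime q)
    (IsLocalization.AtPrime.not_isField R hq (Localization.AtPrime q))).out 4 0).mp this

/-- Field extensions preserve being locally standard smooth of relative dimension one. -/
theorem locally_baseChange {k A : Type u} [Field k] [CommRing A] [Algebra k A]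
    [Algebra k K]
    (h : RingHom.Locally (RingHom.IsStandardSmoothOfRelativeDimension 1) (algebraMap k A)) :
    RingHom.Locally (RingHom.IsStandardSmoothOfRelativeDimension 1)
      (algebraMap K (K ⊗[k] A)) :=
  (RingHom.locally_isStableUnderBaseChange
    RingHom.isStandardSmoothOfRelativeDimension_respectsIso
    (RingHom.isStandardSmoothOfRelativeDimension_isStableUnderBaseChange 1)).tensorProduct K h

end Dedekind

section Basis

variable {k : Type u} [Field k]

open IntermediateField in
/-- A domain finite over `k[t]` with `t` transcendental is free, of rank the degree of its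
fraction field over `k(t)`. -/
theorem exists_chart_basis {A : Type u} [CommRing A] [IsDomain A] [Algebra k A]
    (L : Type u) [Field L] [Algebra k L] [Algebra A L] [IsScalarTower k A L] [IsFractionRing A L]
    (t : A) (ht : Transcendental k t) (hfin : (Polynomial.aeval (R := k) t).toRingHom.Finite) :
    ∃ b : Fin (Module.finrank k⟮algebraMap A L t⟯ L) → A, Function.Bijective
      fun p : Fin (Module.finrank k⟮algebraMap A L t⟯ L) → k[X] =>
        ∑ i, Polynomial.aeval t (p i) * b i := by
  let _ : Algebra k[X] A := (Polynomial.aeval t).toRingHom.toAlgebra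
  haveI : Module.Finite k[X] A := hfin
  have hinj : Function.Injective (algebraMap k[X] A) := transcendental_iff_injective.mp ht
  haveI : FaithfulSMul k[X] A := (faithfulSMul_iff_algebraMap_injective _ _).mpr hinj
  haveI : Module.IsTorsionFree k[X] A := inferInstance
  haveI : Module.Free k[X] A := Module.free_of_finite_type_torsion_free'
  let m := Module.finrank k[X] A
  let B : Module.Basis (Fin m) k[X] A := Module.finBasis k[X] A
  set t' := algebraMap A L t with ht'
  set F := k⟮t'⟯ with hF
  let v : Fin m → L := fun i => algebraMap A L (B i)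
  have hA : ∀ p : k[X], algebraMap A L (algebraMap k[X] A p) = Polynomial.aeval t' p := fun p => by
    rw [ht', Polynomial.aeval_algebraMap_apply]; rfl
  have hmem : ∀ p : k[X], Polynomial.aeval t' p ∈ F := fun p =>
    (mem_adjoin_simple_iff k _).mpr ⟨p, 1, by simp⟩
  let _ : Algebra k[X] F := ((Polynomial.aeval t').codRestrict F.toSubalgebra hmem).toRingHom.toAlgebra
  let _ : Algebra k[X] L := ((algebraMap A L).comp (algebraMap k[X] A)).toAlgebra
  haveI : IsScalarTower k[X] F L := IsScalarTower.of_algebraMap_eq fun p => hA p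
  haveI : IsScalarTower k[X] A L := IsScalarTower.of_algebraMap_eq fun p => rfl
  have hinjF : Function.Injective (algebraMap k[X] F) := fun p q hpq => hinj <| by
    apply IsFractionRing.injective A L
    rw [hA, hA]
    exact congrArg Subtype.val hpq
  haveI : FaithfulSMul k[X] F := (faithfulSMul_iff_algebraMap_injective _ _).mpr hinjF
  haveI : IsFractionRing k[X] F := IsFractionRing.of_field k[X] F fun z => by
    obtain ⟨r, s, hrs⟩ := (mem_adjoin_simple_iff k _).mp z.2
    exact ⟨r, s, Subtype.ext (hrs.trans (by rw [IntermediateField.coe_div]; rfl))⟩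
  have hli : LinearIndependent F v := (LinearIndependent.iff_fractionRing k[X] F).mp
    (B.linearIndependent.map' (IsScalarTower.toAlgHom k[X] A L).toLinearMap
      (LinearMap.ker_eq_bot.mpr (IsFractionRing.injective A L)))
  have hsp : ⊤ ≤ Submodule.span F (Set.range v) := by
    intro z _
    obtain ⟨a, b, hb, rfl⟩ := IsFractionRing.div_surjective (A := A) z
    haveI : Algebra.IsIntegral k[X] A := Algebra.IsIntegral.of_finite _ _
    obtain ⟨p, hp, c, hc⟩ :=
      (Algebra.IsIntegral.isIntegral (R := k[X]) b).isAlgebraic.exists_nonzero_dvd hb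
    have hc0 : (algebraMap k[X] A p) ≠ 0 := (map_ne_zero_iff _ hinj).mpr hp
    have hL : Function.Injective (algebraMap A L) := IsFractionRing.injective A L
    have e1 : algebraMap A L a / algebraMap A L b =
        ((algebraMap k[X] F p)⁻¹ : F) • algebraMap A L (a * c) := by
      rw [IntermediateField.smul_def, smul_eq_mul, IntermediateField.coe_inv]
      have e2 : ((algebraMap k[X] F p : F) : L) = algebraMap A L (algebraMap k[X] A p) :=
        (hA p).symm
      rw [e2, hc, map_mul, map_mul]
      have hb' : algebraMap A L b ≠ 0 := (map_ne_zero_iff _ hL).mpr (nonZeroDivisors.ne_zero hb)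
      have hc' : algebraMap A L c ≠ 0 := (map_ne_zero_iff _ hL).mpr fun h => hc0 (by simp [hc, h])
      field_simp
    rw [e1]
    refine Submodule.smul_mem _ _ ?_
    rw [← B.sum_repr (a * c), map_sum]
    refine Submodule.sum_mem _ fun i _ => ?_
    rw [Algebra.smul_def, map_mul, hA]
    exact Submodule.smul_mem _ (⟨_, hmem _⟩ : F) (Submodule.subset_span ⟨i, rfl⟩)
  have hn : Module.finrank F L = m := by
    rw [Module.finrank_eq_card_basis (Module.Basis.mk hli hsp), Fintype.card_fin]
  rw [hn]
  refine ⟨fun i => B i, ?_⟩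
  have : (fun p : Fin m → k[X] => ∑ i, Polynomial.aeval t (p i) * B i) = ⇑B.equivFun.symm := by
    funext p
    rw [B.equivFun_symm_apply]
    simp [Algebra.smul_def, RingHom.algebraMap_toAlgebra]
  rw [this]
  exact B.equivFun.symm.bijective

open IntermediateField in
lemma adjoin_simple_inv {L : Type u} [Field L] [Algebra k L] (x : L) : k⟮x⁻¹⟯ = k⟮x⟯ := by
  refine le_antisymm (adjoin_simple_le_iff.mpr (inv_mem (mem_adjoin_simple_self k x))) ?_
  refine adjoin_simple_le_iff.mpr ?_
  simpa using inv_mem (mem_adjoin_simple_self k x⁻¹)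

end Basis

end FermatLib.AV.ChartsAlg
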