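import Fermat.Agent.AV.Jac.ChartsAlg

/-!
Geometry of a smooth integral curve over an algebraically closed field: regularity of a function.
-/

set_option autoImplicit false
set_option linter.style.haveILetI false

universe u

open CategoryTheory CategoryTheory.Limits AlgebraicGeometry TopologicalSpace

namespace FermatLib.AV.ChartsCurve

variable {k : Type u} [Field k] {C : Scheme.{u}} (c : C ⟶ Spec (CommRingCat.of k))

/-- The structure map from `k` to the sections over an open subset. -/
noncomputable def baseMap (U : C.Opens) : CommRingCat.of k ⟶ Γ(C, U) :=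
  (Scheme.ΓSpecIso (CommRingCat.of k)).inv ≫ c.appLE ⊤ U (by simp)

@[reassoc]
lemma baseMap_res {U V : C.Opens} (h : V ≤ U) :
    baseMap c U ≫ C.presheaf.map (homOfLE h).op = baseMap c V := by
  rw [baseMap, baseMap, Category.assoc]
  exact congrArg _ (Scheme.Hom.appLE_map c (by simp) (homOfLE h).op)

lemma fromSpec_comp {U : C.Opens} (hU : IsAffineOpen U) :
    hU.fromSpec ≫ c = Spec.map (baseMap c U) := by
  have h := IsAffineOpen.SpecMap_appLE_fromSpec c (isAffineOpen_top _) hU le_top
  rw [← h, IsAffineOpen.fromSpec_top, Scheme.isoSpec_Spec_inv, ← Spec.map_comp, baseMap]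

lemma finiteType_baseMap [LocallyOfFiniteType c] {U : C.Opens} (hU : IsAffineOpen U) :
    (baseMap c U).hom.FiniteType := by
  have h := c.finiteType_appLE (isAffineOpen_top _) hU le_top
  exact RingHom.FiniteType.comp h
    (RingHom.FiniteType.of_surjective _
      (Scheme.ΓSpecIso (CommRingCat.of k)).symm.commRingCatIsoToRingEquiv.surjective)

lemma locally_baseMap [SmoothOfRelativeDimension 1 c] {U : C.Opens} (hU : IsAffineOpen U) :
    RingHom.Locally (RingHom.IsStandardSmoothOfRelativeDimension 1) (baseMap c U).hom := by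
  have h := HasRingHomProperty.appLE (@SmoothOfRelativeDimension 1) c inferInstance
    ⟨⊤, isAffineOpen_top _⟩ ⟨U, hU⟩ le_top
  exact (RingHom.locally_respectsIso RingHom.isStandardSmoothOfRelativeDimension_respectsIso).2
    _ (Scheme.ΓSpecIso (CommRingCat.of k)).symm.commRingCatIsoToRingEquiv h

variable [IsIntegral C]

lemma genericPoint_mem {U : C.Opens} (h : Nonempty U) : genericPoint C ∈ U :=
  ((genericPoint_spec C).mem_open_set_iff U.isOpen).mpr (by simpa using h)

/-- The function field as an algebra over the base field. -/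
noncomputable abbrev fnAlgebra : Algebra k C.functionField :=
  (baseMap c ⊤ ≫ C.presheaf.germ ⊤ (genericPoint C) trivial).hom.toAlgebra

/-- The value in the function field of a section. -/
noncomputable abbrev toFn (U : C.Opens) (hη : genericPoint C ∈ U) : Γ(C, U) ⟶ C.functionField :=
  C.presheaf.germ U (genericPoint C) hη

lemma toFn_res {U V : C.Opens} (h : V ≤ U) (hη : genericPoint C ∈ V) (a : Γ(C, U)) :
    toFn V hη (C.presheaf.map (homOfLE h).op a) = toFn U (h hη) a :=
  C.presheaf.germ_res_apply (homOfLE h) _ hη a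

lemma toFn_injective {U : C.Opens} (hη : genericPoint C ∈ U) :
    Function.Injective (toFn U hη) :=
  germ_injective_of_isIntegral _ _ hη

lemma baseMap_toFn (U : C.Opens) (hη : genericPoint C ∈ U) (r : k) :
    letI := fnAlgebra c
    toFn U hη (baseMap c U r) = algebraMap k C.functionField r := by
  rw [← baseMap_res c (le_top : U ≤ ⊤)]
  exact toFn_res le_top hη _

lemma algebraMap_germ (U : C.Opens) (p : C) (hp : p ∈ U) (a : Γ(C, U)) :
    algebraMap (C.presheaf.stalk p) C.functionField (C.presheaf.germ U p hp a) =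
      toFn U (genericPoint_mem ⟨⟨p, hp⟩⟩) a := by
  haveI : Nonempty U := ⟨⟨p, hp⟩⟩
  exact C.algebraMap_germ_eq_germToFunctionField hp a

/-- A function is regular at a point. -/
def RegularAt (t : C.functionField) (p : C) : Prop :=
  t ∈ Set.range (algebraMap (C.presheaf.stalk p) C.functionField)

lemma regularAt_of_section {U : C.Opens} (s : Γ(C, U)) {p : C} (hp : p ∈ U) :
    RegularAt (toFn U (genericPoint_mem ⟨⟨p, hp⟩⟩) s) p :=
  ⟨C.presheaf.germ U p hp s, algebraMap_germ U p hp s⟩

lemma exists_section_of_regularAt {t : C.functionField} {p : C} (h : RegularAt t p) :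
    ∃ (U : C.Opens) (hp : p ∈ U) (s : Γ(C, U)), toFn U (genericPoint_mem ⟨⟨p, hp⟩⟩) s = t := by
  obtain ⟨a, rfl⟩ := h
  obtain ⟨U, hU, s, rfl⟩ := C.presheaf.exists_germ_eq a
  exact ⟨U, hU, s, (algebraMap_germ U p hU s).symm⟩

/-- The largest open set on which a function is regular. -/
noncomputable def regOpens (t : C.functionField) : C.Opens :=
  ⟨{p | RegularAt t p}, by
    rw [isOpen_iff_forall_mem_open]
    intro p hp
    obtain ⟨U, hpU, s, hs⟩ := exists_section_of_regularAt hp
    exact ⟨U, fun q hq => hs ▸ regularAt_of_section s hq, U.isOpen, hpU⟩⟩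

lemma genericPoint_mem_regOpens (t : C.functionField) : genericPoint C ∈ regOpens t := by
  obtain ⟨U, hU, s, rfl⟩ := C.presheaf.exists_germ_eq t
  exact regularAt_of_section s hU

lemma exists_regSection (t : C.functionField) :
    ∃ s : Γ(C, regOpens t), toFn _ (genericPoint_mem_regOpens t) s = t := by
  classical
  choose U hpU s hs using fun p : regOpens t => exists_section_of_regularAt p.2
  have hle : ∀ p, U p ≤ regOpens t := fun p q hq => hs p ▸ regularAt_of_section (s p) hq
  have hη : ∀ p, genericPoint C ∈ U p := fun p => genericPoint_mem ⟨⟨p.1, hpU p⟩⟩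
  obtain ⟨g, hg, -⟩ := C.sheaf.existsUnique_gluing' U (regOpens t) (fun p => homOfLE (hle p))
    (fun p hp => Opens.mem_iSup.mpr ⟨⟨p, hp⟩, hpU ⟨p, hp⟩⟩) s fun i j => by
      apply toFn_injective (U := U i ⊓ U j) ⟨hη i, hη j⟩
      erw [toFn_res inf_le_left ⟨hη i, hη j⟩, toFn_res inf_le_right ⟨hη i, hη j⟩, hs, hs]
  let p₀ : regOpens t := ⟨_, genericPoint_mem_regOpens t⟩
  refine ⟨g, ?_⟩
  have := toFn_res (hle p₀) (hη p₀) g
  rw [← this, show C.presheaf.map (homOfLE (hle p₀)).op g = s p₀ from hg p₀]
  exact hs p₀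

section Smooth

variable [SmoothOfRelativeDimension 1 c]

instance : LocallyOfFiniteType c :=
  haveI := SmoothOfRelativeDimension.smooth 1 c
  inferInstance

include c in
lemma isDedekindDomain_sections {U : C.Opens} (hU : IsAffineOpen U) [Nonempty U] :
    IsDedekindDomain Γ(C, U) := by
  let _ : Algebra k Γ(C, U) := (baseMap c U).hom.toAlgebra
  haveI : Algebra.FiniteType k Γ(C, U) := finiteType_baseMap c hU
  exact ChartsAlg.isDedekindDomain_of_locally (K := k) (locally_baseMap c hU)

include c in
lemma valuationRing_stalk (p : C) : ValuationRing (C.presheaf.stalk p) := by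
  obtain ⟨_, ⟨U, hU, rfl⟩, hp, -⟩ :=
    C.isBasis_affineOpens.exists_subset_of_mem_open (Set.mem_univ p) isOpen_univ
  haveI : Nonempty U := ⟨⟨p, hp⟩⟩
  haveI := isDedekindDomain_sections c hU
  let _ := TopCat.Presheaf.algebra_section_stalk C.presheaf (⟨p, hp⟩ : U)
  haveI : IsLocalization.AtPrime (C.presheaf.stalk p) (hU.primeIdealOf ⟨p, hp⟩).asIdeal :=
    hU.isLocalization_stalk ⟨p, hp⟩
  by_cases h : (hU.primeIdealOf ⟨p, hp⟩).asIdeal = ⊥
  · have : IsField (C.presheaf.stalk p) := by
      rw [IsLocalRing.isField_iff_maximalIdeal_eq,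
        ← IsLocalization.AtPrime.map_eq_maximalIdeal (hU.primeIdealOf ⟨p, hp⟩).asIdeal,
        h, Ideal.map_bot]
    letI := this.toField
    infer_instance
  · haveI := IsLocalization.AtPrime.isDiscreteValuationRing_of_dedekind_domain Γ(C, U) h
      (C.presheaf.stalk p)
    infer_instance

include c in
lemma regularAt_or_inv (t : C.functionField) (p : C) : RegularAt t p ∨ RegularAt t⁻¹ p := by
  haveI := valuationRing_stalk c p
  exact ValuationRing.isInteger_or_isInteger (C.presheaf.stalk p) t

include c in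
lemma isClosed_singleton {p : C} (hp : p ≠ genericPoint C) : IsClosed ({p} : Set C) := by
  rw [← closure_eq_iff_isClosed]
  refine Set.Subset.antisymm (fun q hq => ?_) subset_closure
  have hs : p ⤳ q := specializes_iff_mem_closure.mpr hq
  obtain ⟨_, ⟨U, hU, rfl⟩, hqU, -⟩ :=
    C.isBasis_affineOpens.exists_subset_of_mem_open (Set.mem_univ q) isOpen_univ
  have hU : IsAffineOpen U := hU
  have hpU : p ∈ U := hs.mem_open U.isOpen hqU
  haveI : Nonempty U := ⟨⟨q, hqU⟩⟩
  haveI := isDedekindDomain_sections c hU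
  let Pp := hU.primeIdealOf ⟨p, hpU⟩
  let Pq := hU.primeIdealOf ⟨q, hqU⟩
  have hfp : hU.fromSpec Pp = p := hU.fromSpec_primeIdealOf ⟨p, hpU⟩
  have hfq : hU.fromSpec Pq = q := hU.fromSpec_primeIdealOf ⟨q, hqU⟩
  have hspec : Pp ⤳ Pq := by
    refine hU.fromSpec.isOpenEmbedding.isInducing.specializes_iff.mp ?_
    rw [hfp, hfq]
    exact hs
  have hle : Pp.asIdeal ≤ Pq.asIdeal := (PrimeSpectrum.le_iff_specializes Pp Pq).mpr hspec
  have hne : Pp.asIdeal ≠ ⊥ := fun h => hp <| by
    have hgen : hU.fromSpec (⊥ : PrimeSpectrum Γ(C, U)) = genericPoint C := by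
      haveI : IsDomain Γ(C, U) := inferInstance
      rw [← genericPoint_eq_bot_of_affine Γ(C, U), genericPoint_eq_of_isOpenImmersion]
    rw [← hgen, ← hfp]
    exact congrArg _ (PrimeSpectrum.ext h)
  have hmax : Pp.asIdeal.IsMaximal := Pp.isPrime.isMaximal hne
  have : Pp = Pq := PrimeSpectrum.ext (hmax.eq_of_le Pq.isPrime.ne_top hle)
  rw [Set.mem_singleton_iff, ← hfp, ← hfq, this]

variable [IsProper c]

include c in
lemma finite_of_isClosed {S : Set C} (hS : IsClosed S) (hη : genericPoint C ∉ S) : S.Finite := by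
  haveI : IsLocallyNoetherian C := LocallyOfFiniteType.isLocallyNoetherian c
  haveI : CompactSpace C := (quasiCompact_iff_compactSpace c).mp inferInstance
  haveI : IsNoetherian C := {}
  obtain ⟨T, hT, hTc, hTi, rfl⟩ := NoetherianSpace.exists_finite_set_isClosed_irreducible hS
  refine hT.sUnion fun Z hZ => ?_
  obtain ⟨z, hz⟩ := QuasiSober.sober (hTi Z hZ) (hTc Z hZ)
  have hzne : z ≠ genericPoint C := fun h => hη ⟨Z, hZ, h ▸ hz.mem⟩
  rw [← hz.def, (isClosed_singleton c hzne).closure_eq]
  exact Set.finite_singleton z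

end Smooth

section Pole

variable [IsAlgClosed k] [SmoothOfRelativeDimension 1 c] [IsProper c]

omit [IsProper c] in
include c in
lemma not_isField_sections {U : C.Opens} (hU : IsAffineOpen U) [Nonempty U] :
    ¬ IsField Γ(C, U) := by
  intro hF
  let _ : Algebra k Γ(C, U) := (baseMap c U).hom.toAlgebra
  haveI : Algebra.FiniteType k Γ(C, U) := finiteType_baseMap c hU
  letI := hF.toField
  haveI : Module.Finite k Γ(C, U) := finite_of_finite_type_of_isJacobsonRing k _
  have hbij : Function.Bijective (algebraMap k Γ(C, U)) :=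
    IsAlgClosed.algebraMap_bijective_of_isIntegral
  obtain ⟨s, hs, hst⟩ := locally_baseMap c hU
  obtain ⟨g, hgs, hg⟩ : ∃ g ∈ s, g ≠ 0 := by
    by_contra! hcon
    have : Ideal.span s = ⊥ := Ideal.span_eq_bot.mpr hcon
    exact top_ne_bot (hs ▸ this)
  have hsm := hst g hgs
  change ((algebraMap Γ(C, U) (Localization.Away g)).comp
    (algebraMap k Γ(C, U))).IsStandardSmoothOfRelativeDimension 1 at hsm
  rw [← IsScalarTower.algebraMap_eq, RingHom.isStandardSmoothOfRelativeDimension_algebraMap] at hsm
  haveI := hsm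
  haveI : Nontrivial (Localization.Away g) := by
    haveI : IsDomain (Localization.Away g) :=
      IsLocalization.isDomain_localization (powers_le_nonZeroDivisors_of_noZeroDivisors hg)
    infer_instance
  obtain ⟨σ, hσ, -⟩ := ChartsAlg.exists_aeval_formallyUnramified (K := k) (R := Localization.Away g)
  obtain ⟨y, hy⟩ := (IsLocalization.atUnits Γ(C, U) (Submonoid.powers g)
    (fun x hx => by
      obtain ⟨n, rfl⟩ := hx
      exact (isUnit_iff_ne_zero.mpr (pow_ne_zero n hg))) (S := Localization.Away g)).surjective σ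
  obtain ⟨r, rfl⟩ := hbij.2 y
  exact hσ r ((IsScalarTower.algebraMap_apply k Γ(C, U) (Localization.Away g) r).trans
    (((AlgEquiv.commutes _ _).symm).trans hy))

omit [IsProper c] in
include c in
/-- There is a function vanishing at a given closed point. -/
lemma exists_pole (e : C) (he : IsClosed ({e} : Set C)) :
    ∃ t : C.functionField, (letI := fnAlgebra c; Transcendental k t) ∧
      RegularAt t e ∧ ¬ RegularAt t⁻¹ e := by
  obtain ⟨_, ⟨U, hU, rfl⟩, heU, -⟩ :=
    C.isBasis_affineOpens.exists_subset_of_mem_open (Set.mem_univ e) isOpen_univ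
  haveI : Nonempty U := ⟨⟨e, heU⟩⟩
  let P := (hU.primeIdealOf ⟨e, heU⟩).asIdeal
  have hPm : P.IsMaximal := hU.primeIdealOf_isMaximal_of_isClosed _ he
  have hP : P ≠ ⊥ := Ring.ne_bot_of_isMaximal_of_not_isField hPm (not_isField_sections c hU)
  obtain ⟨a, haP, ha0⟩ := P.ne_bot_iff.mp hP
  let _ := fnAlgebra c
  set t := toFn U (genericPoint_mem ⟨⟨e, heU⟩⟩) a with ht
  have ht0 : t ≠ 0 := (map_ne_zero_iff _ (toFn_injective _)).mpr ha0
  have hninv : ¬ RegularAt t⁻¹ e := by
    rintro ⟨b, hb⟩
    let _ := TopCat.Presheaf.algebra_section_stalk C.presheaf (⟨e, heU⟩ : U)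
    haveI : IsLocalization.AtPrime (C.presheaf.stalk e) P := hU.isLocalization_stalk ⟨e, heU⟩
    have hm := (IsLocalization.AtPrime.to_map_mem_maximal_iff (C.presheaf.stalk e) P a).mpr haP
    refine (IsLocalRing.mem_maximalIdeal _).mp hm (IsUnit.of_mul_eq_one b ?_)
    apply IsFractionRing.injective (C.presheaf.stalk e) C.functionField
    rw [map_mul, map_one, hb]
    change algebraMap _ C.functionField (C.presheaf.germ U e heU a) * t⁻¹ = 1
    rw [algebraMap_germ, ← ht, mul_inv_cancel₀ ht0]
  refine ⟨t, ChartsAlg.transcendental_of_not_algebraMap t fun r hr => ?_,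
    regularAt_of_section a heU, hninv⟩
  refine hninv ?_
  rw [← hr, ← map_inv₀, ← baseMap_toFn c U (genericPoint_mem ⟨⟨e, heU⟩⟩)]
  exact regularAt_of_section _ heU

end Pole

end FermatLib.AV.ChartsCurve
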