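import Fermat.Agent.AV.Jac.GluePicard
import Fermat.Prelude.Def_AlgebraicGeometry_RepresentsRelSubPic

/-!
Affine test objects for representability of the relative Picard functor over a base ring.
-/

set_option autoImplicit false

universe u

open CategoryTheory CategoryTheory.Limits TopologicalSpace AlgebraicGeometry Opposite
  NeronModelInfra AlgebraicGeometry.RelPicard

noncomputable section

namespace FermatLib.AV.Glue

variable (k : Type u) [CommRing k]

/-- The structure map of the spectrum of a `k`-algebra. -/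
abbrev affStr (S : Type u) [CommRing S] [Algebra k S] :
    Spec (CommRingCat.of S) ⟶ Spec (CommRingCat.of k) :=
  Spec.map (CommRingCat.ofHom (algebraMap k S))

variable {k}

/-- The morphism of spectra of a map of `k`-algebras. -/
def affHom {R S : Type u} [CommRing R] [Algebra k R] [CommRing S] [Algebra k S] (φ : R →ₐ[k] S) :
    SchemeHomOver (affStr k S) (affStr k R) :=
  ⟨Spec.map (CommRingCat.ofHom φ.toRingHom), by
    rw [affStr, ← Spec.map_comp, ← CommRingCat.ofHom_comp, AlgHom.toRingHom_eq_coe,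
      AlgHom.comp_algebraMap]⟩

lemma exists_affHom {R S : Type u} [CommRing R] [Algebra k R] [CommRing S] [Algebra k S]
    (g : SchemeHomOver (affStr k S) (affStr k R)) : ∃ φ : R →ₐ[k] S, g = affHom φ := by
  have h : CommRingCat.ofHom (algebraMap k R) ≫ Spec.preimage g.1 =
      CommRingCat.ofHom (algebraMap k S) := by
    apply Spec.map_injective
    rw [Spec.map_comp, Spec.map_preimage]
    exact g.2
  exact ⟨⟨(Spec.preimage g.1).hom, fun r => congrArg (fun f => f.hom r) h⟩,
    Subtype.ext (Spec.map_preimage g.1).symm⟩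

/-- A `k`-algebra structure from a morphism to `Spec k`. -/
@[instance_reducible] def algebraOfSpecHom {S : Type u} [CommRing S]
    (s : Spec (CommRingCat.of S) ⟶ Spec (CommRingCat.of k)) : Algebra k S :=
  (Spec.preimage s).hom.toAlgebra

lemma affStr_algebraOfSpecHom {S : Type u} [CommRing S]
    (s : Spec (CommRingCat.of S) ⟶ Spec (CommRingCat.of k)) :
    (letI := algebraOfSpecHom s; affStr k S) = s :=
  Spec.map_preimage s

lemma exists_affine_nhd {T : Scheme.{u}} (t : T ⟶ Spec (CommRingCat.of k)) (W : T.Opens) {x : T}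
    (hx : x ∈ W) :
    ∃ (S : Type u) (_ : CommRing S) (_ : Algebra k S) (ψ : SchemeHomOver (affStr k S) t),
      IsOpenImmersion ψ.1 ∧ x ∈ Set.range ψ.1 ∧ Set.range ψ.1 ⊆ (W : Set T) := by
  obtain ⟨_, ⟨V₀, hV, rfl⟩, hxV, hVW⟩ := T.isBasis_affineOpens.exists_subset_of_mem_open hx W.isOpen
  let V : T.Opens := V₀
  let hV : IsAffineOpen V := hV
  let a := algebraOfSpecHom (k := k) (S := Γ(T, V)) (hV.fromSpec ≫ t)
  refine ⟨Γ(T, V), inferInstance, a, ⟨hV.fromSpec, (affStr_algebraOfSpecHom _).symm⟩,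
    inferInstance, ?_, ?_⟩ <;> rw [hV.range_fromSpec]
  exacts [hxV, hVW]

lemma exists_field_point {T : Scheme.{u}} (t : T ⟶ Spec (CommRingCat.of k)) (x : T) :
    ∃ (K : Type u) (_ : Field K) (_ : Algebra k K) (g : SchemeHomOver (affStr k K) t),
      Set.range g.1 = {x} := by
  let a := algebraOfSpecHom (k := k) (S := T.residueField x) (T.fromSpecResidueField x ≫ t)
  exact ⟨T.residueField x, inferInstance, a,
    ⟨T.fromSpecResidueField x, (affStr_algebraOfSpecHom _).symm⟩,
    Scheme.range_fromSpecResidueField x⟩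

variable {C : Scheme.{u}} {c : C ⟶ Spec (CommRingCat.of k)}
  {ε : SchemeHomOver (𝟙 (Spec (CommRingCat.of k))) c}
  {T T' T'' : Scheme.{u}} {t : T ⟶ Spec (CommRingCat.of k)} {t' : T' ⟶ Spec (CommRingCat.of k)}
  {t'' : T'' ⟶ Spec (CommRingCat.of k)}

/-- Isomorphism of underlying sheaves of rigidified bundles. -/
def BunIso (M M' : RigidifiedLineBundle c ε t) : Prop := Nonempty (M.L ≅ M'.L)

lemma BunIso.refl (M : RigidifiedLineBundle c ε t) : BunIso M M := ⟨Iso.refl _⟩

lemma BunIso.symm {M M' : RigidifiedLineBundle c ε t} (h : BunIso M M') : BunIso M' M :=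
  ⟨h.some.symm⟩

lemma BunIso.trans {M M' M'' : RigidifiedLineBundle c ε t} (h : BunIso M M')
    (h' : BunIso M' M'') : BunIso M M'' :=
  ⟨h.some ≪≫ h'.some⟩

lemma BunIso.pull {M M' : RigidifiedLineBundle c ε t} (h : BunIso M M')
    (g : SchemeHomOver t' t) : BunIso (M.pullbackAlong g) (M'.pullbackAlong g) :=
  RigidifiedLineBundle.pullbackAlong_congr g h

lemma bunIso_pull_pull (M : RigidifiedLineBundle c ε t) (g : SchemeHomOver t' t)
    (g' : SchemeHomOver t'' t') (g'' : SchemeHomOver t'' t) (h : g'.1 ≫ g.1 = g''.1) :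
    BunIso ((M.pullbackAlong g).pullbackAlong g') (M.pullbackAlong g'') := by
  refine ⟨(Scheme.Modules.pullbackComp _ _).app M.L ≪≫ (Scheme.Modules.pullbackCongr ?_).app M.L⟩
  rw [baseChangeSnd_comp]
  exact congrArg (baseChangeSnd c) (Subtype.ext h)

lemma bunIso_pull_congr (M : RigidifiedLineBundle c ε t) {g g' : SchemeHomOver t' t}
    (h : g.1 = g'.1) : BunIso (M.pullbackAlong g) (M.pullbackAlong g') := by
  rw [Subtype.ext h]; exact BunIso.refl _

lemma bunIso_pull_id (M : RigidifiedLineBundle c ε t) (g : SchemeHomOver t t) (h : g.1 = 𝟙 T) :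
    BunIso (M.pullbackAlong g) M := by
  refine ⟨(Scheme.Modules.pullbackCongr ?_).app M.L ≪≫ (Scheme.Modules.pullbackId _).app M.L⟩
  rw [show g = ⟨𝟙 T, Category.id_comp t⟩ from Subtype.ext h]
  exact baseChangeSnd_id c t

/-- A family of affine charts of the relative Picard functor cut out by `Q`. All conditions are on
affine test objects. -/
structure ChartFamily (Q : SubPicCondition c ε) : Type (u + 1) where
  ι : Type u
  A : ι → Type u
  [commRing : ∀ i, CommRing (A i)]
  [algebra : ∀ i, Algebra k (A i)]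
  bun : ∀ i, RigidifiedLineBundle c ε (affStr k (A i))
  mem : ∀ i, Q.P (affStr k (A i)) (bun i)
  mono : ∀ i (S : Type u) [CommRing S] [Algebra k S] (φ ψ : A i →ₐ[k] S),
    BunIso ((bun i).pullbackAlong (affHom φ)) ((bun i).pullbackAlong (affHom ψ)) → φ = ψ
  isOpen : ∀ i (S : Type u) [CommRing S] [Algebra k S] (M : RigidifiedLineBundle c ε (affStr k S)),
    Q.P (affStr k S) M → ∃ U : (Spec (CommRingCat.of S)).Opens,
      ∀ (S' : Type u) [CommRing S'] [Algebra k S'] (φ : S →ₐ[k] S'),
        (Set.range (affHom φ).1 ⊆ (U : Set (Spec (CommRingCat.of S)))) ↔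
          ∃ ψ : A i →ₐ[k] S', BunIso ((bun i).pullbackAlong (affHom ψ))
            (M.pullbackAlong (affHom φ))
  covers : ∀ (K : Type u) [Field K] [Algebra k K] (M : RigidifiedLineBundle c ε (affStr k K)),
    Q.P (affStr k K) M → ∃ (i : ι) (ψ : A i →ₐ[k] K),
      BunIso ((bun i).pullbackAlong (affHom ψ)) M

attribute [instance] ChartFamily.commRing ChartFamily.algebra

/-- Membership in `Q` is Zariski local on the base. -/
def IsLocalCondition (Q : SubPicCondition c ε) : Prop :=
  ∀ ⦃T : Scheme.{u}⦄ (t : T ⟶ Spec (CommRingCat.of k)) (M : RigidifiedLineBundle c ε t),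
    (∀ x : T, ∃ (T' : Scheme.{u}) (t' : T' ⟶ Spec (CommRingCat.of k)) (ψ : SchemeHomOver t' t),
      IsOpenImmersion ψ.1 ∧ x ∈ Set.range ψ.1 ∧ Q.P t' (M.pullbackAlong ψ)) →
    Q.P t M

end FermatLib.AV.Glue
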