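import Fermat.Agent.AV.Jac.CriterionBasic

/-!
Extension of affine chart conditions to arbitrary base schemes.
-/

set_option autoImplicit false

universe u

open CategoryTheory CategoryTheory.Limits TopologicalSpace AlgebraicGeometry Opposite
  NeronModelInfra AlgebraicGeometry.RelPicard

noncomputable section

namespace FermatLib.AV.Glue

variable {k : Type u} [CommRing k] {C : Scheme.{u}} {c : C ⟶ Spec (CommRingCat.of k)}
  {ε : SchemeHomOver (𝟙 (Spec (CommRingCat.of k))) c} {Q : SubPicCondition c ε}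
  (F : ChartFamily Q)
  {T T' : Scheme.{u}} {t : T ⟶ Spec (CommRingCat.of k)} {t' : T' ⟶ Spec (CommRingCat.of k)}

namespace ChartFamily

lemma mono_general (i : F.ι) (g g' : SchemeHomOver t (affStr k (F.A i)))
    (h : BunIso ((F.bun i).pullbackAlong g) ((F.bun i).pullbackAlong g')) : g = g' := by
  choose S instS algS ψ hψ hmem _ using fun x : T => exists_affine_nhd t ⊤ (x := x) trivial
  apply Subtype.ext
  refine (Scheme.Cover.mkOfCovers (P := @IsOpenImmersion) T (fun x => Spec (CommRingCat.of (S x)))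
    (fun x => (ψ x).1) (fun x => ⟨x, hmem x⟩) hψ).hom_ext g.1 g'.1 fun x => ?_
  obtain ⟨φ, hφ⟩ := exists_affHom (postComp g (ψ x))
  obtain ⟨φ', hφ'⟩ := exists_affHom (postComp g' (ψ x))
  have e1 : (ψ x).1 ≫ g.1 = (affHom φ).1 := congrArg Subtype.val hφ
  have e2 : (ψ x).1 ≫ g'.1 = (affHom φ').1 := congrArg Subtype.val hφ'
  have := F.mono i (S x) φ φ' ((bunIso_pull_pull _ g (ψ x) (affHom φ) e1).symm.trans
    ((h.pull (ψ x)).trans (bunIso_pull_pull _ g' (ψ x) (affHom φ') e2)))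
  show (ψ x).1 ≫ g.1 = (ψ x).1 ≫ g'.1
  rw [e1, e2, this]

/-- The points at which a bundle comes from the `i`-th chart. -/
def goodSet (i : F.ι) (M : RigidifiedLineBundle c ε t) : Set T :=
  {x | ∃ (K : Type u) (_ : Field K) (_ : Algebra k K) (g : SchemeHomOver (affStr k K) t),
    Set.range g.1 = {x} ∧ ∃ ψ : F.A i →ₐ[k] K,
      BunIso ((F.bun i).pullbackAlong (affHom ψ)) (M.pullbackAlong g)}

lemma exists_openSet_affine (i : F.ι) (M : RigidifiedLineBundle c ε t) (hM : Q.P t M) {S : Type u}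
    [CommRing S] [Algebra k S] (e : SchemeHomOver (affStr k S) t) [IsOpenImmersion e.1] :
    ∃ U : (Spec (CommRingCat.of S)).Opens,
      (U : Set (Spec (CommRingCat.of S))) = e.1 ⁻¹' F.goodSet i M ∧
      ∀ (S' : Type u) [CommRing S'] [Algebra k S'] (φ : S →ₐ[k] S'),
        (Set.range (affHom φ).1 ⊆ (U : Set (Spec (CommRingCat.of S)))) ↔
          ∃ ψ : F.A i →ₐ[k] S', BunIso ((F.bun i).pullbackAlong (affHom ψ))
            (M.pullbackAlong (postComp e (affHom φ))) := by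
  obtain ⟨U, hU⟩ := F.isOpen i S (M.pullbackAlong e) (Q.pullback_mem _ _ _ _ hM)
  have hU' : ∀ (S' : Type u) [CommRing S'] [Algebra k S'] (φ : S →ₐ[k] S'),
      (Set.range (affHom φ).1 ⊆ (U : Set (Spec (CommRingCat.of S)))) ↔
        ∃ ψ : F.A i →ₐ[k] S', BunIso ((F.bun i).pullbackAlong (affHom ψ))
          (M.pullbackAlong (postComp e (affHom φ))) := by
    intro S' _ _ φ
    rw [hU S' φ]
    exact exists_congr fun ψ => ⟨fun h => h.trans (bunIso_pull_pull _ _ _ _ rfl),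
      fun h => h.trans (bunIso_pull_pull _ _ _ _ rfl).symm⟩
  refine ⟨U, Set.ext fun z => ⟨fun hz => ?_, ?_⟩, hU'⟩
  · obtain ⟨K, iK, iA, g, hg⟩ := exists_field_point (affStr k S) z
    obtain ⟨φ, rfl⟩ := exists_affHom g
    obtain ⟨ψ, hψ⟩ := (hU' K φ).1 (by rw [hg]; exact Set.singleton_subset_iff.2 hz)
    refine ⟨K, iK, iA, postComp e (affHom φ), ?_, ψ, hψ⟩
    simp [postComp, Set.range_comp, hg]
  · rintro ⟨K, iK, iA, g, hg, ψ, hψ⟩
    have hr : Set.range g.1 ⊆ Set.range e.1 := by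
      rw [hg]; exact Set.singleton_subset_iff.2 ⟨z, rfl⟩
    obtain ⟨φ, hφ⟩ := exists_affHom (R := S) (S := K) ⟨IsOpenImmersion.lift e.1 g.1 hr,
      (congrArg (_ ≫ ·) e.2.symm).trans ((IsOpenImmersion.lift_fac_assoc e.1 g.1 hr t).trans g.2)⟩
    have hφ1 : (affHom φ).1 ≫ e.1 = g.1 := by
      rw [← hφ]; exact IsOpenImmersion.lift_fac _ _ _
    have h2 := (hU' K φ).2 ⟨ψ, hψ.trans (bunIso_pull_congr M hφ1.symm)⟩
    obtain ⟨w⟩ := (inferInstance : Nonempty (Spec (CommRingCat.of K)))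
    have h3 : g.1 w = e.1 z := by
      have : g.1 w ∈ Set.range g.1 := ⟨w, rfl⟩
      rwa [hg] at this
    rw [← hφ1, Scheme.Hom.comp_apply] at h3
    exact e.1.injective h3 ▸ h2 ⟨w, rfl⟩

lemma isOpen_goodSet (i : F.ι) (M : RigidifiedLineBundle c ε t) (hM : Q.P t M) :
    IsOpen (F.goodSet i M) := by
  refine isOpen_iff_forall_mem_open.2 fun x hx => ?_
  obtain ⟨S, _, _, e, he, ⟨z, rfl⟩, -⟩ := exists_affine_nhd t ⊤ (x := x) trivial
  obtain ⟨U, hU, -⟩ := F.exists_openSet_affine i M hM e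
  refine ⟨e.1 '' U, ?_, e.1.isOpenEmbedding.isOpenMap _ U.isOpen, ⟨z, ?_, rfl⟩⟩
  · rw [hU]; exact Set.image_preimage_subset _ _
  · rw [hU]; exact hx

lemma range_subset_goodSet_iff (hc : ConstCurve c) (i : F.ι) (M : RigidifiedLineBundle c ε t)
    (hM : Q.P t M) (g : SchemeHomOver t' t) :
    Set.range g.1 ⊆ F.goodSet i M ↔ ∃ h : SchemeHomOver t' (affStr k (F.A i)),
      BunIso ((F.bun i).pullbackAlong h) (M.pullbackAlong g) := by
  constructor
  · intro hg
    have key : ∀ z : T', ∃ (S' : Type u) (_ : CommRing S') (_ : Algebra k S')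
        (χ : SchemeHomOver (affStr k S') t') (h : SchemeHomOver (affStr k S') (affStr k (F.A i))),
        IsOpenImmersion χ.1 ∧ z ∈ Set.range χ.1 ∧
          BunIso ((F.bun i).pullbackAlong h) ((M.pullbackAlong g).pullbackAlong χ) := by
      intro z
      obtain ⟨S, _, _, e, he, hze, -⟩ := exists_affine_nhd t ⊤ (x := g.1 z) trivial
      obtain ⟨U, hU, hU'⟩ := F.exists_openSet_affine i M hM e
      obtain ⟨S', _, _, χ, hχ, hzχ, hχW⟩ :=
        exists_affine_nhd t' (g.1 ⁻¹ᵁ e.1.opensRange) (x := z) hze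
      have hr : Set.range (χ.1 ≫ g.1) ⊆ Set.range e.1 := by
        rintro _ ⟨w, rfl⟩; exact hχW ⟨w, rfl⟩
      obtain ⟨φ, hφ⟩ := exists_affHom (R := S) (S := S') ⟨IsOpenImmersion.lift e.1 _ hr,
        (congrArg (_ ≫ ·) e.2.symm).trans ((IsOpenImmersion.lift_fac_assoc e.1 _ hr t).trans
          ((Category.assoc _ _ _).trans ((congrArg (χ.1 ≫ ·) g.2).trans χ.2)))⟩
      have hφ1 : (affHom φ).1 ≫ e.1 = χ.1 ≫ g.1 := by
        rw [← hφ]; exact IsOpenImmersion.lift_fac _ _ _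
      obtain ⟨ψ, hψ⟩ := (hU' S' φ).1 (by
        rw [hU]
        rintro _ ⟨w, rfl⟩
        rw [Set.mem_preimage, ← Scheme.Hom.comp_apply, hφ1]
        exact hg ⟨χ.1 w, rfl⟩)
      exact ⟨S', _, _, χ, affHom ψ, hχ, hzχ,
        hψ.trans (bunIso_pull_pull _ g χ _ hφ1.symm).symm⟩
    choose S' instS algS χ hh hχ hmem hiso using key
    let 𝒰 := Scheme.Cover.mkOfCovers (P := @IsOpenImmersion) T'
      (fun z => Spec (CommRingCat.of (S' z))) (fun z => (χ z).1) (fun z => ⟨z, hmem z⟩) hχ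
    have hcompat : ∀ x y : T', pullback.fst (χ x).1 (χ y).1 ≫ (hh x).1 =
        pullback.snd (χ x).1 (χ y).1 ≫ (hh y).1 := by
      intro x y
      let z := pullback.fst (χ x).1 (χ y).1 ≫ affStr k (S' x)
      let a : SchemeHomOver z (affStr k (S' x)) := ⟨pullback.fst _ _, rfl⟩
      let b : SchemeHomOver z (affStr k (S' y)) := ⟨pullback.snd _ _,
        ((congrArg (_ ≫ ·) (χ y).2.symm).trans (pullback.condition_assoc t').symm).trans
          (congrArg (_ ≫ ·) (χ x).2)⟩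
      let gz : SchemeHomOver z t' := postComp (χ x) a
      exact congrArg Subtype.val (F.mono_general i (postComp (hh x) a) (postComp (hh y) b)
        ((bunIso_pull_pull _ (hh x) a (postComp (hh x) a) rfl).symm.trans
          (((hiso x).pull a).trans ((bunIso_pull_pull _ (χ x) a gz rfl).trans
            (((bunIso_pull_pull _ (χ y) b gz pullback.condition.symm).symm).trans
              (((hiso y).symm.pull b).trans
                (bunIso_pull_pull _ (hh y) b (postComp (hh y) b) rfl)))))))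
    let h₀ : T' ⟶ Spec (CommRingCat.of (F.A i)) :=
      𝒰.glueMorphisms (fun z => (hh z).1) hcompat
    have hι : ∀ z, (χ z).1 ≫ h₀ = (hh z).1 := fun z => 𝒰.ι_glueMorphisms _ _ z
    let h : SchemeHomOver t' (affStr k (F.A i)) := ⟨h₀, by
      apply 𝒰.hom_ext
      intro z
      show (χ z).1 ≫ h₀ ≫ _ = (χ z).1 ≫ t'
      rw [← Category.assoc, hι, (hh z).2, (χ z).2]⟩
    exact ⟨h, nonempty_iso_of_openCover hc χ (fun z => ⟨z, hmem z⟩) _ _ fun z =>
      (bunIso_pull_pull _ h (χ z) (hh z) (hι z)).trans (hiso z)⟩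
  · rintro ⟨h, hiso⟩ _ ⟨z, rfl⟩
    obtain ⟨K, iK, iA, p, hp⟩ := exists_field_point t' z
    obtain ⟨φ, hφ⟩ := exists_affHom (postComp h p)
    refine ⟨K, iK, iA, postComp g p, ?_, φ, ?_⟩
    · simp [postComp, Set.range_comp, hp]
    · rw [← hφ]
      exact ((bunIso_pull_pull _ h p _ rfl).symm.trans (hiso.pull p)).trans
        (bunIso_pull_pull _ g p _ rfl)

lemma exists_mem_goodSet (M : RigidifiedLineBundle c ε t) (hM : Q.P t M) (x : T) :
    ∃ i, x ∈ F.goodSet i M := by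
  obtain ⟨K, iK, iA, g, hg⟩ := exists_field_point t x
  obtain ⟨i, ψ, hψ⟩ := F.covers K (M.pullbackAlong g) (Q.pullback_mem _ _ _ _ hM)
  exact ⟨i, K, iK, iA, g, hg, ψ, hψ⟩

end ChartFamily

end FermatLib.AV.Glue
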