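import Fermat.Agent.AV.Jac.CriterionBasic

/-!
Invertible sheaves up to isomorphism form a small type.
-/

set_option autoImplicit false

universe u

open CategoryTheory CategoryTheory.Limits TopologicalSpace AlgebraicGeometry Opposite
  NeronModelInfra AlgebraicGeometry.RelPicard

noncomputable section

namespace FermatLib.AV.Glue

variable {X : Scheme.{u}}

/-- A section generating `N` freely over `V`. -/
def IsGen (N : X.Modules) (V : X.Opens) (e : Γ(N, V)) : Prop :=
  ∀ (V' : X.Opens) (h : V' ≤ V), Function.Bijective fun a : Γ(X, V') => a • mres N h e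

/-- A generator, when one exists. -/
def genOf (N : X.Modules) (V : X.Opens) : Γ(N, V) :=
  Classical.epsilon (IsGen N V)

/-- Cocycle data of a module: where it is trivial, and the transition functions. -/
def cocycleOf (N : X.Modules) : (X.Opens → Prop) × (∀ V V' : X.Opens, Γ(X, V ⊓ V')) :=
  (fun V => ∃ e, IsGen N V e, fun V V' =>
    Classical.epsilon fun a : Γ(X, V ⊓ V') =>
      mres N inf_le_left (genOf N V) = a • mres N inf_le_right (genOf N V'))

lemma isGen_genOf {N : X.Modules} {V : X.Opens} (h : (cocycleOf N).1 V) :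
    IsGen N V (genOf N V) :=
  Classical.epsilon_spec h

lemma cocycleOf_spec {N : X.Modules} {V V' : X.Opens} (h' : (cocycleOf N).1 V') :
    mres N inf_le_left (genOf N V) =
      (cocycleOf N).2 V V' • mres N (inf_le_right : V ⊓ V' ≤ V') (genOf N V') := by
  obtain ⟨a, ha⟩ := (isGen_genOf h' (V ⊓ V') inf_le_right).2 (mres N inf_le_left (genOf N V))
  exact Classical.epsilon_spec
    (p := fun a : Γ(X, V ⊓ V') => mres N inf_le_left (genOf N V) =
      a • mres N inf_le_right (genOf N V')) ⟨a, ha.symm⟩

lemma nonempty_iso_of_cocycleOf_eq {N N' : X.Modules} (hN : LocFree N ⊤)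
    (h : cocycleOf N = cocycleOf N') : Nonempty (N ≅ N') := by
  have h1 : ∀ V, (cocycleOf N).1 V ↔ (cocycleOf N').1 V := fun V => by rw [h]
  let ι := {V : X.Opens // (cocycleOf N).1 V}
  have hcov : (⊤ : X.Opens) ≤ iSup fun V : ι => V.1 := fun x hx => by
    obtain ⟨V, -, hxV, e, he⟩ := hN x hx
    exact Opens.mem_iSup.2 ⟨⟨V, e, he⟩, hxV⟩
  let a : ∀ V : ι, IsoOn V.1 (𝕆 X) N := fun V =>
    IsoOn.ofBijective (HomOn.ofSection (genOf N V.1)) (isGen_genOf V.2)
  let a' : ∀ V : ι, IsoOn V.1 (𝕆 X) N' := fun V =>
    IsoOn.ofBijective (HomOn.ofSection (genOf N' V.1)) (isGen_genOf ((h1 _).1 V.2))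
  obtain ⟨g, -⟩ := IsoOn.exists_glue (fun V : ι => V.1) hcov (fun V => (a V).symm.trans (a' V))
    fun V V' W hV hV' s => by
      obtain ⟨r, hr⟩ := (isGen_genOf V.2 W hV).2 s
      have hu := cocycleOf_spec (V := V.1) V'.2
      have hu' := cocycleOf_spec (N := N') (V := V.1) ((h1 _).1 V'.2)
      rw [← h] at hu'
      let u : Γ(X, W) := rres X (le_inf hV hV') ((cocycleOf N).2 V.1 V'.1)
      have e1 : mres N hV (genOf N V.1) = u • mres N hV' (genOf N V'.1) := by
        simpa [u] using congrArg (mres N (le_inf hV hV')) hu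
      have e1' : mres N' hV (genOf N' V.1) = u • mres N' hV' (genOf N' V'.1) := by
        simpa [u] using congrArg (mres N' (le_inf hV hV')) hu'
      have hA : (a V).hom.app W hV (show Γ(X, W) from r) = s := hr
      have hB : (a V').hom.app W hV' (show Γ(X, W) from r * u) = s := by
        show (r * u) • mres N hV' (genOf N V'.1) = s
        rw [mul_smul, ← e1]; exact hr
      have l : (a V).inv.app W hV s = (show Γ(X, W) from r) := by rw [← hA, IsoOn.hom_inv_app]
      have l' : (a V').inv.app W hV' s = (show Γ(X, W) from r * u) := by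
        rw [← hB, IsoOn.hom_inv_app]
      show (a' V).hom.app W hV ((a V).inv.app W hV s) =
        (a' V').hom.app W hV' ((a V').inv.app W hV' s)
      rw [l, l']
      show r • mres N' hV (genOf N' V.1) = (r * u) • mres N' hV' (genOf N' V'.1)
      rw [e1', mul_smul]
  exact ⟨g.toIso⟩

variable {k : Type u} [CommRing k] {C : Scheme.{u}} (c : C ⟶ Spec (CommRingCat.of k))
  (ε : SchemeHomOver (𝟙 (Spec (CommRingCat.of k))) c) {T : Scheme.{u}}
  (t : T ⟶ Spec (CommRingCat.of k))

instance small_classes : Small.{u} (RigidifiedLineBundle.Classes c ε t) := by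
  refine small_of_injective (f := fun x : RigidifiedLineBundle.Classes c ε t =>
    cocycleOf (Quotient.out (s := RigidifiedLineBundle.setoid (c := c) (ε := ε) t) x).L) ?_
  intro x y hxy
  let s : Setoid (RigidifiedLineBundle c ε t) := RigidifiedLineBundle.setoid t
  exact (Quotient.out_equiv_out (s := s)).1
    (nonempty_iso_of_cocycleOf_eq (locFree_of_isInvertible (Quotient.out (s := s) x).isInvertible ⊤)
      hxy)

end FermatLib.AV.Glue
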