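import Fermat.Agent.AV.Jac.Bridge
import Fermat.Agent.AV.Jac.Core.Chi
import Fermat.Agent.AV.Jac.CriterionBasic

/-!
The degree zero part of the relative Picard functor of a two-chart curve.
-/

set_option autoImplicit false

universe u

open CategoryTheory CategoryTheory.Limits AlgebraicGeometry NeronModelInfra AlgebraicGeometry.RelPicard
open scoped TensorProduct

noncomputable section

namespace FermatLib.AV

lemma exists_specHom {k R S : Type u} [Field k] [CommRing R] [Algebra k R] [CommRing S]
    [Algebra k S] (g : SchemeHomOver (specStr k S) (specStr k R)) :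
    ∃ φ : R →ₐ[k] S, g = specHom φ := by
  obtain ⟨φ, hφ⟩ := Glue.exists_affHom g
  exact ⟨φ, hφ⟩

namespace CurveCharts

variable {k : Type u} [Field k] {C : Scheme.{u}} {c : C ⟶ Spec (CommRingCat.of k)}
  {ε : SchemeHomOver (𝟙 (Spec (CommRingCat.of k))) c} (P : CurveCharts k c ε)

lemma isom_structBundle_of_iso_unit {R : Type u} [CommRing R] [Algebra k R]
    (B : P.toChartData.Bundle R) (h : Nonempty (P.toModules B ≅
      SheafOfModules.unit (pullback c (specStr k R)).ringCatSheaf)) :
    B.Isom (P.toChartData.structBundle R) := by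
  obtain ⟨e⟩ := h
  obtain ⟨e'⟩ := (P.isTrivial_iff _).1 (P.toChartData.isTrivial_structBundle R)
  exact (P.isom_iff _ _).2 ⟨e ≪≫ e'.symm⟩

/-- The bundles on all field-valued fibres have degree zero. -/
def IsDegZeroRel {T : Scheme.{u}} (t : T ⟶ Spec (CommRingCat.of k))
    (M : RigidifiedLineBundle c ε t) : Prop :=
  ∀ (K : Type u) [Field K] [Algebra k K] (g : SchemeHomOver (specStr k K) t)
    (B : P.toChartData.Bundle K),
    Nonempty (P.toModules B ≅ (Scheme.Modules.pullback (baseChangeSnd c g)).obj M.L) → B.IsDegZero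

/-- The degree zero part of the relative Picard functor. -/
def degZeroCut : SubPicCondition c ε where
  P := fun t M => P.IsDegZeroRel t M
  unit_mem := fun t K _ _ g B h => by
    obtain ⟨e⟩ := h
    exact (P.isom_structBundle_of_iso_unit B ⟨e ≪≫ Scheme.Modules.pullbackUnitIso _⟩).chi_eq
  congr := fun t M M' h hM K _ _ g B hB => by
    obtain ⟨e⟩ := hB
    obtain ⟨e'⟩ := h
    exact hM K g B ⟨e ≪≫ (Scheme.Modules.pullback _).mapIso e'.symm⟩
  pullback_mem := fun t t' ψ M hM K _ _ g B hB => by
    obtain ⟨e⟩ := hB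
    exact hM K (postComp ψ g) B ⟨e ≪≫ (Scheme.Modules.pullbackComp _ _).app M.L ≪≫
      (Scheme.Modules.pullbackCongr (baseChangeSnd_comp c ψ g)).app M.L⟩

/-- A bundle over a field-valued point of an affine base is the base change of the global one. -/
lemma isom_map_of_iso {R K : Type u} [CommRing R] [Algebra k R] [CommRing K] [Algebra k K]
    (B : P.toChartData.Bundle R) (L : (pullback c (specStr k R)).Modules)
    (e : P.toModules B ≅ L) (φ : R →ₐ[k] K) (B' : P.toChartData.Bundle K)
    (e' : P.toModules B' ≅ (Scheme.Modules.pullback (baseChangeSnd c (specHom φ))).obj L) :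
    (B.map φ).Isom B' := by
  obtain ⟨e''⟩ := P.toModules_pullback φ B (B.map φ) (B.mapHom φ) (B.isPullback_map φ)
  exact (P.isom_iff _ _).2 ⟨e''.symm ≪≫ (Scheme.Modules.pullback _).mapIso e ≪≫ e'.symm⟩

lemma map_isDegZero {R : Type u} [CommRing R] [Algebra k R] {B : P.toChartData.Bundle R}
    (hB : B.IsFibrewiseDegZero) (K : Type u) [Field K] [Algebra k K] (φ : R →ₐ[k] K) :
    (B.map φ).IsDegZero := by
  let p : PrimeSpectrum K := ⟨⊥, Ideal.isPrime_bot⟩
  exact (ChartData.Bundle.isDegZero_mapTo_iff (B.map φ) p.asIdeal.ResidueField).1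
    (B.isFibrewiseDegZero_map hB φ p)

/-- On an affine base the degree zero condition is the fibrewise one on the algebraic model. -/
theorem degZeroCut_affine_iff {R : Type u} [CommRing R] [Algebra k R]
    (M : RigidifiedLineBundle c ε (specStr k R)) (B : P.toChartData.Bundle R)
    (h : Nonempty (P.toModules B ≅ M.L)) :
    P.degZeroCut.P (specStr k R) M ↔ B.IsFibrewiseDegZero := by
  obtain ⟨e⟩ := h
  constructor
  · intro hM p
    let φ := IsScalarTower.toAlgHom k R p.asIdeal.ResidueField
    obtain ⟨e'⟩ := P.toModules_pullback φ B (B.map φ) (B.mapHom φ) (B.isPullback_map φ)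
    exact hM _ (specHom φ) (B.map φ) ⟨e'.symm ≪≫ (Scheme.Modules.pullback _).mapIso e⟩
  · intro hB K _ _ g B' hB'
    obtain ⟨φ, rfl⟩ := exists_specHom g
    obtain ⟨e'⟩ := hB'
    exact (P.isom_map_of_iso B M.L e φ B' e').chi_eq.symm.trans (P.map_isDegZero hB K φ)

/-- The degree zero condition is local on the base. -/
theorem isLocalCondition_degZeroCut : Glue.IsLocalCondition P.degZeroCut := by
  intro T t M h K _ _ g B hB
  let x : T := g.1 (IsLocalRing.closedPoint K)
  obtain ⟨T', t', ψ, hψ, hx, hM⟩ := h x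
  have hr : Set.range g.1 ⊆ Set.range ψ.1 := by
    rintro _ ⟨z, rfl⟩
    rw [show z = IsLocalRing.closedPoint K from Subsingleton.elim (α := PrimeSpectrum K) _ _]
    exact hx
  let l := IsOpenImmersion.lift ψ.1 g.1 hr
  have hl : l ≫ ψ.1 = g.1 := IsOpenImmersion.lift_fac _ _ _
  let g' : SchemeHomOver (specStr k K) t' :=
    ⟨l, by rw [← ψ.2, reassoc_of% hl]; exact g.2⟩
  obtain ⟨e⟩ := hB
  refine hM K g' B ⟨e ≪≫ ?_⟩
  exact (Scheme.Modules.pullbackCongr (by
      rw [baseChangeSnd_comp]; exact congrArg (baseChangeSnd c) (Subtype.ext hl.symm))).app M.L ≪≫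
    ((Scheme.Modules.pullbackComp _ _).app M.L).symm

end CurveCharts

end FermatLib.AV
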