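import Fermat.Agent.AV.Jac.DegreeCut
import Fermat.Prelude.Def_AlgebraicGeometry_RelPicardAlgEquivZeroCut

/-!
Algebraic equivalence to zero implies degree zero.
-/

set_option autoImplicit false
set_option linter.style.haveILetI false

universe u

open CategoryTheory CategoryTheory.Limits AlgebraicGeometry NeronModelInfra AlgebraicGeometry.RelPicard
open scoped TensorProduct

noncomputable section

namespace FermatLib.AV

namespace ChartData.Bundle

variable {k : Type u} [Field k] {D : ChartData k} {R : Type u} [CommRing R] [Algebra k R]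

/-- The characteristic of a field-valued fibre only depends on the point. -/
theorem chi_map_eq (B : D.Bundle R) (L : Type u) [Field L] [Algebra k L] (φ : R →ₐ[k] L)
    (p : PrimeSpectrum R) (hp : RingHom.ker φ.toRingHom = p.asIdeal) :
    (B.map φ).chi = (B.mapTo p.asIdeal.ResidueField).chi := by
  have h1 : p.asIdeal ≤ RingHom.ker φ := hp.ge
  have h2 : p.asIdeal.primeCompl ≤ (IsUnit.submonoid L).comap φ := fun a ha =>
    isUnit_iff_ne_zero.2 fun h => ha (hp ▸ h)
  let ψ := Ideal.ResidueField.liftₐ p.asIdeal φ h1 h2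
  let _ : Algebra p.asIdeal.ResidueField L := ψ.toRingHom.toAlgebra
  haveI : IsScalarTower k p.asIdeal.ResidueField L :=
    IsScalarTower.of_algebraMap_eq fun r => (ψ.commutes r).symm
  have hψ : IsScalarTower.toAlgHom k p.asIdeal.ResidueField L = ψ := AlgHom.ext fun _ => rfl
  have hφ : ψ.comp (IsScalarTower.toAlgHom k R p.asIdeal.ResidueField) = φ :=
    AlgHom.ext fun r => Ideal.ResidueField.liftₐ_algebraMap _ _ h1 h2 r
  have h := (B.mapTo p.asIdeal.ResidueField).chi_mapTo L
  rw [← h]
  unfold mapTo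
  rw [hψ]
  exact ((B.isom_map_map _ ψ).trans (hφ ▸ Isom.refl _)).chi_eq.symm

end ChartData.Bundle

namespace CurveCharts

variable {k : Type u} [Field k] {C : Scheme.{u}} {c : C ⟶ Spec (CommRingCat.of k)}
  {ε : SchemeHomOver (𝟙 (Spec (CommRingCat.of k))) c} (P : CurveCharts k c ε)

/-- The sheaf of the bundle is trivial along the marked section. -/
def IsRigidified {R : Type u} [CommRing R] [Algebra k R] (B : P.toChartData.Bundle R) : Prop :=
  Nonempty ((Scheme.Modules.pullback (rigSection c (specStr k R) ε)).obj (P.toModules B) ≅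
    SheafOfModules.unit (Spec (CommRingCat.of R)).ringCatSheaf)

/-- The fibre of a sheaf at a field-valued point. -/
abbrev fibreModules {T : Scheme.{u}} {t : T ⟶ Spec (CommRingCat.of k)}
    (N : (pullback c t).Modules) {L : Type u} [CommRing L] [Algebra k L]
    (g : SchemeHomOver (specStr k L) t) : (pullback c (specStr k L)).Modules :=
  (Scheme.Modules.pullback (baseChangeSnd c g)).obj N

include P in
/-- The characteristic of the fibres of an invertible sheaf is a locally constant function. -/
theorem exists_locallyConstant_chi {T : Scheme.{u}} (t : T ⟶ Spec (CommRingCat.of k))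
    (N : (pullback c t).Modules) (hN : Scheme.Modules.IsInvertible N) :
    ∃ f : T → ℤ, IsLocallyConstant f ∧
      ∀ (L : Type u) [Field L] [Algebra k L] (g : SchemeHomOver (specStr k L) t)
        (B : P.toChartData.Bundle L), Nonempty (P.toModules B ≅ fibreModules N g) →
          B.chi = f (g.1 (IsLocalRing.closedPoint L)) := by
  choose K hK hKalg gK hgK using fun x : T => Glue.exists_field_point t x
  have hmod : ∀ x, ∃ B : P.toChartData.Bundle (K x),
      Nonempty (P.toModules B ≅ fibreModules (L := K x) N (gK x)) :=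
    fun x => P.exists_bundle _ (hN.pullback _)
  choose BK hBK using hmod
  -- comparison on an affine chart
  have key : ∀ (R : Type u) [CommRing R] [Algebra k R] (ψ : SchemeHomOver (specStr k R) t)
      (_ : IsOpenImmersion ψ.1) (BR : P.toChartData.Bundle R)
      (_ : P.toModules BR ≅ fibreModules N ψ) (L : Type u) [Field L] [Algebra k L]
      (g : SchemeHomOver (specStr k L) t) (B : P.toChartData.Bundle L),
      Nonempty (P.toModules B ≅ fibreModules N g) → ∀ p : PrimeSpectrum R,
        g.1 (IsLocalRing.closedPoint L) = ψ.1 p →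
          B.chi = (BR.mapTo p.asIdeal.ResidueField).chi := by
    intro R _ _ ψ hψ BR eR L _ _ g B hB p hp
    have hr : Set.range g.1 ⊆ Set.range ψ.1 := by
      rintro _ ⟨z, rfl⟩
      rw [show z = IsLocalRing.closedPoint L from Subsingleton.elim (α := PrimeSpectrum L) _ _, hp]
      exact ⟨p, rfl⟩
    let l := IsOpenImmersion.lift ψ.1 g.1 hr
    have hl : l ≫ ψ.1 = g.1 := IsOpenImmersion.lift_fac _ _ _
    let g' : SchemeHomOver (specStr k L) (specStr k R) :=
      ⟨l, by rw [← ψ.2, reassoc_of% hl]; exact g.2⟩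
    obtain ⟨φ, hφ⟩ := exists_specHom g'
    obtain ⟨e⟩ := hB
    have e' : P.toModules B ≅
        (Scheme.Modules.pullback (baseChangeSnd c (specHom φ))).obj (fibreModules N ψ) :=
      e ≪≫ (Scheme.Modules.pullbackCongr (by
        rw [baseChangeSnd_comp, ← hφ]; exact congrArg (baseChangeSnd c) (Subtype.ext hl.symm))).app N
        ≪≫ ((Scheme.Modules.pullbackComp _ _).app N).symm
    have hker : RingHom.ker φ.toRingHom = p.asIdeal := by
      have h1 : ψ.1 ((specHom φ).1 (IsLocalRing.closedPoint L)) = ψ.1 p := by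
        rw [← hφ, ← hp, ← hl]; rfl
      have h2 : PrimeSpectrum.comap φ.toRingHom (IsLocalRing.closedPoint L) = p :=
        hψ.base_open.injective h1
      rw [← h2, PrimeSpectrum.comap_asIdeal, RingHom.ker]
      congr 1
      exact (IsLocalRing.maximalIdeal_eq_bot (R := L)).symm
    exact (P.isom_map_of_iso BR _ eR φ B e').chi_eq.symm.trans (BR.chi_map_eq L φ p hker)
  refine ⟨fun x => (BK x).chi, ?_, fun L _ _ g B hB => ?_⟩
  · rw [IsLocallyConstant.iff_exists_open]
    intro x
    obtain ⟨R, _, _, ψ, hψ, ⟨q, hq⟩, -⟩ := Glue.exists_affine_nhd t ⊤ (x := x) trivial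
    obtain ⟨BR, ⟨eR⟩⟩ := P.exists_bundle (fibreModules N ψ) (hN.pullback _)
    have hval : ∀ p : PrimeSpectrum R,
        (BK (ψ.1 p)).chi = (BR.mapTo p.asIdeal.ResidueField).chi := fun p =>
      key R ψ hψ BR eR (K (ψ.1 p)) (gK (ψ.1 p)) (BK (ψ.1 p)) (hBK (ψ.1 p)) p
        (by
          have : (gK (ψ.1 p)).1 (IsLocalRing.closedPoint (K (ψ.1 p))) ∈ Set.range (gK (ψ.1 p)).1 :=
            ⟨_, rfl⟩
          rw [hgK] at this
          exact this)
    obtain ⟨W, hW, hqW, hWc⟩ := (BR.isLocallyConstant_chi).exists_open q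
    refine ⟨ψ.1 '' W, hψ.base_open.isOpenMap _ hW, ⟨q, hqW, hq⟩, ?_⟩
    rintro _ ⟨p, hp, rfl⟩
    rw [← hq, hval p, hval q]
    exact hWc p hp
  · set y := g.1 (IsLocalRing.closedPoint L) with hy
    obtain ⟨R, _, _, ψ, hψ, ⟨q, hq⟩, -⟩ := Glue.exists_affine_nhd t ⊤ (x := y) trivial
    obtain ⟨BR, ⟨eR⟩⟩ := P.exists_bundle (fibreModules N ψ) (hN.pullback _)
    rw [key R ψ hψ BR eR L g B hB q hq.symm]
    refine (key R ψ hψ BR eR (K y) (gK y) (BK y) (hBK y) q ?_).symm
    have : (gK y).1 (IsLocalRing.closedPoint (K y)) ∈ Set.range (gK y).1 := ⟨_, rfl⟩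
    rw [hgK] at this
    exact this.trans hq.symm

include P in
/-- A bundle which is algebraically equivalent to zero has degree zero. -/
theorem isDegZero_of_isAlgEquivZero {K : Type u} [Field K] [Algebra k K]
    (B : P.toChartData.Bundle K)
    (h : IsAlgEquivZero (pullback.snd c (specStr k K)) (P.toModules B)) : B.IsDegZero := by
  obtain ⟨T', h', _, hgi, N, hN, t₀, t₁, ⟨e₀⟩, ⟨e₁⟩⟩ := h
  haveI := hgi
  haveI : Subsingleton (Spec (CommRingCat.of K)) := inferInstanceAs (Subsingleton (PrimeSpectrum K))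
  haveI : IsIntegral T' := GeometricallyIntegral.isIntegral_of_subsingleton h'
  let τ := h' ≫ specStr k K
  let gh : SchemeHomOver τ (specStr k K) := ⟨h', rfl⟩
  let m : pullback c τ ⟶ pullback (pullback.snd c (specStr k K)) h' :=
    pullback.lift (baseChangeSnd c gh) (pullback.snd c τ) (by
      simp only [baseChangeSnd, pullback.lift_snd]; rfl)
  obtain ⟨f, hf, hval⟩ := P.exists_locallyConstant_chi τ _ (hN.pullback m)
  let n : pullback c (specStr k K) ⟶
      pullback (pullback.snd c (specStr k K)) (𝟙 (Spec (CommRingCat.of K))) :=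
    pullback.lift (𝟙 _) (pullback.snd c (specStr k K)) (by simp)
  have hcomp : ∀ tt : SchemeHomOver (𝟙 (Spec (CommRingCat.of K))) h',
      baseChangeSnd c (⟨tt.1, by rw [← Category.assoc, tt.2, Category.id_comp]⟩ :
        SchemeHomOver (specStr k K) τ) ≫ m =
      n ≫ baseChangeSnd (pullback.snd c (specStr k K)) tt := by
    intro tt
    apply pullback.hom_ext
    · simp only [Category.assoc, m, n, pullback.lift_fst]
      rw [baseChangeSnd_comp]
      refine (congrArg (baseChangeSnd c) (Subtype.ext (tt.2 : tt.1 ≫ h' = 𝟙 _) :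
        _ = (⟨𝟙 _, Category.id_comp _⟩ : SchemeHomOver (specStr k K) (specStr k K)))).trans ?_
      rw [baseChangeSnd_id]
      simp only [baseChangeSnd, pullback.lift_fst, Category.comp_id]
    · simp only [baseChangeSnd, Category.assoc, m, n, pullback.lift_snd, pullback.lift_snd_assoc]
  -- the two members
  let g₀ : SchemeHomOver (specStr k K) τ :=
    ⟨t₀.1, by rw [← Category.assoc, t₀.2, Category.id_comp]⟩
  let g₁ : SchemeHomOver (specStr k K) τ :=
    ⟨t₁.1, by rw [← Category.assoc, t₁.2, Category.id_comp]⟩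
  have hn : n ≫ pullback.fst _ _ = 𝟙 _ := pullback.lift_fst _ _ _
  let E₁ : fibreModules ((Scheme.Modules.pullback m).obj N) g₁ ≅ P.toModules B :=
    (Scheme.Modules.pullbackComp _ _).app N ≪≫ (Scheme.Modules.pullbackCongr (hcomp t₁)).app N ≪≫
      ((Scheme.Modules.pullbackComp _ _).app N).symm ≪≫
      (Scheme.Modules.pullback n).mapIso e₁ ≪≫ (Scheme.Modules.pullbackComp _ _).app _ ≪≫
      (Scheme.Modules.pullbackCongr hn).app _ ≪≫ (Scheme.Modules.pullbackId _).app _
  let E₀ : fibreModules ((Scheme.Modules.pullback m).obj N) g₀ ≅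
      SheafOfModules.unit (pullback c (specStr k K)).ringCatSheaf :=
    (Scheme.Modules.pullbackComp _ _).app N ≪≫ (Scheme.Modules.pullbackCongr (hcomp t₀)).app N ≪≫
      ((Scheme.Modules.pullbackComp _ _).app N).symm ≪≫
      (Scheme.Modules.pullback n).mapIso e₀ ≪≫ Scheme.Modules.pullbackUnitIso n
  obtain ⟨B₀, ⟨eB₀⟩⟩ := P.exists_bundle (fibreModules ((Scheme.Modules.pullback m).obj N) g₀)
    ((hN.pullback m).pullback _)
  have h0 := hval K g₀ B₀ ⟨eB₀⟩
  have h1 := hval K g₁ B ⟨E₁.symm⟩
  rw [hf.apply_eq_of_preconnectedSpace (g₁.1 (IsLocalRing.closedPoint K))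
    (g₀.1 (IsLocalRing.closedPoint K)), ← h0] at h1
  exact h1.trans (P.isom_structBundle_of_iso_unit B₀ ⟨eB₀ ≪≫ E₀⟩).chi_eq

include P in
/-- Families algebraically equivalent to zero on every geometric fibre have degree zero. -/
theorem isDegZeroRel_of_fibrewiseAlgEquivZero {T : Scheme.{u}} {t : T ⟶ Spec (CommRingCat.of k)}
    (M : RigidifiedLineBundle c ε t) (hM : FibrewiseAlgEquivZero M) : P.IsDegZeroRel t M := by
  intro K _ _ g B hB
  let L := AlgebraicClosure K
  let φ := IsScalarTower.toAlgHom k K L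
  rw [← B.isDegZero_mapTo_iff L]
  let gL : SchemeHomOver (specStr k L) t := postComp g (specHom φ)
  let e : pullback c (specStr k L) ⟶ pullback (pullback.snd c t) gL.1 :=
    pullback.lift (baseChangeSnd c gL) (pullback.snd c (specStr k L))
      (by simp only [baseChangeSnd, pullback.lift_snd])
  have he : e ≫ fibreAt c t gL.1 = pullback.snd c (specStr k L) := pullback.lift_snd _ _ _
  have hfst : e ≫ pullback.fst (pullback.snd c t) gL.1 = baseChangeSnd c gL :=
    pullback.lift_fst _ _ _
  obtain ⟨eB⟩ := hB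
  obtain ⟨ep⟩ := P.toModules_pullback φ B (B.map φ) (B.mapHom φ) (B.isPullback_map φ)
  refine P.isDegZero_of_isAlgEquivZero _ (IsAlgEquivZero.of_iso ?_ ((hM L gL.1).pullback e he))
  exact (Scheme.Modules.pullbackComp _ _).app M.L ≪≫
    (Scheme.Modules.pullbackCongr (hfst.trans (baseChangeSnd_comp c g (specHom φ)).symm)).app M.L ≪≫
    ((Scheme.Modules.pullbackComp _ _).app M.L).symm ≪≫
    (Scheme.Modules.pullback _).mapIso eB.symm ≪≫ ep

/-- The algebraic equivalence cut is inside the degree zero cut. -/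
theorem degZeroCut_of_algEquivZeroCut {T : Scheme.{u}} {t : T ⟶ Spec (CommRingCat.of k)}
    (M : RigidifiedLineBundle c ε t) (hM : (algEquivZeroCut c ε).P t M) : P.degZeroCut.P t M :=
  P.isDegZeroRel_of_fibrewiseAlgEquivZero M hM

include P in
/-- The two cuts agree as soon as degree zero bundles on geometric fibres are algebraically
equivalent to zero. -/
theorem algEquivZeroCut_iff_degZeroCut
    (hgeo : ∀ (K : Type u) [Field K] [IsAlgClosed K] [Algebra k K] (B : P.toChartData.Bundle K),
      B.IsDegZero → IsRigidified P B → IsAlgEquivZero (pullback.snd c (specStr k K)) (P.toModules B))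
    {T : Scheme.{u}} {t : T ⟶ Spec (CommRingCat.of k)} (M : RigidifiedLineBundle c ε t) :
    (algEquivZeroCut c ε).P t M ↔ P.degZeroCut.P t M := by
  refine ⟨P.degZeroCut_of_algEquivZeroCut M, fun hM K _ _ s => ?_⟩
  let alg : Algebra k K := (Spec.preimage (s ≫ t)).hom.toAlgebra
  have hs : specStr k K = s ≫ t := Spec.map_preimage _
  let g : SchemeHomOver (specStr k K) t := ⟨s, hs.symm⟩
  obtain ⟨B, ⟨eB⟩⟩ := P.exists_bundle (fibreModules M.L g) (M.isInvertible.pullback _)
  have hrig : IsRigidified P B := ⟨(Scheme.Modules.pullback _).mapIso eB ≪≫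
    (M.pullbackAlong g).rigidified.some⟩
  let e : pullback (pullback.snd c t) s ⟶ pullback c (specStr k K) :=
    pullback.lift (pullback.fst _ _ ≫ pullback.fst c t) (pullback.snd _ _) (by
      rw [Category.assoc, pullback.condition, hs, ← Category.assoc, pullback.condition,
        Category.assoc])
  have he : e ≫ pullback.snd c (specStr k K) = fibreAt c t s := pullback.lift_snd _ _ _
  have hfst : e ≫ baseChangeSnd c g = pullback.fst (pullback.snd c t) s := by
    apply pullback.hom_ext
    · simp only [e, baseChangeSnd, Category.assoc, pullback.lift_fst,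
        Category.comp_id]
    · simp only [e, baseChangeSnd, Category.assoc, pullback.lift_snd, pullback.lift_snd_assoc]
      exact pullback.condition.symm
  refine IsAlgEquivZero.of_iso ?_ ((hgeo K B (hM K g B ⟨eB⟩) hrig).pullback e he)
  exact (Scheme.Modules.pullback e).mapIso eB ≪≫ (Scheme.Modules.pullbackComp _ _).app M.L ≪≫
    (Scheme.Modules.pullbackCongr hfst).app M.L

end CurveCharts

end FermatLib.AV
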