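import Mathlib
import Fermat.Prelude.Def_AlgebraicGeometry_RelativePicardFunctor

/-!
Sections of sheaves of modules on a scheme: restriction maps, locality and gluing, and
morphisms of modules defined only below a given open subset.
-/

set_option autoImplicit false

universe u

open CategoryTheory TopologicalSpace AlgebraicGeometry Opposite

noncomputable section

namespace FermatLib.AV.Glue

variable {X : Scheme.{u}}

/-- Restriction of sections of a sheaf of modules. -/
def mres (N : X.Modules) {U V : X.Opens} (h : V ≤ U) : Γ(N, U) →+ Γ(N, V) :=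
  (N.presheaf.map (homOfLE h).op).hom

/-- Restriction of functions. -/
def rres (X : Scheme.{u}) {U V : X.Opens} (h : V ≤ U) : Γ(X, U) →+* Γ(X, V) :=
  (X.presheaf.map (homOfLE h).op).hom

@[simp] lemma mres_mres (N : X.Modules) {U V W : X.Opens} (h : V ≤ U) (h' : W ≤ V) (s : Γ(N, U)) :
    mres N h' (mres N h s) = mres N (h'.trans h) s := by
  show (N.presheaf.map _ ≫ N.presheaf.map _) s = _
  rw [← N.presheaf.map_comp]; rfl

@[simp] lemma mres_self (N : X.Modules) {U : X.Opens} (h : U ≤ U) (s : Γ(N, U)) :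
    mres N h s = s := by
  show N.presheaf.map (𝟙 (op U)) s = s
  rw [N.presheaf.map_id]; rfl

@[simp] lemma rres_rres {U V W : X.Opens} (h : V ≤ U) (h' : W ≤ V) (a : Γ(X, U)) :
    rres X h' (rres X h a) = rres X (h'.trans h) a := by
  show (X.presheaf.map _ ≫ X.presheaf.map _) a = _
  rw [← X.presheaf.map_comp]; rfl

@[simp] lemma rres_self {U : X.Opens} (h : U ≤ U) (a : Γ(X, U)) : rres X h a = a := by
  show X.presheaf.map (𝟙 (op U)) a = a
  rw [X.presheaf.map_id]; rfl

@[simp] lemma mres_smul (N : X.Modules) {U V : X.Opens} (h : V ≤ U) (a : Γ(X, U)) (s : Γ(N, U)) :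
    mres N h (a • s) = rres X h a • mres N h s :=
  Scheme.Modules.map_smul N (homOfLE h) a s

/-- Sections agreeing on an open cover are equal. -/
lemma eq_of_cover (N : X.Modules) {ι : Type u} (W : ι → X.Opens) {V : X.Opens}
    (hV : V ≤ iSup W) {s t : Γ(N, V)}
    (h : ∀ i, mres N (inf_le_left : V ⊓ W i ≤ V) s = mres N inf_le_left t) : s = t :=
  TopCat.Sheaf.eq_of_locally_eq' ⟨N.presheaf, N.isSheaf⟩ (fun i => V ⊓ W i) V
    (fun i => homOfLE inf_le_left) (by rw [← inf_iSup_eq]; exact le_inf le_rfl hV) s t h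

/-- Sections agreeing near every point are equal. -/
lemma eq_of_forall_nhds (N : X.Modules) {V : X.Opens} {s t : Γ(N, V)}
    (h : ∀ x ∈ V, ∃ (W : X.Opens) (hW : W ≤ V), x ∈ W ∧ mres N hW s = mres N hW t) : s = t := by
  choose W hW hx he using h
  refine eq_of_cover N (ι := V) (fun x => W x.1 x.2) ?_ fun x => ?_
  · intro y hy; exact Opens.mem_iSup.2 ⟨⟨y, hy⟩, hx y hy⟩
  · have := congrArg (mres N (inf_le_right : V ⊓ W x.1 x.2 ≤ _)) (he x.1 x.2)
    simpa using this

/-- Functions agreeing near every point are equal. -/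
lemma req_of_forall_nhds {V : X.Opens} {s t : Γ(X, V)}
    (h : ∀ x ∈ V, ∃ (W : X.Opens) (hW : W ≤ V), x ∈ W ∧ rres X hW s = rres X hW t) : s = t := by
  choose W hW hx he using h
  refine TopCat.Sheaf.eq_of_locally_eq' X.sheaf (fun x : V => W x.1 x.2) V
    (fun x => homOfLE (hW x.1 x.2)) ?_ s t fun x => he x.1 x.2
  intro y hy; exact Opens.mem_iSup.2 ⟨⟨y, hy⟩, hx y hy⟩

/-- Gluing of sections. -/
lemma exists_glue (N : X.Modules) {ι : Type u} (U : ι → X.Opens) {V : X.Opens}
    (hU : ∀ i, U i ≤ V) (hV : V ≤ iSup U) (s : ∀ i, Γ(N, U i))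
    (hs : ∀ i j, mres N (inf_le_left : U i ⊓ U j ≤ U i) (s i) = mres N inf_le_right (s j)) :
    ∃ t : Γ(N, V), ∀ i, mres N (hU i) t = s i :=
  (TopCat.Sheaf.existsUnique_gluing' ⟨N.presheaf, N.isSheaf⟩ U V (fun i => homOfLE (hU i)) hV s
    hs).exists

/-- Gluing of functions. -/
lemma exists_rglue {ι : Type u} (U : ι → X.Opens) {V : X.Opens}
    (hU : ∀ i, U i ≤ V) (hV : V ≤ iSup U) (s : ∀ i, Γ(X, U i))
    (hs : ∀ i j, rres X (inf_le_left : U i ⊓ U j ≤ U i) (s i) = rres X inf_le_right (s j)) :
    ∃ t : Γ(X, V), ∀ i, rres X (hU i) t = s i :=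
  (TopCat.Sheaf.existsUnique_gluing' X.sheaf U V (fun i => homOfLE (hU i)) hV s hs).exists

/-- A morphism of modules defined on the opens contained in `W`. -/
structure HomOn (W : X.Opens) (N N' : X.Modules) : Type u where
  app : ∀ V : X.Opens, V ≤ W → (Γ(N, V) →+ Γ(N', V))
  app_smul : ∀ (V : X.Opens) (hV : V ≤ W) (a : Γ(X, V)) (s : Γ(N, V)),
    app V hV (a • s) = a • app V hV s
  app_res : ∀ (U V : X.Opens) (hU : U ≤ W) (h : V ≤ U) (s : Γ(N, U)),
    mres N' h (app U hU s) = app V (h.trans hU) (mres N h s)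

namespace HomOn

variable {W W' : X.Opens} {N N' N'' : X.Modules}

attribute [simp] app_smul

@[ext] lemma ext' {f g : HomOn W N N'}
    (h : ∀ (V : X.Opens) (hV : V ≤ W) (s : Γ(N, V)), f.app V hV s = g.app V hV s) : f = g := by
  cases f; cases g; congr
  funext V hV
  exact AddMonoidHom.ext (h V hV)

/-- The identity. -/
def id (W : X.Opens) (N : X.Modules) : HomOn W N N where
  app _ _ := AddMonoidHom.id _
  app_smul _ _ _ _ := rfl
  app_res _ _ _ _ _ := rfl

@[simp] lemma id_app (V : X.Opens) (hV : V ≤ W) (s : Γ(N, V)) : (id W N).app V hV s = s := rfl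

/-- Composition, in diagrammatic order. -/
def comp (f : HomOn W N N') (g : HomOn W N' N'') : HomOn W N N'' where
  app V hV := (g.app V hV).comp (f.app V hV)
  app_smul V hV a s := by simp
  app_res U V hU h s := by
    simp only [AddMonoidHom.comp_apply, g.app_res U V hU h, f.app_res U V hU h]

@[simp] lemma comp_app (f : HomOn W N N') (g : HomOn W N' N'') (V : X.Opens) (hV : V ≤ W)
    (s : Γ(N, V)) : (f.comp g).app V hV s = g.app V hV (f.app V hV s) := rfl

/-- Restriction to a smaller open. -/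
def restrict (f : HomOn W N N') (h : W' ≤ W) : HomOn W' N N' where
  app V hV := f.app V (hV.trans h)
  app_smul V hV a s := f.app_smul V _ a s
  app_res U V hU h' s := f.app_res U V _ h' s

@[simp] lemma restrict_app (f : HomOn W N N') (h : W' ≤ W) (V : X.Opens) (hV : V ≤ W')
    (s : Γ(N, V)) : (f.restrict h).app V hV s = f.app V (hV.trans h) s := rfl

/-- The restriction of a morphism of modules. -/
def ofHom (φ : N ⟶ N') (W : X.Opens) : HomOn W N N' where
  app V _ := (φ.app V).hom
  app_smul V _ a s := φ.app_smul a s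
  app_res U V _ h s := by
    have := φ.mapPresheaf.naturality (homOfLE h).op
    exact (ConcreteCategory.congr_hom this s).symm

@[simp] lemma ofHom_app (φ : N ⟶ N') (V : X.Opens) (hV : V ≤ W) (s : Γ(N, V)) :
    (ofHom φ W).app V hV s = φ.app V s := rfl

/-- A morphism defined on all opens is a morphism of modules. -/
def toHom (f : HomOn ⊤ N N') : N ⟶ N' :=
  ⟨PresheafOfModules.homMk
    { app := fun V => AddCommGrpCat.ofHom (f.app V.unop le_top)
      naturality := fun {U V} g => by
        ext s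
        exact (f.app_res U.unop V.unop le_top (leOfHom g.unop) s).symm }
    (fun V a s => f.app_smul V.unop le_top a s)⟩

@[simp] lemma toHom_app (f : HomOn ⊤ N N') (V : X.Opens) (s : Γ(N, V)) :
    (toHom f).app V s = f.app V le_top s := rfl

/-- Morphisms on `W` agreeing on an open cover of `W` are equal. -/
lemma eq_of_cover {ι : Type u} (U : ι → X.Opens) (hW : W ≤ iSup U) {f g : HomOn W N N'}
    (h : ∀ i (V : X.Opens) (hV : V ≤ W), V ≤ U i → ∀ s : Γ(N, V), f.app V hV s = g.app V hV s) :
    f = g := by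
  ext V hV s
  refine Glue.eq_of_cover N' U (hV.trans hW) fun i => ?_
  rw [f.app_res V _ hV inf_le_left, g.app_res V _ hV inf_le_left, h i _ _ inf_le_right]

end HomOn

/-- An isomorphism of modules defined on the opens contained in `W`. -/
structure IsoOn (W : X.Opens) (N N' : X.Modules) : Type u where
  hom : HomOn W N N'
  inv : HomOn W N' N
  hom_inv_id : hom.comp inv = HomOn.id W N
  inv_hom_id : inv.comp hom = HomOn.id W N'

namespace IsoOn

variable {W W' : X.Opens} {N N' N'' : X.Modules}

@[simp] lemma hom_inv_app (e : IsoOn W N N') (V : X.Opens) (hV : V ≤ W) (s : Γ(N, V)) :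
    e.inv.app V hV (e.hom.app V hV s) = s :=
  congrArg (fun f : HomOn W N N => f.app V hV s) e.hom_inv_id

@[simp] lemma inv_hom_app (e : IsoOn W N N') (V : X.Opens) (hV : V ≤ W) (s : Γ(N', V)) :
    e.hom.app V hV (e.inv.app V hV s) = s :=
  congrArg (fun f : HomOn W N' N' => f.app V hV s) e.inv_hom_id

@[ext] lemma ext' {e e' : IsoOn W N N'} (h : e.hom = e'.hom) : e = e' := by
  suffices e.inv = e'.inv by cases e; cases e'; simp_all
  ext V hV s
  conv_lhs => rw [← e'.inv_hom_app V hV s, ← h, e.hom_inv_app]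

/-- The identity. -/
def refl (W : X.Opens) (N : X.Modules) : IsoOn W N N :=
  ⟨HomOn.id W N, HomOn.id W N, rfl, rfl⟩

/-- The inverse. -/
def symm (e : IsoOn W N N') : IsoOn W N' N := ⟨e.inv, e.hom, e.inv_hom_id, e.hom_inv_id⟩

/-- Composition. -/
def trans (e : IsoOn W N N') (e' : IsoOn W N' N'') : IsoOn W N N'' where
  hom := e.hom.comp e'.hom
  inv := e'.inv.comp e.inv
  hom_inv_id := by ext; simp
  inv_hom_id := by ext; simp

/-- Restriction to a smaller open. -/
def restrict (e : IsoOn W N N') (h : W' ≤ W) : IsoOn W' N N' where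
  hom := e.hom.restrict h
  inv := e.inv.restrict h
  hom_inv_id := by ext; simp
  inv_hom_id := by ext; simp

/-- The restriction of an isomorphism of modules. -/
def ofIso (φ : N ≅ N') (W : X.Opens) : IsoOn W N N' where
  hom := HomOn.ofHom φ.hom W
  inv := HomOn.ofHom φ.inv W
  hom_inv_id := by
    ext V hV s
    exact congrArg (fun f : N ⟶ N => f.app V s) φ.hom_inv_id
  inv_hom_id := by
    ext V hV s
    exact congrArg (fun f : N' ⟶ N' => f.app V s) φ.inv_hom_id

/-- An isomorphism on all opens is an isomorphism of modules. -/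
def toIso (e : IsoOn ⊤ N N') : N ≅ N' where
  hom := e.hom.toHom
  inv := e.inv.toHom
  hom_inv_id := by ext V s; simp
  inv_hom_id := by ext V s; simp

end IsoOn

end FermatLib.AV.Glue
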