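import Fermat.Agent.AV.Jac.GlueRig

/-!
Comparison of local isomorphisms, invertibility and rigidifications with their formulations by
pullback functors.
-/

set_option autoImplicit false

universe u

open CategoryTheory TopologicalSpace AlgebraicGeometry Opposite

noncomputable section

namespace FermatLib.AV.Glue

variable {X X' T : Scheme.{u}}

/-- The structure sheaf as a module. -/
abbrev 𝕆 (X : Scheme.{u}) : X.Modules := SheafOfModules.unit X.ringCatSheaf

/-- A morphism below `W` which is bijective on sections is an isomorphism below `W`. -/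
def IsoOn.ofBijective {W : X.Opens} {N N' : X.Modules} (f : HomOn W N N')
    (hf : ∀ (V : X.Opens) (hV : V ≤ W), Function.Bijective (f.app V hV)) : IsoOn W N N' where
  hom := f
  inv :=
    { app := fun V hV => ((AddEquiv.ofBijective _ (hf V hV)).symm : Γ(N', V) →+ Γ(N, V))
      app_smul := fun V hV a s => (hf V hV).1 <| by
        simp [AddEquiv.ofBijective_apply_symm_apply]
      app_res := fun U V hU h s => (hf V (h.trans hU)).1 <| by
        simp [← f.app_res U V hU h, AddEquiv.ofBijective_apply_symm_apply] }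
  hom_inv_id := by
    ext V hV s
    exact (AddEquiv.ofBijective _ (hf V hV)).symm_apply_apply s
  inv_hom_id := by
    ext V hV s
    exact (AddEquiv.ofBijective _ (hf V hV)).apply_symm_apply s

/-- Multiples of a section. -/
def HomOn.ofSection {W : X.Opens} {N : X.Modules} (e : Γ(N, W)) : HomOn W (𝕆 X) N where
  app V hV := AddMonoidHom.mk' (fun a : Γ(X, V) => a • mres N hV e) fun a b => add_smul (R := Γ(X, V)) a b _
  app_smul V hV a s := by
    show (@HMul.hMul Γ(X, V) Γ(X, V) Γ(X, V) _ a s) • mres N hV e =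
      a • ((show Γ(X, V) from s) • mres N hV e)
    exact mul_smul _ _ _
  app_res U V hU h s := by
    show mres N h ((show Γ(X, U) from s) • mres N hU e) =
      rres X h (show Γ(X, U) from s) • mres N (h.trans hU) e
    simp

lemma LocFree.exists_isoOn {W : X.Opens} {N : X.Modules} (h : LocFree N W) {x : X} (hx : x ∈ W) :
    ∃ U : X.Opens, x ∈ U ∧ U ≤ W ∧ Nonempty (IsoOn U (𝕆 X) N) := by
  obtain ⟨U, hU, hxU, e, he⟩ := h x hx
  exact ⟨U, hxU, hU, ⟨IsoOn.ofBijective (HomOn.ofSection e) he⟩⟩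

lemma locFree_unit (W : X.Opens) : LocFree (𝕆 X) W := by
  intro x hx
  refine ⟨W, le_rfl, hx, show Γ(X, W) from 1, fun V hV => ?_⟩
  have : (fun a : Γ(X, V) => a • mres (𝕆 X) hV (show Γ(𝕆 X, W) from (1 : Γ(X, W)))) =
      fun a => (show Γ(𝕆 X, V) from a) := by
    funext a
    show a * rres X hV 1 = a
    simp
  rw [this]
  exact Function.bijective_id

lemma LocFree.of_cover {N : X.Modules} {W : X.Opens}
    (h : ∀ x ∈ W, ∃ U : X.Opens, x ∈ U ∧ LocFree N U) : LocFree N W := by
  intro x hx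
  obtain ⟨U, hxU, hU⟩ := h x hx
  obtain ⟨V, hV, hxV, he⟩ := (hU.mono (inf_le_left : U ⊓ W ≤ U)) x ⟨hxU, hx⟩
  exact ⟨V, hV.trans inf_le_right, hxV, he⟩

section OpenImmersion

variable (f : X' ⟶ X) [IsOpenImmersion f]

lemma image_preimage {V : X.Opens} (hV : V ≤ f.opensRange) : f ''ᵁ (f ⁻¹ᵁ V) = V := by
  rw [f.image_preimage_eq_opensRange_inf, inf_eq_right.mpr hV]

/-- Below the range, a module is the pushforward of its restriction. -/
def isoOnPush (N : X.Modules) :
    IsoOn f.opensRange N ((Scheme.Modules.pushforward f).obj (N.restrict f)) :=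
  IsoOn.ofBijective (HomOn.ofHom ((Scheme.Modules.restrictAdjunction f).unit.app N) _)
    fun V hV => by
      refine Function.bijective_iff_has_inverse.2
        ⟨fun s => mres N (image_preimage f hV).ge (show Γ(N, f ''ᵁ (f ⁻¹ᵁ V)) from s),
          fun s => ?_, fun s => ?_⟩
      · show mres N _ (mres N (f.image_preimage_le V) s) = s
        simp
      · show mres N (f.image_preimage_le V) (mres N _ (show Γ(N, f ''ᵁ (f ⁻¹ᵁ V)) from s)) = s
        simp

lemma nonempty_isoOn_iff (N N' : X.Modules) :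
    Nonempty (IsoOn f.opensRange N N') ↔
      Nonempty ((Scheme.Modules.pullback f).obj N ≅ (Scheme.Modules.pullback f).obj N') := by
  constructor
  · rintro ⟨e⟩
    let g : HomOn ⊤ (N.restrict f) (N'.restrict f) :=
      { app := fun V _ => e.hom.app (f ''ᵁ V) (f.image_le_opensRange V)
        app_smul := fun V _ a s => e.hom.app_smul (f ''ᵁ V) (f.image_le_opensRange V)
          ((f.appIso V).inv a) (show Γ(N, f ''ᵁ V) from s)
        app_res := fun U V _ h s => e.hom.app_res (f ''ᵁ U) (f ''ᵁ V) (f.image_le_opensRange U)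
          (f.image_mono h) (show Γ(N, f ''ᵁ U) from s) }
    have hg : ∀ (V : X'.Opens) (hV : V ≤ ⊤), Function.Bijective (g.app V hV) := fun V _ =>
      ⟨Function.LeftInverse.injective fun s => e.hom_inv_app _ (f.image_le_opensRange V) s,
       Function.RightInverse.surjective fun s => e.inv_hom_app _ (f.image_le_opensRange V) s⟩
    exact ⟨((Scheme.Modules.restrictFunctorIsoPullback f).app N).symm ≪≫
      (IsoOn.ofBijective g hg).toIso ≪≫ (Scheme.Modules.restrictFunctorIsoPullback f).app N'⟩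
  · rintro ⟨α⟩
    let α' : N.restrict f ≅ N'.restrict f :=
      (Scheme.Modules.restrictFunctorIsoPullback f).app N ≪≫ α ≪≫
        ((Scheme.Modules.restrictFunctorIsoPullback f).app N').symm
    exact ⟨((isoOnPush f N).trans
      (IsoOn.ofIso ((Scheme.Modules.pushforward f).mapIso α') _)).trans (isoOnPush f N').symm⟩

/-- Pulling back a pushforward along an open immersion. -/
def pullbackPushIso (M : X'.Modules) :
    (Scheme.Modules.pullback f).obj ((Scheme.Modules.pushforward f).obj M) ≅ M :=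
  ((Scheme.Modules.restrictFunctorIsoPullback f).app _).symm ≪≫
    (asIso (Scheme.Modules.restrictAdjunction f).counit).app M

end OpenImmersion

lemma locFree_of_isInvertible {M : X.Modules} (hM : Scheme.Modules.IsInvertible M) (W : X.Opens) :
    LocFree M W := by
  refine LocFree.of_cover fun x _ => ?_
  obtain ⟨U, hxU, ⟨e⟩⟩ := hM.exists_trivialization x
  obtain ⟨α⟩ := (nonempty_isoOn_iff U.ι M (𝕆 X)).2
    ⟨e ≪≫ (Scheme.Modules.pullbackUnitIso U.ι).symm⟩
  exact ⟨U.ι.opensRange, by simpa using hxU, (locFree_unit _).ofIsoOn α.symm⟩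

lemma isInvertible_of_locFree {M : X.Modules} (hM : LocFree M ⊤) :
    Scheme.Modules.IsInvertible M := by
  refine ⟨fun x => ?_⟩
  obtain ⟨U, hxU, -, ⟨α⟩⟩ := hM.exists_isoOn (x := x) trivial
  obtain ⟨e⟩ := (nonempty_isoOn_iff U.ι (𝕆 X) M).1 ⟨α.restrict U.opensRange_ι.le⟩
  exact ⟨U, hxU, ⟨e.symm ≪≫ Scheme.Modules.pullbackUnitIso U.ι⟩⟩

lemma spec_field_cases {κ : Type u} [Field κ] (U : (Spec (CommRingCat.of κ)).Opens) :
    U = ⊥ ∨ U = ⊤ := by
  by_cases h : ∃ z, z ∈ U
  · obtain ⟨z, hz⟩ := h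
    refine Or.inr (top_unique fun w _ => ?_)
    rwa [Subsingleton.elim w z]
  · exact Or.inl (le_bot_iff.1 fun z hz => (h ⟨z, hz⟩).elim)

lemma mem_basicOpen_of_pb_ne_zero (τ : T) {U : T.Opens} (r : Γ(T, U))
    {U' : (Spec (T.residueField τ)).Opens} (e : U' ≤ T.fromSpecResidueField τ ⁻¹ᵁ U)
    (h : pb (T.fromSpecResidueField τ) e r ≠ 0) : τ ∈ T.basicOpen r := by
  obtain ⟨z, hz⟩ : ∃ z, z ∈ U' := by
    by_contra hc
    have hbot : U' = ⊥ := le_bot_iff.1 fun z hz => (hc ⟨z, hz⟩).elim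
    subst hbot
    exact h (Subsingleton.elim _ _)
  have hne : (Spec (T.residueField τ)).basicOpen (pb (T.fromSpecResidueField τ) e r) ≠ ⊥ :=
    fun hb => h (basicOpen_eq_bot_iff _ |>.1 hb)
  have htop := (spec_field_cases _).resolve_left hne
  have hmem : z ∈ (Spec (T.residueField τ)).basicOpen (pb (T.fromSpecResidueField τ) e r) := by
    rw [htop]; trivial
  rw [show pb (T.fromSpecResidueField τ) e r = (T.fromSpecResidueField τ).appLE U U' e r from rfl,
    Scheme.basicOpen_appLE] at hmem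
  obtain ⟨-, hmem⟩ := hmem
  have := (show T.fromSpecResidueField τ z ∈ T.basicOpen r from hmem)
  rwa [Scheme.fromSpecResidueField_apply] at this

/-- A trivialisation of the pullback along a section over `T'` gives a rigidification. -/
lemma exists_rig {p : X ⟶ T} {σ : T ⟶ X} (hσ : σ ≫ p = 𝟙 T) (N : X.Modules) {T' : T.Opens}
    (h : IsoOn T' ((Scheme.Modules.pullback σ).obj N) (𝕆 T)) :
    Nonempty (Rig σ N (p ⁻¹ᵁ T')) := by
  let η : N ⟶ (Scheme.Modules.pushforward σ).obj ((Scheme.Modules.pullback σ).obj N) :=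
    (Scheme.Modules.pullbackPushforwardAdjunction σ).unit.app N
  let app : ∀ V : X.Opens, V ≤ p ⁻¹ᵁ T' → (Γ(N, V) →+ Γ(T, σ ⁻¹ᵁ V)) := fun V hV =>
    (h.hom.app (σ ⁻¹ᵁ V) ((σ.preimage_mono hV).trans (preimage_section hσ T').le)).comp
      (η.app V).hom
  have hres : ∀ (U V : X.Opens) (hU : U ≤ p ⁻¹ᵁ T') (hVU : V ≤ U) (s : Γ(N, U)),
      rres T (σ.preimage_mono hVU) (app U hU s) = app V (hVU.trans hU) (mres N hVU s) := by
    intro U V hU hVU s
    have h1 := (HomOn.ofHom η ⊤).app_res U V le_top hVU s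
    simp only [HomOn.ofHom_app] at h1
    show mres (𝕆 T) (σ.preimage_mono hVU) (h.hom.app _ _ (η.app U s)) =
      h.hom.app _ _ (η.app V (mres N hVU s))
    rw [h.hom.app_res _ _ _ (σ.preimage_mono hVU), ← h1]
    rfl
  have hsmul : ∀ (V : X.Opens) (hV : V ≤ p ⁻¹ᵁ T') (a : Γ(X, V)) (s : Γ(N, V)),
      app V hV (a • s) = pb σ le_rfl a * app V hV s := by
    intro V hV a s
    show h.hom.app _ _ (η.app V (a • s)) = _
    rw [Scheme.Modules.Hom.app_smul]
    show h.hom.app _ _ (σ.app V a • (show Γ((Scheme.Modules.pullback σ).obj N, σ ⁻¹ᵁ V) from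
      η.app V s)) = _
    rw [HomOn.app_smul]
    show σ.app V a * _ = _
    congr 1
    rw [Scheme.Hom.app_eq_appLE]
    rfl
  refine ⟨⟨app, hsmul, hres, fun τ hτ => ?_⟩⟩
  by_contra hc
  push Not at hc
  let i := T.fromSpecResidueField τ
  have hiT' : i ⁻¹ᵁ T' = ⊤ := by
    refine top_unique fun z _ => ?_
    show i z ∈ T'
    rw [show i z = τ from Scheme.fromSpecResidueField_apply τ z]
    exact (preimage_section hσ T').le hτ
  have hle : ∀ V : T.Opens, i ⁻¹ᵁ V ≤ i ⁻¹ᵁ (V ⊓ T') := fun V => by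
    rw [Scheme.Hom.preimage_inf, hiT', inf_top_eq]
  let L0 := (Scheme.Modules.pullback σ).obj N
  let Q : T.Modules := (Scheme.Modules.pushforward i).obj (𝕆 (Spec (T.residueField τ)))
  let φ : HomOn ⊤ L0 Q :=
    { app := fun V _ => AddMonoidHom.mk'
        (fun x => show Γ(Spec (T.residueField τ), i ⁻¹ᵁ V) from
          pb i (hle V) (show Γ(T, V ⊓ T') from
            h.hom.app (V ⊓ T') inf_le_right (mres L0 inf_le_left x)))
        (fun x y => by simp only [map_add]; exact map_add (pb i (hle V)) _ _)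
      app_smul := fun V _ a x => by
        show pb i (hle V) (h.hom.app (V ⊓ T') inf_le_right (mres L0 inf_le_left (a • x))) =
          i.app V a * pb i (hle V) (h.hom.app (V ⊓ T') inf_le_right (mres L0 inf_le_left x))
        rw [mres_smul, HomOn.app_smul]
        show pb i (hle V) (@HMul.hMul Γ(T, V ⊓ T') Γ(T, V ⊓ T') Γ(T, V ⊓ T') _
          (rres T inf_le_left a) (h.hom.app (V ⊓ T') inf_le_right (mres L0 inf_le_left x))) = _
        rw [map_mul, pb_rres, Scheme.Hom.app_eq_appLE]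
        rfl
      app_res := fun U V _ hVU x => by
        show rres (Spec (T.residueField τ)) (i.preimage_mono hVU)
            (pb i (hle U) (h.hom.app (U ⊓ T') inf_le_right (mres L0 inf_le_left x))) =
          pb i (hle V) (h.hom.app (V ⊓ T') inf_le_right (mres L0 inf_le_left (mres L0 hVU x)))
        rw [rres_pb, mres_mres]
        have := h.hom.app_res (U ⊓ T') (V ⊓ T') inf_le_right (inf_le_inf_right _ hVU)
          (mres L0 inf_le_left x)
        rw [mres_mres] at this
        rw [← this]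
        exact (pb_rres i (hle V) (inf_le_inf_right _ hVU) _).symm }
  have hzero : (η ≫ (Scheme.Modules.pushforward σ).map φ.toHom) = 0 := by
    ext V : 1
    ext s
    show pb i (hle (σ ⁻¹ᵁ V)) (h.hom.app (σ ⁻¹ᵁ V ⊓ T') inf_le_right
      (mres L0 inf_le_left (η.app V s))) = 0
    have heq : σ ⁻¹ᵁ (V ⊓ p ⁻¹ᵁ T') = σ ⁻¹ᵁ V ⊓ T' := by
      rw [Scheme.Hom.preimage_inf, preimage_section hσ]
    let r := app (V ⊓ p ⁻¹ᵁ T') inf_le_right (mres N inf_le_left s)
    have h1 := (HomOn.ofHom η ⊤).app_res V (V ⊓ p ⁻¹ᵁ T') le_top inf_le_left s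
    simp only [HomOn.ofHom_app] at h1
    have h2 := h.hom.app_res (σ ⁻¹ᵁ V ⊓ T') (σ ⁻¹ᵁ (V ⊓ p ⁻¹ᵁ T')) inf_le_right heq.le
      (mres L0 inf_le_left (η.app V s))
    have hr : rres T heq.le (h.hom.app (σ ⁻¹ᵁ V ⊓ T') inf_le_right
        (mres L0 inf_le_left (η.app V s))) = r := by
      refine h2.trans ?_
      rw [mres_mres]
      show _ = h.hom.app _ _ (η.app (V ⊓ p ⁻¹ᵁ T') (mres N inf_le_left s))
      rw [← h1]
      rfl
    have e' : i ⁻¹ᵁ (σ ⁻¹ᵁ V) ≤ i ⁻¹ᵁ (σ ⁻¹ᵁ (V ⊓ p ⁻¹ᵁ T')) := by rw [heq]; exact hle _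
    rw [← pb_rres i e' heq.le, hr]
    by_contra hne
    have hmem := mem_basicOpen_of_pb_ne_zero τ r e' hne
    refine hc ((V ⊓ p ⁻¹ᵁ T') ⊓ p ⁻¹ᵁ T.basicOpen r) (inf_le_left.trans inf_le_right)
      ⟨T.basicOpen_le r hmem, ?_⟩ (mres N inf_le_left (mres N inf_le_left s)) ?_
    · show σ τ ∈ p ⁻¹ᵁ T.basicOpen r
      have : τ ∈ σ ⁻¹ᵁ (p ⁻¹ᵁ T.basicOpen r) := by rw [preimage_section hσ]; exact hmem
      exact this
    · rw [← hres _ _ inf_le_right inf_le_left]
      have hb : σ ⁻¹ᵁ (V ⊓ p ⁻¹ᵁ T' ⊓ p ⁻¹ᵁ T.basicOpen r) ≤ T.basicOpen r :=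
        (σ.preimage_mono inf_le_right).trans (preimage_section hσ _).le
      have := (T.toRingedSpace.isUnit_res_basicOpen r).map (rres T hb)
      exact (rres_rres (T.basicOpen_le r) hb r).symm ▸ this
  have hφ : φ.toHom = 0 := by
    apply ((Scheme.Modules.pullbackPushforwardAdjunction σ).homEquiv N Q).injective
    rw [Adjunction.homEquiv_unit, Adjunction.homEquiv_unit, Functor.map_zero, Limits.comp_zero]
    exact hzero
  have h1 : φ.app T' le_top (h.inv.app T' le_rfl (show Γ(T, T') from 1)) = 0 := by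
    rw [← HomOn.toHom_app, hφ]; rfl
  have h2 : pb i (hle T') (show Γ(T, T' ⊓ T') from rres T inf_le_left (1 : Γ(T, T'))) = 0 := by
    have h3 := h.inv.app_res T' (T' ⊓ T') le_rfl inf_le_left (show Γ(T, T') from 1)
    rw [← h.inv_hom_app (T' ⊓ T') inf_le_right (show Γ(T, T' ⊓ T') from rres T inf_le_left 1)]
    refine Eq.trans ?_ h1
    show pb i (hle T') (h.hom.app _ _ _) = pb i (hle T') (h.hom.app _ _ _)
    rw [h3]
    rfl
  simp only [map_one] at h2
  have hne : (i ⁻¹ᵁ T') ≠ ⊥ := by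
    rw [hiT']
    intro hb
    have : IsLocalRing.closedPoint (T.residueField τ) ∈ (⊥ : (Spec (T.residueField τ)).Opens) := by
      rw [← hb]; trivial
    exact this
  have hb := Scheme.basicOpen_of_isUnit (Spec (T.residueField τ))
    (isUnit_one : IsUnit (1 : Γ(Spec (T.residueField τ), i ⁻¹ᵁ T')))
  rw [h2, Scheme.basicOpen_zero] at hb
  exact hne hb.symm

/-- A rigidification everywhere trivialises the pullback along the section. -/
lemma nonempty_pullback_iso {σ : T ⟶ X} (N : X.Modules)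
    (hL : Scheme.Modules.IsInvertible ((Scheme.Modules.pullback σ).obj N)) (ρ : Rig σ N ⊤) :
    Nonempty ((Scheme.Modules.pullback σ).obj N ≅ 𝕆 T) := by
  let L0 := (Scheme.Modules.pullback σ).obj N
  let A₀ : HomOn ⊤ N ((Scheme.Modules.pushforward σ).obj (𝕆 T)) :=
    { app := fun V hV => ρ.app V hV
      app_smul := fun V hV a s => by
        show ρ.app V hV (a • s) = σ.app V a * ρ.app V hV s
        rw [ρ.app_smul, Scheme.Hom.app_eq_appLE]
        rfl
      app_res := fun U V hU h s => ρ.app_res U V hU h s }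
  let h := ((Scheme.Modules.pullbackPushforwardAdjunction σ).homEquiv N (𝕆 T)).symm A₀.toHom
  have hA : (Scheme.Modules.pullbackPushforwardAdjunction σ).unit.app N ≫
      (Scheme.Modules.pushforward σ).map h = A₀.toHom :=
    (Adjunction.homEquiv_unit _ _ _ _).symm.trans (Equiv.apply_symm_apply _ _)
  let η : N ⟶ (Scheme.Modules.pushforward σ).obj L0 :=
    (Scheme.Modules.pullbackPushforwardAdjunction σ).unit.app N
  have hval : ∀ (V : X.Opens) (s : Γ(N, V)), h.app (σ ⁻¹ᵁ V) (η.app V s) = ρ.app V le_top s :=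
    fun V s => congrArg (fun f : N ⟶ _ => f.app V s) hA
  have key : ∀ τ : T, ∃ U : T.Opens, τ ∈ U ∧ ∀ (V : T.Opens), V ≤ U →
      Function.Bijective (h.app V) := by
    intro τ
    obtain ⟨U, -, hτU, e, he⟩ := locFree_of_isInvertible hL ⊤ τ trivial
    obtain ⟨V, hV0, hτV, s, hs⟩ := ρ.gen τ trivial
    refine ⟨σ ⁻¹ᵁ V ⊓ U, ⟨hτV, hτU⟩, fun V' hV' => ?_⟩
    obtain ⟨a, ha⟩ := (he V' (hV'.trans inf_le_right)).2
      (mres L0 (hV'.trans inf_le_left) (η.app V s))
    let c : Γ(T, V') := h.app V' (mres L0 (hV'.trans inf_le_right) e)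
    have hu : IsUnit c := by
      have h1 := congrArg (fun x => h.app V' x) ha
      have h2 := (HomOn.ofHom h ⊤).app_res (σ ⁻¹ᵁ V) V' le_top (hV'.trans inf_le_left) (η.app V s)
      simp only [HomOn.ofHom_app] at h2
      simp only [Scheme.Modules.Hom.app_smul, hval] at h1 h2
      rw [← h2] at h1
      have h3 : a * c = rres T (hV'.trans inf_le_left) (ρ.app V le_top s) := h1
      have hs' : IsUnit (rres T (hV'.trans inf_le_left) (ρ.app V le_top s)) :=
        RingHom.isUnit_map _ hs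
      rw [← h3] at hs'
      exact isUnit_of_mul_isUnit_right hs'
    have hx : ∀ b : Γ(T, V'),
        h.app V' (b • mres L0 (hV'.trans inf_le_right) e) = (show Γ(T, V') from b * c) :=
      fun b => Scheme.Modules.Hom.app_smul h b _
    refine ⟨fun x y hxy => ?_, fun y => ?_⟩
    · obtain ⟨b, rfl⟩ := (he V' (hV'.trans inf_le_right)).2 x
      obtain ⟨b', rfl⟩ := (he V' (hV'.trans inf_le_right)).2 y
      have hbb : b * c = b' * c := (hx b).symm.trans (hxy.trans (hx b'))
      rw [hu.mul_right_cancel hbb]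
    · exact ⟨((show Γ(T, V') from y) * ↑hu.unit⁻¹) • mres L0 (hV'.trans inf_le_right) e,
        by rw [hx]; show _ * _ * c = y; rw [mul_assoc, hu.val_inv_mul, mul_one]⟩
  choose U hU hbij using key
  have hcov : (⊤ : T.Opens) ≤ iSup U := fun τ _ => Opens.mem_iSup.2 ⟨τ, hU τ⟩
  obtain ⟨g, hg⟩ := IsoOn.exists_glue U hcov
    (fun τ => IsoOn.ofBijective (HomOn.ofHom h (U τ)) fun V hV => hbij τ V hV)
    fun _ _ _ _ _ _ => rfl
  exact ⟨g.toIso⟩

end FermatLib.AV.Glue
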