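import Fermat.Agent.AV.Jac.GlueBasic

/-!
Gluing sheaves of modules along an open cover, and gluing isomorphisms.
-/

set_option autoImplicit false

universe u

open CategoryTheory TopologicalSpace AlgebraicGeometry Opposite

noncomputable section

namespace FermatLib.AV.Glue

variable {X : Scheme.{u}}

/-- Local isomorphisms agreeing on overlaps glue to morphisms. -/
lemma HomOn.exists_glue {ι : Type u} {W : X.Opens} (U : ι → X.Opens) (hW : W ≤ iSup U)
    {N N' : X.Modules} (f : ∀ i, HomOn (U i) N N')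
    (h : ∀ i j (V : X.Opens) (hi : V ≤ U i) (hj : V ≤ U j) (s : Γ(N, V)),
      (f i).app V hi s = (f j).app V hj s) :
    ∃ g : HomOn W N N', ∀ i (V : X.Opens) (hV : V ≤ W) (hi : V ≤ U i) (s : Γ(N, V)),
      g.app V hV s = (f i).app V hi s := by
  have key : ∀ (V : X.Opens), V ≤ W → ∀ s : Γ(N, V), ∃ t : Γ(N', V), ∀ i,
      mres N' (inf_le_left : V ⊓ U i ≤ V) t =
        (f i).app (V ⊓ U i) inf_le_right (mres N inf_le_left s) := by
    intro V hV s
    refine Glue.exists_glue N' (fun i => V ⊓ U i) (fun i => inf_le_left) ?_ _ fun i j => ?_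
    · rw [← inf_iSup_eq]; exact le_inf le_rfl (hV.trans hW)
    · rw [(f i).app_res _ _ _ inf_le_left, (f j).app_res _ _ _ inf_le_right, mres_mres, mres_mres]
      exact h i j _ _ _ _
  choose g hg using key
  have uniq : ∀ (V : X.Opens) (hV : V ≤ W) (s : Γ(N, V)) (t : Γ(N', V)), (∀ i,
      mres N' (inf_le_left : V ⊓ U i ≤ V) t =
        (f i).app (V ⊓ U i) inf_le_right (mres N inf_le_left s)) → t = g V hV s := by
    intro V hV s t ht
    exact Glue.eq_of_cover N' U (hV.trans hW) fun i => (ht i).trans (hg V hV s i).symm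
  refine ⟨⟨fun V hV => AddMonoidHom.mk' (g V hV) fun a b => ?_, fun V hV a s => ?_,
    fun A B hA hAB s => ?_⟩, fun i V hV hi s => ?_⟩
  · exact (uniq V hV _ _ fun i => by simp [hg]).symm
  · exact (uniq V hV _ _ fun i => by simp [hg]).symm
  · refine uniq B _ _ _ fun i => ?_
    have := congrArg (mres N' (inf_le_inf_right (U i) hAB)) (hg A hA s i)
    rw [(f i).app_res _ _ _ (inf_le_inf_right (U i) hAB)] at this
    simpa using this
  · refine (uniq V hV s _ fun j => ?_).symm
    rw [(f i).app_res _ _ hi inf_le_left]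
    exact h i j _ _ _ _

/-- Local isomorphisms agreeing on overlaps glue. -/
lemma IsoOn.exists_glue {ι : Type u} {W : X.Opens} (U : ι → X.Opens) (hW : W ≤ iSup U)
    {N N' : X.Modules} (e : ∀ i, IsoOn (U i) N N')
    (h : ∀ i j (V : X.Opens) (hi : V ≤ U i) (hj : V ≤ U j) (s : Γ(N, V)),
      (e i).hom.app V hi s = (e j).hom.app V hj s) :
    ∃ g : IsoOn W N N', ∀ i (V : X.Opens) (hV : V ≤ W) (hi : V ≤ U i) (s : Γ(N, V)),
      g.hom.app V hV s = (e i).hom.app V hi s := by
  obtain ⟨g, hg⟩ := HomOn.exists_glue U hW (fun i => (e i).hom) h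
  obtain ⟨g', hg'⟩ := HomOn.exists_glue U hW (fun i => (e i).inv) (fun i j V hi hj s => by
    conv_lhs => rw [← (e j).inv_hom_app V hj s, ← h i j V hi hj, (e i).hom_inv_app])
  refine ⟨⟨g, g', HomOn.eq_of_cover U hW ?_, HomOn.eq_of_cover U hW ?_⟩, hg⟩
  · intro i V hV hi s
    simp [hg i V hV hi, hg' i V hV hi]
  · intro i V hV hi s
    simp [hg i V hV hi, hg' i V hV hi]

/-- Gluing datum of modules on an open cover. -/
structure GlueDatum (X : Scheme.{u}) : Type (u + 1) where
  ι : Type u
  W : ι → X.Opens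
  cover : iSup W = ⊤
  N : ι → X.Modules
  φ : ∀ i j, IsoOn (W i ⊓ W j) (N i) (N j)
  cocycle : ∀ i j l (V : X.Opens) (hi : V ≤ W i) (hj : V ≤ W j) (hl : V ≤ W l) (s : Γ(N i, V)),
    (φ j l).hom.app V (le_inf hj hl) ((φ i j).hom.app V (le_inf hi hj) s) =
      (φ i l).hom.app V (le_inf hi hl) s

namespace GlueDatum

variable (D : GlueDatum X)

lemma φ_self (i : D.ι) (V : X.Opens) (hi : V ≤ D.W i ⊓ D.W i) (s : Γ(D.N i, V)) :
    (D.φ i i).hom.app V hi s = s := by
  have := D.cocycle i i i V (hi.trans inf_le_left) (hi.trans inf_le_left) (hi.trans inf_le_left) s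
  have := congrArg ((D.φ i i).inv.app V hi) this
  simpa using this

/-- Compatible families of sections over `V`. -/
def sec (V : X.Opens) : AddSubgroup (∀ i, Γ(D.N i, V ⊓ D.W i)) where
  carrier := {s | ∀ i j (V' : X.Opens) (hi : V' ≤ V ⊓ D.W i) (hj : V' ≤ V ⊓ D.W j),
    (D.φ i j).hom.app V' (le_inf (hi.trans inf_le_right) (hj.trans inf_le_right))
      (mres (D.N i) hi (s i)) = mres (D.N j) hj (s j)}
  zero_mem' := by intro i j V' hi hj; simp
  add_mem' := by intro a b ha hb i j V' hi hj; simp [ha i j V' hi hj, hb i j V' hi hj]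
  neg_mem' := by intro a ha i j V' hi hj; simp [ha i j V' hi hj]

variable {D}

lemma sec_compat {V : X.Opens} (s : D.sec V) (i j : D.ι) (V' : X.Opens) (hi : V' ≤ V ⊓ D.W i)
    (hj : V' ≤ V ⊓ D.W j) :
    (D.φ i j).hom.app V' (le_inf (hi.trans inf_le_right) (hj.trans inf_le_right))
      (mres (D.N i) hi (s.1 i)) = mres (D.N j) hj (s.1 j) :=
  s.2 i j V' hi hj

instance (V : X.Opens) : SMul Γ(X, V) (D.sec V) :=
  ⟨fun a s => ⟨fun i => rres X (inf_le_left : V ⊓ D.W i ≤ V) a • s.1 i, fun i j V' hi hj => by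
    simp [sec_compat s i j V' hi hj]⟩⟩

@[simp] lemma smul_apply {V : X.Opens} (a : Γ(X, V)) (s : D.sec V) (i : D.ι) :
    (a • s).1 i = rres X (inf_le_left : V ⊓ D.W i ≤ V) a • s.1 i := rfl

instance (V : X.Opens) : Module Γ(X, V) (D.sec V) where
  one_smul s := Subtype.ext (funext fun i => by simp)
  mul_smul a b s := Subtype.ext (funext fun i => by simp [mul_smul])
  smul_zero a := Subtype.ext (funext fun i => by simp)
  smul_add a s t := Subtype.ext (funext fun i => by simp [smul_add])
  add_smul a b s := Subtype.ext (funext fun i => by simp [add_smul])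
  zero_smul s := Subtype.ext (funext fun i => by simp)

variable (D)

/-- Restriction of compatible families. -/
def secRes {U V : X.Opens} (h : V ≤ U) : D.sec U →+ D.sec V :=
  AddMonoidHom.mk' (fun s => ⟨fun i => mres (D.N i) (inf_le_inf_right _ h) (s.1 i),
    fun i j V' hi hj => by
      simpa using sec_compat s i j V' (hi.trans (inf_le_inf_right _ h))
        (hj.trans (inf_le_inf_right _ h))⟩)
    fun s t => Subtype.ext (funext fun i => by simp)

@[simp] lemma secRes_apply {U V : X.Opens} (h : V ≤ U) (s : D.sec U) (i : D.ι) :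
    (D.secRes h s).1 i = mres (D.N i) (inf_le_inf_right _ h) (s.1 i) := rfl

lemma secRes_smul {U V : X.Opens} (h : V ≤ U) (a : Γ(X, U)) (s : D.sec U) :
    D.secRes h (a • s) = rres X h a • D.secRes h s :=
  Subtype.ext (funext fun i => by simp)

/-- The presheaf of compatible families. -/
def secPresheaf : X.Opensᵒᵖ ⥤ Ab.{u} where
  obj V := AddCommGrpCat.of (D.sec V.unop)
  map g := AddCommGrpCat.ofHom (D.secRes (leOfHom g.unop))
  map_id V := by ext s : 2; exact Subtype.ext (funext fun i => by simp)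
  map_comp f g := by ext s : 2; exact Subtype.ext (funext fun i => by simp)

instance (V : X.Opensᵒᵖ) : Module (X.ringCatSheaf.obj.obj V) (D.secPresheaf.obj V) :=
  inferInstanceAs (Module Γ(X, V.unop) (D.sec V.unop))

/-- The presheaf of modules of compatible families. -/
def glued₀ : X.PresheafOfModules :=
  PresheafOfModules.ofPresheaf D.secPresheaf fun {U V} g a (s : D.sec U.unop) =>
    secRes_smul D (leOfHom g.unop) (show Γ(X, U.unop) from a) s

lemma isSheaf_secPresheaf : TopCat.Presheaf.IsSheaf (X := X.toTopCat) D.secPresheaf := by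
  rw [TopCat.Presheaf.isSheaf_iff_isSheafUniqueGluing]
  intro κ U sf hsf
  let sf' : ∀ a, D.sec (U a) := sf
  have hc : ∀ a b, D.secRes (inf_le_left : U a ⊓ U b ≤ U a) (sf' a) =
      D.secRes inf_le_right (sf' b) := hsf
  have key : ∀ i, ∃ t : Γ(D.N i, iSup U ⊓ D.W i), ∀ a,
      mres (D.N i) (inf_le_inf_right _ (le_iSup U a)) t = (sf' a).1 i := by
    intro i
    refine exists_glue (D.N i) (fun a => U a ⊓ D.W i) _ ?_ _ fun a b => ?_
    · rw [iSup_inf_eq]
    · have := congrArg (mres (D.N i) (show (U a ⊓ D.W i) ⊓ (U b ⊓ D.W i) ≤ (U a ⊓ U b) ⊓ D.W i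
          from le_inf (inf_le_inf inf_le_left inf_le_left) (inf_le_left.trans inf_le_right)))
          (congrFun (congrArg Subtype.val (hc a b)) i)
      simpa using this
  choose t ht using key
  refine ⟨(⟨t, fun i j V' hi hj => ?_⟩ : D.sec (iSup U)), fun a => ?_, fun t' ht' => ?_⟩
  · refine eq_of_cover _ U (hi.trans inf_le_left) fun a => ?_
    have h1 : mres (D.N i) ((inf_le_left : V' ⊓ U a ≤ V').trans hi) (t i) =
        mres (D.N i) (show V' ⊓ U a ≤ U a ⊓ D.W i from
          le_inf inf_le_right (inf_le_left.trans (hi.trans inf_le_right))) ((sf' a).1 i) := by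
      rw [← ht i a, mres_mres]
    have h2 : mres (D.N j) ((inf_le_left : V' ⊓ U a ≤ V').trans hj) (t j) =
        mres (D.N j) (show V' ⊓ U a ≤ U a ⊓ D.W j from
          le_inf inf_le_right (inf_le_left.trans (hj.trans inf_le_right))) ((sf' a).1 j) := by
      rw [← ht j a, mres_mres]
    rw [(D.φ i j).hom.app_res _ _ _ inf_le_left, mres_mres, mres_mres, h1, h2]
    exact sec_compat (sf' a) i j _ _ _
  · exact Subtype.ext (funext fun i => ht i a)
  · apply Subtype.ext
    funext i
    refine eq_of_cover _ U inf_le_left fun a => ?_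
    have h1 : mres (D.N i) (inf_le_inf_right _ (le_iSup U a)) ((show D.sec (iSup U) from t').1 i) =
        (sf' a).1 i := congrFun (congrArg Subtype.val (ht' a)) i
    have := congrArg (mres (D.N i) (show iSup U ⊓ D.W i ⊓ U a ≤ U a ⊓ D.W i from
      le_inf inf_le_right (inf_le_left.trans inf_le_right))) (h1.trans (ht i a).symm)
    simpa using this

/-- The glued module. -/
def glued : X.Modules := ⟨D.glued₀, D.isSheaf_secPresheaf⟩

lemma proj_spec (i : D.ι) (V : X.Opens) (hV : V ≤ D.W i) (s : D.sec V) (j : D.ι) :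
    (D.φ i j).hom.app (V ⊓ D.W j) (inf_le_inf_right _ hV)
      (mres (D.N i) (show V ⊓ D.W j ≤ V ⊓ D.W i from le_inf inf_le_left (inf_le_left.trans hV))
        (s.1 i)) = s.1 j := by
  rw [sec_compat s i j _ _ le_rfl, mres_self]

/-- The projection of the glued module onto its `i`-th member. -/
def proj (i : D.ι) : HomOn (D.W i) D.glued (D.N i) where
  app V hV := AddMonoidHom.mk'
    (fun s : D.sec V => mres (D.N i) (le_inf le_rfl hV) (s.1 i))
    fun s t => map_add (mres (D.N i) (le_inf le_rfl hV)) ((show D.sec V from s).1 i)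
      ((show D.sec V from t).1 i)
  app_smul V hV a s := by
    show mres (D.N i) (le_inf le_rfl hV)
        (((show Γ(X, V) from a) • (show D.sec V from s) : D.sec V).1 i) =
      a • mres (D.N i) (le_inf le_rfl hV) ((show D.sec V from s).1 i)
    rw [smul_apply, mres_smul, rres_rres, rres_self]
  app_res A B hA h s := by
    show mres (D.N i) h (mres (D.N i) _ ((show D.sec A from s).1 i)) =
      mres (D.N i) _ ((D.secRes h (show D.sec A from s)).1 i)
    simp

/-- The inverse of the projection. -/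
def inj (i : D.ι) : HomOn (D.W i) (D.N i) D.glued where
  app V hV := AddMonoidHom.mk'
    (fun x => (⟨fun j => (D.φ i j).hom.app (V ⊓ D.W j) (inf_le_inf_right _ hV)
        (mres (D.N i) inf_le_left x), fun j l V' hj hl => by
      rw [(D.φ i j).hom.app_res _ _ _ hj, (D.φ i l).hom.app_res _ _ _ hl, mres_mres, mres_mres]
      exact D.cocycle i j l V' ((hj.trans inf_le_left).trans hV) (hj.trans inf_le_right)
        (hl.trans inf_le_right) _⟩ : D.sec V))
    fun s t => Subtype.ext (funext fun j => by simp; rfl)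
  app_smul V hV a s := Subtype.ext (funext fun j => by
    show _ = rres X (inf_le_left : V ⊓ D.W j ≤ V) a • _
    simp)
  app_res A B hA h s := Subtype.ext (funext fun j => by
    show mres (D.N j) (inf_le_inf_right _ h) _ = _
    simp [(D.φ i j).hom.app_res _ _ _ (inf_le_inf_right (D.W j) h)])

/-- The glued module restricts to the given ones. -/
def π (i : D.ι) : IsoOn (D.W i) D.glued (D.N i) where
  hom := D.proj i
  inv := D.inj i
  hom_inv_id := by
    ext V hV s
    refine Subtype.ext (funext fun j => ?_)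
    show (D.φ i j).hom.app _ _ (mres (D.N i) _ (mres (D.N i) _ ((show D.sec V from s).1 i))) = _
    rw [mres_mres]
    exact D.proj_spec i V hV s j
  inv_hom_id := by
    ext V hV x
    show mres (D.N i) _ ((D.φ i i).hom.app _ _ (mres (D.N i) _ x)) = x
    rw [D.φ_self, mres_mres, mres_self]

lemma π_compat (i j : D.ι) (V : X.Opens) (hi : V ≤ D.W i) (hj : V ≤ D.W j) (s : Γ(D.glued, V)) :
    (D.φ i j).hom.app V (le_inf hi hj) ((D.π i).hom.app V hi s) = (D.π j).hom.app V hj s :=
  sec_compat (show D.sec V from s) i j V (le_inf le_rfl hi) (le_inf le_rfl hj)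

end GlueDatum

end FermatLib.AV.Glue
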