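import Fermat.Agent.AV.Jac.GlueModules

/-!
Rigidifications of sheaves of modules along a section, and normalisation of isomorphisms.
-/

set_option autoImplicit false

universe u

open CategoryTheory TopologicalSpace AlgebraicGeometry Opposite

noncomputable section

namespace FermatLib.AV.Glue

variable {X T : Scheme.{u}}

/-- Pull back functions along a morphism. -/
def pb (σ : T ⟶ X) {V : X.Opens} {U : T.Opens} (e : U ≤ σ ⁻¹ᵁ V) : Γ(X, V) →+* Γ(T, U) :=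
  (σ.appLE V U e).hom

@[simp] lemma rres_pb (σ : T ⟶ X) {V : X.Opens} {U U' : T.Opens} (e : U ≤ σ ⁻¹ᵁ V) (h : U' ≤ U)
    (a : Γ(X, V)) : rres T h (pb σ e a) = pb σ (h.trans e) a :=
  ConcreteCategory.congr_hom (σ.appLE_map e (homOfLE h).op) a

@[simp] lemma pb_rres (σ : T ⟶ X) {V V' : X.Opens} {U : T.Opens} (e : U ≤ σ ⁻¹ᵁ V) (h : V ≤ V')
    (a : Γ(X, V')) : pb σ e (rres X h a) = pb σ (e.trans (σ.preimage_mono h)) a :=
  ConcreteCategory.congr_hom (σ.map_appLE e (homOfLE h).op) a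

lemma pb_pb {p : X ⟶ T} {σ : T ⟶ X} (hσ : σ ≫ p = 𝟙 T) {U U' : T.Opens} {V : X.Opens}
    (e : V ≤ p ⁻¹ᵁ U) (e' : U' ≤ σ ⁻¹ᵁ V) (h : U' ≤ U) (a : Γ(T, U)) :
    pb σ e' (pb p e a) = rres T h a := by
  show (p.appLE U V e ≫ σ.appLE V U' e') a = _
  rw [Scheme.Hom.appLE_comp_appLE]
  simp only [hσ]
  show (Scheme.Hom.app (𝟙 T) U ≫ T.presheaf.map _) a = _
  simp [rres]; rfl

lemma preimage_section {p : X ⟶ T} {σ : T ⟶ X} (hσ : σ ≫ p = 𝟙 T) (U : T.Opens) :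
    σ ⁻¹ᵁ (p ⁻¹ᵁ U) = U := by
  rw [← Scheme.Hom.comp_preimage, hσ, Scheme.Hom.id_preimage]

/-- Multiplication by a function. -/
def HomOn.scalar {W : X.Opens} (N : X.Modules) (a : Γ(X, W)) : HomOn W N N where
  app V hV := DistribSMul.toAddMonoidHom Γ(N, V) (rres X hV a)
  app_smul V hV b s := smul_comm (rres X hV a) b s
  app_res A B hA h s := by
    show mres N h (rres X hA a • s) = rres X (h.trans hA) a • mres N h s
    simp

@[simp] lemma HomOn.scalar_app {W : X.Opens} (N : X.Modules) (a : Γ(X, W)) (V : X.Opens)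
    (hV : V ≤ W) (s : Γ(N, V)) : (HomOn.scalar N a).app V hV s = rres X hV a • s := rfl

/-- Multiplication by a unit. -/
def IsoOn.scalar {W : X.Opens} (N : X.Modules) (a : Γ(X, W)ˣ) : IsoOn W N N where
  hom := HomOn.scalar N a
  inv := HomOn.scalar N (↑a⁻¹ : Γ(X, W))
  hom_inv_id := by ext V hV s; simp [smul_smul, ← map_mul]
  inv_hom_id := by ext V hV s; simp [smul_smul, ← map_mul]

/-- Locally free of rank one below `W`. -/
def LocFree (N : X.Modules) (W : X.Opens) : Prop :=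
  ∀ x ∈ W, ∃ (V : X.Opens) (_ : V ≤ W), x ∈ V ∧ ∃ e : Γ(N, V),
    ∀ (V' : X.Opens) (h : V' ≤ V), Function.Bijective fun a : Γ(X, V') => a • mres N h e

lemma LocFree.mono {N : X.Modules} {W W' : X.Opens} (h : LocFree N W) (hW : W' ≤ W) :
    LocFree N W' := by
  intro x hx
  obtain ⟨V, hV, hxV, e, he⟩ := h x (hW hx)
  refine ⟨V ⊓ W', inf_le_right, ⟨hxV, hx⟩, mres N inf_le_left e, fun V' h' => ?_⟩
  simpa using he V' (h'.trans inf_le_left)

lemma LocFree.ofIsoOn {N N' : X.Modules} {W : X.Opens} (h : LocFree N W) (α : IsoOn W N N') :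
    LocFree N' W := by
  intro x hx
  obtain ⟨V, hV, hxV, e, he⟩ := h x hx
  refine ⟨V, hV, hxV, α.hom.app V hV e, fun V' h' => ?_⟩
  have : (fun a : Γ(X, V') => a • mres N' h' (α.hom.app V hV e)) =
      α.hom.app V' (h'.trans hV) ∘ fun a : Γ(X, V') => a • mres N h' e := by
    funext a; simp [α.hom.app_res _ _ _ h']
  rw [this]
  exact (Function.Bijective.comp (g := α.hom.app V' (h'.trans hV))
    ⟨Function.LeftInverse.injective fun s => α.hom_inv_app V' (h'.trans hV) s,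
     Function.RightInverse.surjective fun s => α.inv_hom_app V' (h'.trans hV) s⟩ (he V' h'))

/-- A rigidification below `W` of a module along `σ`: a semilinear map to functions on the source
of `σ` whose image locally contains units. -/
structure Rig (σ : T ⟶ X) (N : X.Modules) (W : X.Opens) : Type u where
  app : ∀ V : X.Opens, V ≤ W → (Γ(N, V) →+ Γ(T, σ ⁻¹ᵁ V))
  app_smul : ∀ (V : X.Opens) (hV : V ≤ W) (a : Γ(X, V)) (s : Γ(N, V)),
    app V hV (a • s) = pb σ le_rfl a * app V hV s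
  app_res : ∀ (U V : X.Opens) (hU : U ≤ W) (h : V ≤ U) (s : Γ(N, U)),
    rres T (σ.preimage_mono h) (app U hU s) = app V (h.trans hU) (mres N h s)
  gen : ∀ τ : T, σ τ ∈ W → ∃ (V : X.Opens) (hV : V ≤ W), σ τ ∈ V ∧
    ∃ s : Γ(N, V), IsUnit (app V hV s)

namespace Rig

variable {σ : T ⟶ X} {N N' : X.Modules} {W W' : X.Opens}

attribute [simp] app_smul

/-- Restriction to a smaller open. -/
def restrict (ρ : Rig σ N W) (h : W' ≤ W) : Rig σ N W' where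
  app V hV := ρ.app V (hV.trans h)
  app_smul V hV a s := ρ.app_smul V _ a s
  app_res A B hA h' s := ρ.app_res A B _ h' s
  gen τ hτ := by
    obtain ⟨V, hV, hτV, s, hs⟩ := ρ.gen τ (h hτ)
    refine ⟨V ⊓ W', inf_le_right, ⟨hτV, hτ⟩, mres N inf_le_left s, ?_⟩
    have := hs.map (rres T (σ.preimage_mono (inf_le_left : V ⊓ W' ≤ V)))
    rwa [ρ.app_res] at this

@[simp] lemma restrict_app (ρ : Rig σ N W) (h : W' ≤ W) (V : X.Opens) (hV : V ≤ W')
    (s : Γ(N, V)) : (ρ.restrict h).app V hV s = ρ.app V (hV.trans h) s := rfl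

/-- An isomorphism respects two rigidifications. -/
def Compat (ρ : Rig σ N W) (ρ' : Rig σ N' W) (α : IsoOn W N N') : Prop :=
  ∀ (V : X.Opens) (hV : V ≤ W) (s : Γ(N, V)), ρ'.app V hV (α.hom.app V hV s) = ρ.app V hV s

lemma cross (ρ : Rig σ N W) (ρ' : Rig σ N' W) (hN : LocFree N W) (f : HomOn W N N')
    (V : X.Opens) (hV : V ≤ W) (s s' : Γ(N, V)) :
    ρ'.app V hV (f.app V hV s) * ρ.app V hV s' = ρ'.app V hV (f.app V hV s') * ρ.app V hV s := by
  refine req_of_forall_nhds fun τ hτ => ?_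
  obtain ⟨V₁, hV₁, hτ₁, e, he⟩ := hN (σ τ) (hV hτ)
  refine ⟨σ ⁻¹ᵁ (V ⊓ V₁), σ.preimage_mono inf_le_left, ⟨hτ, hτ₁⟩, ?_⟩
  obtain ⟨a, ha⟩ := (he _ (inf_le_right : V ⊓ V₁ ≤ V₁)).2 (mres N inf_le_left s)
  obtain ⟨a', ha'⟩ := (he _ (inf_le_right : V ⊓ V₁ ≤ V₁)).2 (mres N inf_le_left s')
  simp only [map_mul, ρ.app_res _ _ _ inf_le_left, ρ'.app_res _ _ _ inf_le_left,
    f.app_res _ _ _ inf_le_left, ← ha, ← ha', HomOn.app_smul, app_smul]
  ring

/-- The ratio of two rigidifications under a morphism. -/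
lemma exists_ratio (ρ : Rig σ N W) (ρ' : Rig σ N' W) (hN : LocFree N W) (f : HomOn W N N') :
    ∃ b : Γ(T, σ ⁻¹ᵁ W), ∀ (V : X.Opens) (hV : V ≤ W) (s : Γ(N, V)),
      ρ'.app V hV (f.app V hV s) = rres T (σ.preimage_mono hV) b * ρ.app V hV s := by
  have := ρ.gen
  choose U hU hmem s hs using fun τ : (σ ⁻¹ᵁ W : T.Opens) => ρ.gen τ.1 τ.2
  let c : ∀ τ, Γ(T, σ ⁻¹ᵁ U τ) := fun τ =>
    ρ'.app (U τ) (hU τ) (f.app (U τ) (hU τ) (s τ)) * ↑(hs τ).unit⁻¹
  have hc : ∀ τ (V : X.Opens) (hVU : V ≤ U τ) (t : Γ(N, V)),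
      ρ'.app V (hVU.trans (hU τ)) (f.app V (hVU.trans (hU τ)) t) =
        rres T (σ.preimage_mono hVU) (c τ) * ρ.app V (hVU.trans (hU τ)) t := by
    intro τ V hVU t
    have h1 := cross ρ ρ' hN f V (hVU.trans (hU τ)) t (mres N hVU (s τ))
    have h2 : rres T (σ.preimage_mono hVU) (c τ) * ρ.app V (hVU.trans (hU τ)) (mres N hVU (s τ)) =
        ρ'.app V (hVU.trans (hU τ)) (f.app V (hVU.trans (hU τ)) (mres N hVU (s τ))) := by
      rw [← ρ.app_res _ _ (hU τ) hVU, ← f.app_res _ _ (hU τ) hVU, ← ρ'.app_res _ _ (hU τ) hVU,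
        ← map_mul]
      congr 1
      simp [c, mul_assoc]
    have hu : IsUnit (ρ.app V (hVU.trans (hU τ)) (mres N hVU (s τ))) := by
      rw [← ρ.app_res _ _ (hU τ) hVU]; exact (hs τ).map _
    apply hu.mul_right_cancel
    rw [h1, ← h2]
    ring
  have hcov : σ ⁻¹ᵁ W ≤ iSup fun τ => σ ⁻¹ᵁ U τ :=
    fun τ hτ => Opens.mem_iSup.2 ⟨⟨τ, hτ⟩, hmem ⟨τ, hτ⟩⟩
  obtain ⟨b, hb⟩ := exists_rglue (fun τ => σ ⁻¹ᵁ U τ) (fun τ => σ.preimage_mono (hU τ)) hcov c
    fun τ τ' => by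
      have h1 := hc τ (U τ ⊓ U τ') inf_le_left (mres N inf_le_left (s τ))
      have h2 := hc τ' (U τ ⊓ U τ') inf_le_right (mres N inf_le_left (s τ))
      have hu : IsUnit (ρ.app (U τ ⊓ U τ') (inf_le_left.trans (hU τ))
          (mres N inf_le_left (s τ))) := by
        rw [← ρ.app_res _ _ (hU τ) inf_le_left]; exact (hs τ).map _
      exact hu.mul_right_cancel (h1.symm.trans h2)
  refine ⟨b, fun V hV t => req_of_forall_nhds fun τ hτ => ?_⟩
  refine ⟨σ ⁻¹ᵁ (V ⊓ U ⟨τ, hV hτ⟩), σ.preimage_mono inf_le_left, ⟨hτ, hmem _⟩, ?_⟩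
  conv_rhs => rw [map_mul, ρ.app_res _ _ _ inf_le_left]
  rw [ρ'.app_res _ _ _ inf_le_left, f.app_res _ _ _ inf_le_left, hc _ _ inf_le_right]
  congr 1
  rw [← hb ⟨τ, hV hτ⟩, rres_rres, rres_rres]

lemma ratio_unique (ρ : Rig σ N W) {b b' : Γ(T, σ ⁻¹ᵁ W)}
    (h : ∀ (V : X.Opens) (hV : V ≤ W) (s : Γ(N, V)),
      rres T (σ.preimage_mono hV) b * ρ.app V hV s =
        rres T (σ.preimage_mono hV) b' * ρ.app V hV s) : b = b' := by
  refine req_of_forall_nhds fun τ hτ => ?_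
  obtain ⟨V, hV, hτV, s, hs⟩ := ρ.gen τ hτ
  exact ⟨σ ⁻¹ᵁ V, σ.preimage_mono hV, hτV, hs.mul_right_cancel (h V hV s)⟩

variable {p : X ⟶ T}

/-- An isomorphism below `p⁻¹(T')` can be changed to respect the rigidifications. -/
lemma exists_compat (hσ : σ ≫ p = 𝟙 T) {T' : T.Opens} (ρ : Rig σ N (p ⁻¹ᵁ T'))
    (ρ' : Rig σ N' (p ⁻¹ᵁ T')) (hN : LocFree N (p ⁻¹ᵁ T')) (α : IsoOn (p ⁻¹ᵁ T') N N') :
    ∃ β, Compat ρ ρ' β := by
  obtain ⟨b, hb⟩ := exists_ratio ρ ρ' hN α.hom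
  obtain ⟨b', hb'⟩ := exists_ratio ρ' ρ (hN.ofIsoOn α) α.inv
  have h1 : b' * b = 1 := by
    refine ratio_unique ρ fun V hV s => ?_
    have := hb' V hV (α.hom.app V hV s)
    rw [α.hom_inv_app, hb V hV s] at this
    rw [map_mul, mul_assoc, ← this]; simp
  have h2 : T' ≤ σ ⁻¹ᵁ (p ⁻¹ᵁ T') := (preimage_section hσ T').ge
  let u : Γ(X, p ⁻¹ᵁ T')ˣ := Units.map (pb p le_rfl).toMonoidHom
    ⟨rres T h2 b', rres T h2 b, by rw [← map_mul, h1, map_one],
      by rw [← map_mul, mul_comm, h1, map_one]⟩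
  refine ⟨(IsoOn.scalar N u).trans α, fun V hV s => ?_⟩
  show ρ'.app V hV (α.hom.app V hV (rres X hV (pb p le_rfl (rres T h2 b')) • s)) = _
  rw [HomOn.app_smul, app_smul, hb V hV s, pb_rres, pb_pb hσ _ _
    ((σ.preimage_mono hV).trans (preimage_section hσ T').le), rres_rres, ← mul_assoc, ← map_mul,
    h1, map_one, one_mul]

/-- Automorphisms respecting a rigidification are trivial when functions on `p⁻¹` are constant. -/
lemma endo_eq_id (hσ : σ ≫ p = 𝟙 T) {T' : T.Opens} (ρ : Rig σ N (p ⁻¹ᵁ T'))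
    (hN : LocFree N (p ⁻¹ᵁ T'))
    (hconst : ∀ a : Γ(X, p ⁻¹ᵁ T'), pb σ (preimage_section hσ T').ge a = 1 → a = 1)
    (f : HomOn (p ⁻¹ᵁ T') N N)
    (hf : ∀ (V : X.Opens) (hV : V ≤ p ⁻¹ᵁ T') (s : Γ(N, V)),
      ρ.app V hV (f.app V hV s) = ρ.app V hV s) :
    f = HomOn.id _ N := by
  choose U hU hmem e he using fun x : (p ⁻¹ᵁ T' : X.Opens) => hN x.1 x.2
  choose a ha using fun x => (he x (U x) le_rfl).2 (f.app (U x) (hU x) (e x))
  simp only [mres_self] at ha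
  have hfa : ∀ x (V : X.Opens) (hVU : V ≤ U x) (t : Γ(N, V)),
      f.app V (hVU.trans (hU x)) t = rres X hVU (a x) • t := by
    intro x V hVU t
    obtain ⟨r, rfl⟩ := (he x V hVU).2 t
    simp only [HomOn.app_smul, ← f.app_res _ _ (hU x) hVU, ← ha, mres_smul, smul_comm r]
  obtain ⟨A, hA⟩ := exists_rglue (V := p ⁻¹ᵁ T') U hU
    (fun x hx => Opens.mem_iSup.2 ⟨⟨x, hx⟩, hmem ⟨x, hx⟩⟩) a fun x y => by
      apply (he x (U x ⊓ U y) inf_le_left).1
      show rres X _ (a x) • _ = rres X _ (a y) • _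
      rw [← hfa x _ inf_le_left, ← hfa y _ inf_le_right]
  have hall : ∀ (V : X.Opens) (hV : V ≤ p ⁻¹ᵁ T') (t : Γ(N, V)),
      f.app V hV t = rres X hV A • t := by
    intro V hV t
    refine eq_of_forall_nhds N fun x hx => ⟨V ⊓ U ⟨x, hV hx⟩, inf_le_left, ⟨hx, hmem _⟩, ?_⟩
    rw [f.app_res _ _ _ inf_le_left, hfa _ _ inf_le_right, mres_smul, ← hA, rres_rres, rres_rres]
  have hA1 : A = 1 := by
    apply hconst
    have h : pb σ le_rfl A = 1 := by
      refine ratio_unique ρ fun V hV s => ?_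
      have := hf V hV s
      rw [hall, app_smul, pb_rres] at this
      rw [rres_pb, map_one, one_mul, this]
    have := congrArg (rres T (preimage_section hσ T').ge) h
    rwa [rres_pb, map_one] at this
  ext V hV s
  simp [hall, hA1]

lemma compat_unique (hσ : σ ≫ p = 𝟙 T) {T' : T.Opens} {ρ : Rig σ N (p ⁻¹ᵁ T')}
    {ρ' : Rig σ N' (p ⁻¹ᵁ T')} (hN : LocFree N (p ⁻¹ᵁ T'))
    (hconst : ∀ a : Γ(X, p ⁻¹ᵁ T'), pb σ (preimage_section hσ T').ge a = 1 → a = 1)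
    {α β : IsoOn (p ⁻¹ᵁ T') N N'} (hα : Compat ρ ρ' α) (hβ : Compat ρ ρ' β) : α = β := by
  have h := endo_eq_id hσ ρ hN hconst (α.hom.comp β.inv) fun V hV s => by
    rw [HomOn.comp_app, ← hβ V hV (β.inv.app V hV _), β.inv_hom_app, hα V hV s]
  ext V hV s
  have h' : β.inv.app V hV (α.hom.app V hV s) = s :=
    congrArg (fun f : HomOn _ N N => f.app V hV s) h
  conv_rhs => rw [← h', β.inv_hom_app]

end Rig

end FermatLib.AV.Glue
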