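import Fermat.Agent.AV.Jac.GlueCompare

/-!
Gluing rigidified modules along an open cover.
-/

set_option autoImplicit false

universe u

open CategoryTheory TopologicalSpace AlgebraicGeometry Opposite

noncomputable section

namespace FermatLib.AV.Glue

variable {X T : Scheme.{u}} {σ : T ⟶ X} {p : X ⟶ T}

lemma LocFree.sup {N : X.Modules} {ι : Type u} {W : X.Opens} (U : ι → X.Opens) (hW : W ≤ iSup U)
    (h : ∀ i, LocFree N (U i)) : LocFree N W :=
  LocFree.of_cover fun x hx => by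
    obtain ⟨i, hi⟩ := Opens.mem_iSup.1 (hW hx)
    exact ⟨U i, hi, h i⟩

/-- Gluing of compatible rigidifications. -/
lemma Rig.exists_glue {M : X.Modules} {ι : Type u} (U : ι → X.Opens) (hU : ⊤ ≤ iSup U)
    (ρ : ∀ i, Rig σ M (U i))
    (hρ : ∀ i j (V : X.Opens) (hi : V ≤ U i) (hj : V ≤ U j) (s : Γ(M, V)),
      (ρ i).app V hi s = (ρ j).app V hj s) :
    ∃ r : Rig σ M ⊤, ∀ i (V : X.Opens) (hi : V ≤ U i) (s : Γ(M, V)),
      r.app V le_top s = (ρ i).app V hi s := by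
  have key : ∀ (V : X.Opens) (s : Γ(M, V)), ∃ t : Γ(T, σ ⁻¹ᵁ V), ∀ i,
      rres T (σ.preimage_mono (inf_le_left : V ⊓ U i ≤ V)) t =
        (ρ i).app (V ⊓ U i) inf_le_right (mres M inf_le_left s) := by
    intro V s
    refine exists_rglue (fun i => σ ⁻¹ᵁ (V ⊓ U i)) (fun i => σ.preimage_mono inf_le_left) ?_ _
      fun i j => ?_
    · intro τ hτ
      obtain ⟨i, hi⟩ := Opens.mem_iSup.1 (hU (trivial : σ τ ∈ (⊤ : X.Opens)))
      exact Opens.mem_iSup.2 ⟨i, hτ, hi⟩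
    · show rres T (inf_le_left : σ ⁻¹ᵁ (V ⊓ U i) ⊓ σ ⁻¹ᵁ (V ⊓ U j) ≤ _) _ = rres T inf_le_right _
      have hle : σ ⁻¹ᵁ (V ⊓ U i) ⊓ σ ⁻¹ᵁ (V ⊓ U j) ≤ σ ⁻¹ᵁ ((V ⊓ U i) ⊓ (V ⊓ U j)) :=
        σ.preimage_inf.ge
      rw [← rres_rres (σ.preimage_mono inf_le_left) hle, ← rres_rres (σ.preimage_mono inf_le_right) hle,
        (ρ i).app_res _ _ _ inf_le_left, (ρ j).app_res _ _ _ inf_le_right, mres_mres, mres_mres,
        hρ i j]
  choose g hg using key
  have uniq : ∀ (V : X.Opens) (s : Γ(M, V)) (t : Γ(T, σ ⁻¹ᵁ V)), (∀ i,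
      rres T (σ.preimage_mono (inf_le_left : V ⊓ U i ≤ V)) t =
        (ρ i).app (V ⊓ U i) inf_le_right (mres M inf_le_left s)) → t = g V s := by
    intro V s t ht
    refine req_of_forall_nhds fun τ hτ => ?_
    obtain ⟨i, hi⟩ := Opens.mem_iSup.1 (hU (trivial : σ τ ∈ (⊤ : X.Opens)))
    exact ⟨σ ⁻¹ᵁ (V ⊓ U i), σ.preimage_mono inf_le_left, ⟨hτ, hi⟩, (ht i).trans (hg V s i).symm⟩
  have hgi : ∀ i (V : X.Opens) (hi : V ≤ U i) (s : Γ(M, V)), g V s = (ρ i).app V hi s := by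
    intro i V hi s
    refine (uniq V s _ fun j => ?_).symm
    rw [(ρ i).app_res _ _ hi inf_le_left]
    exact hρ i j _ _ _ _
  refine ⟨⟨fun V _ => AddMonoidHom.mk' (g V) fun a b => ?_, fun V _ a s => ?_,
    fun A B _ hAB s => ?_, fun τ _ => ?_⟩, hgi⟩
  · exact (uniq V _ _ fun i => by simp [hg]).symm
  · exact (uniq V _ _ fun i => by simp [hg]).symm
  · refine uniq B _ _ fun i => ?_
    have := congrArg (rres T (σ.preimage_mono (inf_le_inf_right (U i) hAB))) (hg A s i)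
    rw [(ρ i).app_res _ _ _ (inf_le_inf_right (U i) hAB)] at this
    simpa using this
  · obtain ⟨i, hi⟩ := Opens.mem_iSup.1 (hU (trivial : σ τ ∈ (⊤ : X.Opens)))
    obtain ⟨V, hV, hτV, s, hs⟩ := (ρ i).gen τ hi
    exact ⟨V, le_top, hτV, s, by rw [AddMonoidHom.mk'_apply, hgi i V hV]; exact hs⟩

/-- Transport of a rigidification. -/
def Rig.transport {M N : X.Modules} {W : X.Opens} (ρ : Rig σ N W) (α : IsoOn W M N) :
    Rig σ M W where
  app V hV := (ρ.app V hV).comp (α.hom.app V hV)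
  app_smul V hV a s := by simp
  app_res A B hA h s := by
    simp only [AddMonoidHom.comp_apply, ρ.app_res A B hA h, α.hom.app_res A B hA h]
  gen τ hτ := by
    obtain ⟨V, hV, hτV, s, hs⟩ := ρ.gen τ hτ
    exact ⟨V, hV, hτV, α.inv.app V hV s, by simpa using hs⟩

/-- Functions on the preimage of `T'` which are `1` along the section are `1`. -/
def ConstOn (p : X ⟶ T) (hσ : σ ≫ p = 𝟙 T) : Prop :=
  ∀ (T' : T.Opens) (a : Γ(X, p ⁻¹ᵁ T')), pb σ (preimage_section hσ T').ge a = 1 → a = 1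

/-- Rigidified locally free rank one modules which are pairwise isomorphic on overlaps glue. -/
theorem exists_glue_rigidified (hσ : σ ≫ p = 𝟙 T) (hconst : ConstOn p hσ) {ι : Type u}
    (U : ι → T.Opens) (hU : ⊤ ≤ iSup U) (N : ι → X.Modules)
    (hN : ∀ i, LocFree (N i) (p ⁻¹ᵁ U i)) (ρ : ∀ i, Rig σ (N i) (p ⁻¹ᵁ U i))
    (hiso : ∀ i j, Nonempty (IsoOn (p ⁻¹ᵁ (U i ⊓ U j)) (N i) (N j))) :
    ∃ M : X.Modules, LocFree M ⊤ ∧ Nonempty (Rig σ M ⊤) ∧
      ∀ i, Nonempty (IsoOn (p ⁻¹ᵁ U i) M (N i)) := by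
  let r : ∀ i j, Rig σ (N i) (p ⁻¹ᵁ (U i ⊓ U j)) := fun i j =>
    (ρ i).restrict (p.preimage_mono inf_le_left)
  let r' : ∀ i j, Rig σ (N j) (p ⁻¹ᵁ (U i ⊓ U j)) := fun i j =>
    (ρ j).restrict (p.preimage_mono inf_le_right)
  choose φ hφ using fun i j => Rig.exists_compat hσ (r i j) (r' i j)
    ((hN i).mono (p.preimage_mono inf_le_left)) (hiso i j).some
  have hle : ∀ i j, p ⁻¹ᵁ U i ⊓ p ⁻¹ᵁ U j ≤ p ⁻¹ᵁ (U i ⊓ U j) := fun i j =>
    p.preimage_inf.ge
  have hcover : iSup (fun i => p ⁻¹ᵁ U i) = ⊤ := by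
    refine top_unique fun x _ => ?_
    obtain ⟨i, hi⟩ := Opens.mem_iSup.1 (hU (trivial : p x ∈ (⊤ : T.Opens)))
    exact Opens.mem_iSup.2 ⟨i, hi⟩
  let D : GlueDatum X :=
    { ι := ι
      W := fun i => p ⁻¹ᵁ U i
      cover := hcover
      N := N
      φ := fun i j => (φ i j).restrict (hle i j)
      cocycle := fun i j l V hi hj hl s => by
        have hV : V ≤ p ⁻¹ᵁ (U i ⊓ U j ⊓ U l) :=
          (le_inf (le_inf hi hj) hl).trans_eq (by simp [Scheme.Hom.preimage_inf])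
        have h1 : U i ⊓ U j ⊓ U l ≤ U i ⊓ U j := inf_le_left
        have h2 : U i ⊓ U j ⊓ U l ≤ U j ⊓ U l :=
          le_inf (inf_le_left.trans inf_le_right) inf_le_right
        have h3 : U i ⊓ U j ⊓ U l ≤ U i ⊓ U l :=
          le_inf (inf_le_left.trans inf_le_left) inf_le_right
        have := Rig.compat_unique hσ (ρ := (r i j).restrict (p.preimage_mono h1))
          (ρ' := (r' j l).restrict (p.preimage_mono h2))
          ((hN i).mono (p.preimage_mono (h1.trans inf_le_left))) (hconst _)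
          (α := ((φ i j).restrict (p.preimage_mono h1)).trans
            ((φ j l).restrict (p.preimage_mono h2)))
          (β := (φ i l).restrict (p.preimage_mono h3))
          (fun A hA t => (hφ j l A _ _).trans (hφ i j A _ t))
          (fun A hA t => hφ i l A _ t)
        exact congrArg (fun e : IsoOn _ _ _ => e.hom.app V hV s) this }
  have hcov : (⊤ : X.Opens) ≤ iSup fun i => p ⁻¹ᵁ U i := hcover.ge
  refine ⟨D.glued, LocFree.sup _ hcov fun i => (hN i).ofIsoOn (D.π i).symm, ?_,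
    fun i => ⟨D.π i⟩⟩
  obtain ⟨ρg, -⟩ := Rig.exists_glue (fun i => p ⁻¹ᵁ U i) hcov
    (fun i => (ρ i).transport (D.π i)) fun i j V hi hj s => by
      show (ρ i).app V hi ((D.π i).hom.app V hi s) = (ρ j).app V hj ((D.π j).hom.app V hj s)
      rw [← D.π_compat i j V hi hj s]
      exact (hφ i j V ((le_inf hi hj).trans (hle i j)) _).symm
  exact ⟨ρg⟩

/-- Rigidified modules which are locally isomorphic over the base are isomorphic. -/
theorem nonempty_iso_of_locally (hσ : σ ≫ p = 𝟙 T) (hconst : ConstOn p hσ) {ι : Type u}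
    (U : ι → T.Opens) (hU : ⊤ ≤ iSup U) {M M' : X.Modules} (hM : LocFree M ⊤)
    (ρ : Rig σ M ⊤) (ρ' : Rig σ M' ⊤)
    (hiso : ∀ i, Nonempty (IsoOn (p ⁻¹ᵁ U i) M M')) : Nonempty (M ≅ M') := by
  choose φ hφ using fun i => Rig.exists_compat hσ (T' := U i) (ρ.restrict le_top)
    (ρ'.restrict le_top) (hM.mono le_top) (hiso i).some
  have hcov : (⊤ : X.Opens) ≤ iSup fun i => p ⁻¹ᵁ U i := fun x _ => by
    obtain ⟨i, hi⟩ := Opens.mem_iSup.1 (hU (trivial : p x ∈ (⊤ : T.Opens)))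
    exact Opens.mem_iSup.2 ⟨i, hi⟩
  obtain ⟨g, -⟩ := IsoOn.exists_glue (fun i => p ⁻¹ᵁ U i) hcov φ fun i j V hi hj s => by
    have hV : V ≤ p ⁻¹ᵁ (U i ⊓ U j) := (le_inf hi hj).trans_eq p.preimage_inf.symm
    have := Rig.compat_unique hσ (ρ := ρ.restrict le_top) (ρ' := ρ'.restrict le_top)
      (hM.mono le_top) (hconst _)
      (α := (φ i).restrict (p.preimage_mono inf_le_left))
      (β := (φ j).restrict (p.preimage_mono inf_le_right))
      (fun A hA t => hφ i A _ t) (fun A hA t => hφ j A _ t)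
    exact congrArg (fun e : IsoOn _ _ _ => e.hom.app V hV s) this
  exact ⟨g.toIso⟩

end FermatLib.AV.Glue
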